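/-
S55 / 35-LIM-ABS (helper99), complement: `p`-primary statements pass to the directed colimit.
Mathlib + LimDesc99 only.
-/
import Fermat.Agent.S55.LimDesc99

set_option autoImplicit false

namespace Fermat.Agent.S55.LimDesc99

universe u v w t

namespace Pres

variable {ι : Type u} [Preorder ι] {X : ι → Type v} [∀ i, AddCommGroup (X i)]
  {Y : Type w} [AddCommGroup Y] (P : Pres ι X Y)
  {T : Type t} [AddCommGroup T]

/-- an element of the limit killed by `m` is the inflation of a finite-level element killed by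
`m`. -/
theorem exists_infl_eq_of_nsmul_eq_zero (m : ℕ) (y : Y) (hy : m • y = 0) :
    ∃ i, ∃ x : X i, m • x = 0 ∧ P.infl i x = y := by
  obtain ⟨i, x, rfl⟩ := P.surj y
  have h0 : P.infl i (m • x) = 0 := by rw [map_nsmul, hy]
  obtain ⟨j, hji, hj⟩ := P.ker i _ h0
  refine ⟨j, P.trans hji x, ?_, P.infl_trans hji x⟩
  rw [← map_nsmul, hj]

/-- **injectivity on `m`-torsion classes passes to the limit**: if every finite-level `f i` is
injective on the elements killed by `m`, so is the descended map. -/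
theorem desc_eq_zero_of_nsmul_eq_zero (f : ∀ i, X i →+ T) (hf : P.Compat f) (m : ℕ)
    (h : ∀ i (x : X i), m • x = 0 → f i x = 0 → x = 0)
    (y : Y) (hy : m • y = 0) (h0 : P.desc f hf y = 0) : y = 0 := by
  obtain ⟨i, x, hx, rfl⟩ := P.exists_infl_eq_of_nsmul_eq_zero m y hy
  rw [desc_infl] at h0
  rw [h i x hx h0, map_zero]

/-- the `p`-primary form (`∃ n, p ^ n • y = 0`). -/
theorem desc_eq_zero_of_primary (f : ∀ i, X i →+ T) (hf : P.Compat f) (p : ℕ)
    (h : ∀ i (x : X i) (n : ℕ), (p ^ n) • x = 0 → f i x = 0 → x = 0)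
    (y : Y) (n : ℕ) (hy : (p ^ n) • y = 0) (h0 : P.desc f hf y = 0) : y = 0 :=
  P.desc_eq_zero_of_nsmul_eq_zero f hf (p ^ n) (fun i x hx => h i x n hx) y hy h0

/-- joint injectivity of a finite family of descended maps on `m`-torsion (the shape of
`hinj` for `H²(J)`: a class all of whose local invariants vanish is zero). -/
theorem eq_zero_of_forall_desc_eq_zero {W : Type*} (f : W → ∀ i, X i →+ T)
    (hf : ∀ w, P.Compat (f w)) (m : ℕ)
    (h : ∀ i (x : X i), m • x = 0 → (∀ w, f w i x = 0) → x = 0)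
    (y : Y) (hy : m • y = 0) (h0 : ∀ w, P.desc (f w) (hf w) y = 0) : y = 0 := by
  obtain ⟨i, x, hx, rfl⟩ := P.exists_infl_eq_of_nsmul_eq_zero m y hy
  have : ∀ w, f w i x = 0 := fun w => by
    have := h0 w
    rwa [desc_infl] at this
  rw [h i x hx this, map_zero]

/-- realisation of prescribed values in the limit from some finite level (shape of `hsurj`). -/
theorem exists_desc_eq {W : Type*} (f : W → ∀ i, X i →+ T) (hf : ∀ w, P.Compat (f w)) (m : ℕ)
    (t : W → T) (h : ∃ i, ∃ x : X i, m • x = 0 ∧ ∀ w, f w i x = t w) :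
    ∃ y : Y, m • y = 0 ∧ ∀ w, P.desc (f w) (hf w) y = t w := by
  obtain ⟨i, x, hx, hxt⟩ := h
  refine ⟨P.infl i x, ?_, fun w => ?_⟩
  · rw [← map_nsmul, hx, map_zero]
  · rw [desc_infl, hxt]

/-- vanishing of the limit from cofinal vanishing: if every finite-level class dies at a deeper
level then `Y = 0` (shape of `H¹(C) = 0`, `H³(J) = 0` in "dies at a bigger level" form). -/
theorem eq_zero_of_forall_exists_trans_eq_zero
    (h : ∀ i (x : X i), ∃ j, ∃ hji : j ≤ i, P.trans hji x = 0) (y : Y) : y = 0 := by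
  obtain ⟨i, x, rfl⟩ := P.surj y
  obtain ⟨j, hji, hj⟩ := h i x
  rw [← P.infl_trans hji, hj, map_zero]

end Pres

end Fermat.Agent.S55.LimDesc99
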