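/-
S55 / 35-LIM (L-d) (helper99): level cohomology of a smooth module as the directed colimit of the
`H²` of an ARBITRARY cofinal family of finite-level descent data
(helper79's `CS79.InvDescent.IsInvDescent A p B e`: `B = A^{ker p}` as a module of `Q = Γ / ker p`),
e.g. `(Gal(L/K), C_S(L))`, `L` running over the finite `S`-levels above `K`.
The transition maps are identified with Mathlib's `groupCohomology.map` along ANY pair of
compatible maps, so finite-level statements proved with Mathlib's functoriality plug in directly.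
-/
import Fermat.Agent.S55.LimDesc99.Torsion
import Fermat.Agent.S55.CS79.FinLevel
import Fermat.Agent.S55.ProfinGlobal22.Desc

set_option autoImplicit false

open CategoryTheory groupCohomology
open Fermat.Agent.S55.Profin15 Fermat.Agent.S55.CS79.InvDescent Fermat.Agent.S55.CS79.FinLevel

universe u

noncomputable section

namespace Fermat.Agent.S55.LimDesc99

variable {k Γ : Type u} [CommRing k] [Group Γ]

/-- a finite-level descent datum of `A` for the level structure `𝒰`: a finite quotient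
`p : Γ ↠ Q` whose kernel is a level, and the module `B ≅ A^{ker p}` of `Q`. -/
structure Datum (𝒰 : LevelStr Γ) (A : Rep.{u, u, u} k Γ) where
  /-- the finite quotient -/
  Q : Type u
  [grp : Group Q]
  /-- the projection -/
  p : Γ →* Q
  /-- the finite-level module -/
  B : Rep.{u, u, u} k Q
  /-- its embedding into `A` -/
  e : B →ₗ[k] A
  desc : IsInvDescent A p B e
  surj : Function.Surjective p
  ker_mem : p.ker ∈ 𝒰.levels

attribute [instance] Datum.grp

namespace Datum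

variable {𝒰 : LevelStr Γ} {A : Rep.{u, u, u} k Γ}

/-! ### inflation from a datum -/

section Infl

variable (d : Datum 𝒰 A)

/-- inflation of `2`-cocycles into the level `2`-cocycles -/
def inflZ₂ : cocycles₂ d.B →ₗ[k] ↥(𝒰.Z₂ A) :=
  LinearMap.codRestrict (𝒰.Z₂ A) (pull₂ d.p d.e ∘ₗ (cocycles₂ d.B).subtype)
    (fun c => ⟨(d.desc.pull₂_mem_cocycles₂_iff d.surj _).2 c.2,
      isConst₂_pull₂ d.ker_mem le_rfl _⟩)

@[simp] theorem coe_inflZ₂ (c : cocycles₂ d.B) :
    ((d.inflZ₂ c : ↥(𝒰.Z₂ A)) : Γ × Γ → A) = pull₂ d.p d.e c := rfl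

theorem pull₂_mem_B₂ {c : d.Q × d.Q → d.B} (hc : c ∈ coboundaries₂ d.B) :
    pull₂ d.p d.e c ∈ 𝒰.B₂ A := by
  obtain ⟨y, rfl⟩ := hc
  exact (LevelStr.mem_B₂_iff 𝒰 A _).2
    ⟨pull₁ d.p d.e y, isConst₁_pull₁ d.ker_mem le_rfl y, d.desc.d₁₂_pull₁ y⟩

/-- **inflation** `H²(Q, B) → 𝒰.H2 A` -/
def infl₂ : H2 d.B →ₗ[k] 𝒰.H2 A :=
  ProfinGlobal22.H2desc d.B (𝒰.H2π A ∘ₗ d.inflZ₂) (fun c hc => by
    rw [LinearMap.comp_apply, LevelStr.H2π_eq_zero_iff]
    exact d.pull₂_mem_B₂ hc)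

@[simp] theorem infl₂_H2π (c : cocycles₂ d.B) :
    d.infl₂ ((H2π d.B).hom c) = 𝒰.H2π A (d.inflZ₂ c) :=
  ProfinGlobal22.H2desc_H2π _ _ _ c

end Infl

/-! ### transition between two data -/

section Trans

variable {d d' : Datum 𝒰 A} (h : d'.p.ker ≤ d.p.ker)

/-- the projection `Q' → Q` when `ker p' ≤ ker p` -/
def q : d'.Q →* d.Q := d'.p.liftOfSurjective d'.surj ⟨d.p, h⟩

@[simp] theorem q_p (g : Γ) : q h (d'.p g) = d.p g :=
  MonoidHom.liftOfRightInverse_comp_apply _ _ _ _ _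

theorem q_unique (q' : d'.Q →* d.Q) (hq' : ∀ g, q' (d'.p g) = d.p g) : q' = q h := by
  ext x
  obtain ⟨g, rfl⟩ := d'.surj x
  rw [hq', q_p]

include h in
theorem exists_e_eq (b : d.B) : ∃ b' : d'.B, d'.e b' = d.e b :=
  d'.desc.exists_eq (fun _ hs => d.desc.fixed b
    (MonoidHom.mem_ker.1 (h (MonoidHom.mem_ker.2 hs))))

/-- the inclusion `B → B'` as a function -/
def tFun (b : d.B) : d'.B := Classical.choose (exists_e_eq h b)

theorem e_tFun (b : d.B) : d'.e (tFun h b) = d.e b := Classical.choose_spec (exists_e_eq h b)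

/-- the inclusion `B → B'` (`A^{ker p} ⊆ A^{ker p'}`) -/
def t : d.B →ₗ[k] d'.B where
  toFun := tFun h
  map_add' b b' := d'.desc.inj (by rw [map_add, e_tFun, e_tFun, e_tFun, map_add])
  map_smul' c b := d'.desc.inj (by
    rw [map_smul, e_tFun, e_tFun, RingHom.id_apply, map_smul])

@[simp] theorem e_t (b : d.B) : d'.e (t h b) = d.e b := e_tFun h b

theorem t_unique (t' : d.B → d'.B) (ht' : ∀ b, d'.e (t' b) = d.e b) (b : d.B) : t' b = t h b :=
  d'.desc.inj (by rw [ht', e_t])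

theorem t_ρ (x : d'.Q) (b : d.B) : t h (d.B.ρ (q h x) b) = d'.B.ρ x (t h b) := by
  obtain ⟨g, rfl⟩ := d'.surj x
  apply d'.desc.inj
  rw [e_t, q_p, ← d.desc.equivariant, ← d'.desc.equivariant, e_t]

/-- `t` as a morphism of representations `Res(q)(B) ⟶ B'` -/
def tHom : Rep.res (q h) d.B ⟶ d'.B :=
  Rep.ofHom ⟨t h, fun x => by
    ext b
    exact t_ρ h x b⟩

@[simp] theorem tHom_apply (b : d.B) : (tHom h).hom b = t h b := rfl

/-- transition of `2`-cochains -/
def transFun₂ : (d.Q × d.Q → d.B) →ₗ[k] (d'.Q × d'.Q → d'.B) where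
  toFun c x := t h (c (q h x.1, q h x.2))
  map_add' _ _ := by ext; simp
  map_smul' _ _ := by ext; simp

/-- transition of `1`-cochains -/
def transFun₁ : (d.Q → d.B) →ₗ[k] (d'.Q → d'.B) where
  toFun c x := t h (c (q h x))
  map_add' _ _ := by ext; simp
  map_smul' _ _ := by ext; simp

theorem pull₂_transFun₂ (c : d.Q × d.Q → d.B) :
    pull₂ d'.p d'.e (transFun₂ h c) = pull₂ d.p d.e c := by
  funext ⟨g, g'⟩
  simp [transFun₂]

theorem pull₁_transFun₁ (c : d.Q → d.B) :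
    pull₁ d'.p d'.e (transFun₁ h c) = pull₁ d.p d.e c := by
  funext g
  simp [transFun₁]

theorem transFun₂_mem_cocycles₂ {c : d.Q × d.Q → d.B} (hc : c ∈ cocycles₂ d.B) :
    transFun₂ h c ∈ cocycles₂ d'.B := by
  rw [← d'.desc.pull₂_mem_cocycles₂_iff d'.surj, pull₂_transFun₂,
    d.desc.pull₂_mem_cocycles₂_iff d.surj]
  exact hc

theorem d₁₂_transFun₁ (y : d.Q → d.B) :
    (d₁₂ d'.B).hom (transFun₁ h y) = transFun₂ h ((d₁₂ d.B).hom y) := by
  apply pull₂_injective d'.p d'.e d'.surj d'.desc.inj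
  rw [← d'.desc.d₁₂_pull₁, pull₁_transFun₁, pull₂_transFun₂, d.desc.d₁₂_pull₁]

theorem transFun₂_mem_coboundaries₂ {c : d.Q × d.Q → d.B} (hc : c ∈ coboundaries₂ d.B) :
    transFun₂ h c ∈ coboundaries₂ d'.B := by
  obtain ⟨y, rfl⟩ := hc
  exact ⟨transFun₁ h y, d₁₂_transFun₁ h y⟩

/-- transition of `2`-cocycles -/
def transZ₂ : cocycles₂ d.B →ₗ[k] cocycles₂ d'.B :=
  LinearMap.codRestrict _ (transFun₂ h ∘ₗ (cocycles₂ d.B).subtype)
    (fun c => transFun₂_mem_cocycles₂ h c.2)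

@[simp] theorem coe_transZ₂ (c : cocycles₂ d.B) :
    ((transZ₂ h c : cocycles₂ d'.B) : d'.Q × d'.Q → d'.B) = transFun₂ h c := rfl

/-- **transition map** `H²(Q, B) → H²(Q', B')` (inflation between finite levels) -/
def trans₂ : H2 d.B →ₗ[k] H2 d'.B :=
  ProfinGlobal22.H2desc d.B ((H2π d'.B).hom ∘ₗ transZ₂ h) (fun c hc => by
    rw [LinearMap.comp_apply, H2π_eq_zero_iff]
    exact transFun₂_mem_coboundaries₂ h hc)

@[simp] theorem trans₂_H2π (c : cocycles₂ d.B) :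
    trans₂ h ((H2π d.B).hom c) = (H2π d'.B).hom (transZ₂ h c) :=
  ProfinGlobal22.H2desc_H2π _ _ _ c

theorem inflZ₂_transZ₂ (c : cocycles₂ d.B) : d'.inflZ₂ (transZ₂ h c) = d.inflZ₂ c :=
  Subtype.ext (pull₂_transFun₂ h c)

/-- inflation is compatible with the transition maps -/
theorem infl₂_trans₂ (x : H2 d.B) : d'.infl₂ (trans₂ h x) = d.infl₂ x := by
  obtain ⟨c, rfl⟩ := ProfinGlobal22.H2π_surjective d.B x
  rw [trans₂_H2π, infl₂_H2π, infl₂_H2π, inflZ₂_transZ₂]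

/-- **the transition map is Mathlib's `groupCohomology.map`** along ANY pair of compatible maps
`q' : Q' → Q`, `φ : Res(q')(B) ⟶ B'`. -/
theorem trans₂_eq_map (q' : d'.Q →* d.Q) (φ : Rep.res q' d.B ⟶ d'.B)
    (hq' : ∀ g, q' (d'.p g) = d.p g) (hφ : ∀ b : d.B, d'.e (φ.hom b) = d.e b) (x : H2 d.B) :
    trans₂ h x = (groupCohomology.map q' φ 2).hom x := by
  obtain ⟨c, rfl⟩ := ProfinGlobal22.H2π_surjective d.B x
  rw [trans₂_H2π, H2π_comp_map_apply]
  congr 1
  apply Subtype.ext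
  funext ⟨y, y'⟩
  obtain rfl := q_unique h q' hq'
  exact (t_unique h (fun b => φ.hom b) hφ _).symm

/-- in particular for the canonical pair -/
theorem trans₂_eq_map_canonical (x : H2 d.B) :
    trans₂ h x = (groupCohomology.map (q h) (tHom h) 2).hom x :=
  trans₂_eq_map h (q h) (tHom h) (q_p h) (fun b => e_t h b) x

end Trans

end Datum

/-! ### a cofinal family of data presents level `H²` -/

/-- a directed, cofinal family of finite-level descent data indexed by a preorder `ι`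
(smaller index = deeper level). -/
structure Family (𝒰 : LevelStr Γ) (A : Rep.{u, u, u} k Γ) (ι : Type*) [Preorder ι] where
  /-- the data -/
  d : ι → Datum 𝒰 A
  mono : ∀ {i j : ι}, j ≤ i → (d j).p.ker ≤ (d i).p.ker
  nonempty : Nonempty ι
  directed : ∀ i j : ι, ∃ l, l ≤ i ∧ l ≤ j
  cofinal : ∀ V ∈ 𝒰.levels, ∀ i : ι, ∃ j, j ≤ i ∧ (d j).p.ker ≤ V

namespace Family

variable {𝒰 : LevelStr Γ} {A : Rep.{u, u, u} k Γ} {ι : Type*} [Preorder ι]

/-- **`𝒰.H2 A = colim_i H²(Q_i, B_i)`** for a cofinal family of descent data. -/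
def presH2 (F : Family 𝒰 A ι) (hA : 𝒰.IsSmooth A) :
    Pres ι (fun i => H2 (F.d i).B) (𝒰.H2 A) where
  infl i := (F.d i).infl₂.toAddMonoidHom
  trans {i j} h := (Datum.trans₂ (F.mono h)).toAddMonoidHom
  infl_trans {i j} h x := Datum.infl₂_trans₂ (F.mono h) x
  directed := F.directed
  surj y := by
    obtain ⟨z, rfl⟩ := Submodule.mkQ_surjective _ y
    obtain ⟨V, hV⟩ := 𝒰.nonempty
    obtain ⟨W, hW, -, hW'⟩ := exists_level_forall_pull₂ hA z.2.2 hV
    obtain ⟨i₀⟩ := F.nonempty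
    obtain ⟨i, -, hi⟩ := F.cofinal W hW i₀
    obtain ⟨c, hc⟩ := hW' (F.d i).desc (F.d i).surj hi
    have hcz : c ∈ cocycles₂ (F.d i).B := by
      rw [← (F.d i).desc.pull₂_mem_cocycles₂_iff (F.d i).surj, ← hc]
      exact z.2.1
    refine ⟨i, (H2π (F.d i).B).hom ⟨c, hcz⟩, ?_⟩
    show (F.d i).infl₂ ((H2π (F.d i).B).hom ⟨c, hcz⟩) = _
    rw [Datum.infl₂_H2π]
    congr 1
    exact Subtype.ext hc.symm
  ker i x hx := by
    obtain ⟨c, rfl⟩ := ProfinGlobal22.H2π_surjective (F.d i).B x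
    have hx' : (F.d i).infl₂ ((H2π (F.d i).B).hom c) = 0 := hx
    rw [Datum.infl₂_H2π, LevelStr.H2π_eq_zero_iff, Datum.coe_inflZ₂] at hx'
    obtain ⟨W, hW, -, hW'⟩ := exists_level_forall_pull_coboundary hA hx' (F.d i).ker_mem
    obtain ⟨j, hji, hj⟩ := F.cofinal W hW i
    obtain ⟨y, hy⟩ := hW' (F.d j).desc (F.d j).surj hj
    refine ⟨j, hji, ?_⟩
    show Datum.trans₂ (F.mono hji) ((H2π (F.d i).B).hom c) = 0
    rw [Datum.trans₂_H2π, H2π_eq_zero_iff]
    refine ⟨y, ?_⟩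
    apply pull₂_injective (F.d j).p (F.d j).e (F.d j).surj (F.d j).desc.inj
    rw [← hy, Datum.coe_transZ₂, Datum.pull₂_transFun₂]

@[simp] theorem presH2_infl (F : Family 𝒰 A ι) (hA : 𝒰.IsSmooth A) (i : ι)
    (x : H2 (F.d i).B) : (F.presH2 hA).infl i x = (F.d i).infl₂ x := rfl

@[simp] theorem presH2_trans (F : Family 𝒰 A ι) (hA : 𝒰.IsSmooth A) {i j : ι} (h : j ≤ i)
    (x : H2 (F.d i).B) : (F.presH2 hA).trans h x = Datum.trans₂ (F.mono h) x := rfl

end Family

end Fermat.Agent.S55.LimDesc99
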