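/-
S55 / 35-LIM (L-d) (helper99): the invariant map on level `H²` as the limit of a compatible system
of finite-level invariant maps over a cofinal family of descent data (`LimDesc99.Family`), with
  * its values on inflated classes,
  * injectivity on `p`-primary classes from the finite levels,
  * naturality of inflation in the coefficient module, and
  * the compatibility `invC ∘ π_* = F` (`F` = sum of local invariants) from the finite levels.
-/
import Fermat.Agent.S55.LimDesc99.Datum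
import Fermat.Agent.S55.Profin15.Functor

set_option autoImplicit false

open CategoryTheory groupCohomology
open Fermat.Agent.S55.Profin15 Fermat.Agent.S55.CS79.InvDescent Fermat.Agent.S55.CS79.FinLevel

universe u

noncomputable section

namespace Fermat.Agent.S55.LimDesc99

variable {k Γ : Type u} [CommRing k] [Group Γ] {𝒰 : LevelStr Γ}

namespace Family

section Single

variable {A : Rep.{u, u, u} k Γ} {ι : Type*} [Preorder ι]

/-- a system of finite-level homomorphisms `inv_i : H²(Q_i, B_i) →+ T` compatible with the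
transition (inflation) maps of the family. -/
structure InvSystem (F : Family 𝒰 A ι) (T : Type*) [AddCommGroup T] where
  /-- the finite-level maps -/
  inv : ∀ i : ι, H2 (F.d i).B →+ T
  inv_trans : ∀ {i j : ι} (h : j ≤ i) (x : H2 (F.d i).B),
    inv j (Datum.trans₂ (F.mono h) x) = inv i x

variable {T : Type*} [AddCommGroup T] {F : Family 𝒰 A ι}

/-- an `InvSystem` from compatibility with Mathlib's `groupCohomology.map` along ANY compatible
pair of maps between two levels. -/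
def InvSystem.ofMap (F : Family 𝒰 A ι) (inv : ∀ i : ι, H2 (F.d i).B →+ T)
    (hinv : ∀ {i j : ι}, j ≤ i → ∃ (q' : (F.d j).Q →* (F.d i).Q)
      (φ : Rep.res q' (F.d i).B ⟶ (F.d j).B),
      (∀ g, q' ((F.d j).p g) = (F.d i).p g) ∧ (∀ b : (F.d i).B, (F.d j).e (φ.hom b) = (F.d i).e b) ∧
        ∀ x : H2 (F.d i).B, inv j ((groupCohomology.map q' φ 2).hom x) = inv i x) :
    F.InvSystem T where
  inv := inv
  inv_trans {i j} h x := by
    obtain ⟨q', φ, hq', hφ, hx⟩ := hinv h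
    rw [Datum.trans₂_eq_map (F.mono h) q' φ hq' hφ x, hx]

variable (hA : 𝒰.IsSmooth A)

theorem InvSystem.compat (I : F.InvSystem T) : (F.presH2 hA).Compat I.inv :=
  ⟨fun h x => I.inv_trans h x⟩

/-- **the invariant map on level cohomology** -/
def InvSystem.lim (I : F.InvSystem T) : 𝒰.H2 A →+ T :=
  (F.presH2 hA).desc I.inv (I.compat hA)

theorem InvSystem.lim_infl₂ (I : F.InvSystem T) (i : ι) (x : H2 (F.d i).B) :
    I.lim hA ((F.d i).infl₂ x) = I.inv i x :=
  (F.presH2 hA).desc_infl I.inv (I.compat hA) i x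

/-- the value on the class of the pull-back of a finite-level cocycle -/
theorem InvSystem.lim_H2π_inflZ₂ (I : F.InvSystem T) (i : ι) (c : cocycles₂ (F.d i).B) :
    I.lim hA (𝒰.H2π A ((F.d i).inflZ₂ c)) = I.inv i ((H2π (F.d i).B).hom c) := by
  rw [← Datum.infl₂_H2π, I.lim_infl₂]

/-- **injectivity on `p`-primary classes passes to the limit** -/
theorem InvSystem.lim_eq_zero_of_primary (I : F.InvSystem T) (p : ℕ)
    (h : ∀ (i : ι) (x : H2 (F.d i).B) (n : ℕ), (p ^ n) • x = 0 → I.inv i x = 0 → x = 0)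
    (y : 𝒰.H2 A) (n : ℕ) (hy : (p ^ n) • y = 0) (h0 : I.lim hA y = 0) : y = 0 :=
  (F.presH2 hA).desc_eq_zero_of_primary I.inv (I.compat hA) p h y n hy h0

/-- injectivity passes to the limit -/
theorem InvSystem.lim_injective (I : F.InvSystem T)
    (h : ∀ (i : ι) (x : H2 (F.d i).B), I.inv i x = 0 → x = 0) :
    Function.Injective (I.lim hA) :=
  (F.presH2 hA).desc_injective I.inv (I.compat hA) (fun i x hx => by rw [h i x hx, map_zero])

theorem InvSystem.lim_unique (I : F.InvSystem T) (G : 𝒰.H2 A →+ T)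
    (hG : ∀ (i : ι) (x : H2 (F.d i).B), G ((F.d i).infl₂ x) = I.inv i x) :
    G = I.lim hA :=
  (F.presH2 hA).desc_unique I.inv (I.compat hA) G hG

/-- two homomorphisms out of level `H²` agreeing on all inflated classes are equal -/
theorem hom_ext_infl₂ (F : Family 𝒰 A ι) (hA : 𝒰.IsSmooth A) (G G' : 𝒰.H2 A →+ T)
    (h : ∀ (i : ι) (x : H2 (F.d i).B), G ((F.d i).infl₂ x) = G' ((F.d i).infl₂ x))
    (y : 𝒰.H2 A) : G y = G' y := by
  obtain ⟨i, x, rfl⟩ := (F.presH2 hA).surj y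
  exact h i x

/-- torsion: every class of level `H²` killed by `n` is inflated from a class killed by `n` -/
theorem exists_infl₂_eq_of_nsmul_eq_zero (F : Family 𝒰 A ι) (hA : 𝒰.IsSmooth A) (y : 𝒰.H2 A)
    (n : ℕ)
    (hy : n • y = 0) : ∃ (i : ι) (x : H2 (F.d i).B), n • x = 0 ∧ (F.d i).infl₂ x = y :=
  (F.presH2 hA).exists_infl_eq_of_nsmul_eq_zero n y hy

end Single

end Family

/-! ### naturality in the coefficients -/

section Natural

variable {J C : Rep.{u, u, u} k Γ} (π : J →ₗ[k] C) (hπ : LevelStr.IsEquivariant π)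

/-- **naturality of inflation in the coefficient module**: for data `dJ`, `dC` of `J`, `C`, a
group homomorphism `r : Q_C → Q_J` over `Γ` (e.g. the identity) and `ψ : Res(r)(B_J) ⟶ B_C`
lifting `π`. -/
theorem Datum.H2map_infl₂ (dJ : Datum 𝒰 J) (dC : Datum 𝒰 C) (r : dC.Q →* dJ.Q)
    (hr : ∀ g, r (dC.p g) = dJ.p g) (ψ : Rep.res r dJ.B ⟶ dC.B)
    (hψ : ∀ b : dJ.B, dC.e (ψ.hom b) = π (dJ.e b)) (x : H2 dJ.B) :
    𝒰.H2map π hπ (dJ.infl₂ x) = dC.infl₂ ((groupCohomology.map r ψ 2).hom x) := by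
  obtain ⟨c, rfl⟩ := ProfinGlobal22.H2π_surjective dJ.B x
  rw [H2π_comp_map_apply, Datum.infl₂_H2π, Datum.infl₂_H2π, LevelStr.H2map_H2π]
  congr 1
  apply Subtype.ext
  funext ⟨g, g'⟩
  show π (dJ.e (c.1 (dJ.p g, dJ.p g'))) = dC.e (ψ.hom (c.1 (r (dC.p g), r (dC.p g'))))
  rw [hψ, hr, hr]

variable {ι : Type*} [Preorder ι] {T : Type*} [AddCommGroup T]

/-- **`hcompat` in the limit.**  `FJ`, `FC` families of data for `J`, `C` over the same index,
`φ i : H²(B_J i) → H²(B_C i)` the finite-level maps induced by `π` (compatible with inflation),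
`IC` the system of finite-level invariants of `C`.  If a homomorphism `G` on level `H²(J)`
(e.g. the sum of the local invariants) is given on inflated classes by `inv_i ∘ φ_i`, then
`invC ∘ π_* = G`. -/
theorem Family.lim_H2map_eq (FJ : Family 𝒰 J ι) (FC : Family 𝒰 C ι) (hJ : 𝒰.IsSmooth J)
    (hC : 𝒰.IsSmooth C) (IC : FC.InvSystem T) (φ : ∀ i : ι, H2 (FJ.d i).B →+ H2 (FC.d i).B)
    (hφ : ∀ (i : ι) (x : H2 (FJ.d i).B),
      𝒰.H2map π hπ ((FJ.d i).infl₂ x) = (FC.d i).infl₂ (φ i x))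
    (G : 𝒰.H2 J →+ T)
    (hG : ∀ (i : ι) (x : H2 (FJ.d i).B), G ((FJ.d i).infl₂ x) = IC.inv i (φ i x))
    (y : 𝒰.H2 J) : IC.lim hC (𝒰.H2map π hπ y) = G y := by
  refine FJ.hom_ext_infl₂ hJ ((IC.lim hC).comp (𝒰.H2map π hπ).toAddMonoidHom) G ?_ y
  intro i x
  show IC.lim hC (𝒰.H2map π hπ ((FJ.d i).infl₂ x)) = _
  rw [hφ, IC.lim_infl₂, hG]

/-- the same with the finite-level maps given by Mathlib's `groupCohomology.map`. -/
theorem Family.lim_H2map_eq_of_map (FJ : Family 𝒰 J ι) (FC : Family 𝒰 C ι) (hJ : 𝒰.IsSmooth J)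
    (hC : 𝒰.IsSmooth C) (IC : FC.InvSystem T)
    (r : ∀ i : ι, (FC.d i).Q →* (FJ.d i).Q) (hr : ∀ i g, r i ((FC.d i).p g) = (FJ.d i).p g)
    (ψ : ∀ i : ι, Rep.res (r i) (FJ.d i).B ⟶ (FC.d i).B)
    (hψ : ∀ (i : ι) (b : (FJ.d i).B), (FC.d i).e ((ψ i).hom b) = π ((FJ.d i).e b))
    (G : 𝒰.H2 J →+ T)
    (hG : ∀ (i : ι) (x : H2 (FJ.d i).B),
      G ((FJ.d i).infl₂ x) = IC.inv i ((groupCohomology.map (r i) (ψ i) 2).hom x))
    (y : 𝒰.H2 J) : IC.lim hC (𝒰.H2map π hπ y) = G y :=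
  Family.lim_H2map_eq π hπ FJ FC hJ hC IC
    (fun i => (groupCohomology.map (r i) (ψ i) 2).hom.toAddMonoidHom)
    (fun i x => Datum.H2map_infl₂ π hπ (FJ.d i) (FC.d i) (r i) (hr i) (ψ i) (hψ i) x) G hG y

/-- **exactness in the limit** (middle exactness of `H²(E) → H²(J) → H²(C)` from the finite
levels), in the `Family` vocabulary. -/
theorem Family.exists_H2map_eq_of_levels {E : Rep.{u, u, u} k Γ} (i' : E →ₗ[k] J)
    (hi' : LevelStr.IsEquivariant i') (FE : Family 𝒰 E ι) (FJ : Family 𝒰 J ι) (FC : Family 𝒰 C ι)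
    (hE : 𝒰.IsSmooth E) (hJ : 𝒰.IsSmooth J) (hC : 𝒰.IsSmooth C)
    (α : ∀ i : ι, H2 (FE.d i).B →+ H2 (FJ.d i).B) (β : ∀ i : ι, H2 (FJ.d i).B →+ H2 (FC.d i).B)
    (hα : ∀ (i : ι) (x : H2 (FE.d i).B),
      𝒰.H2map i' hi' ((FE.d i).infl₂ x) = (FJ.d i).infl₂ (α i x))
    (hβ : ∀ (i : ι) (x : H2 (FJ.d i).B),
      𝒰.H2map π hπ ((FJ.d i).infl₂ x) = (FC.d i).infl₂ (β i x))
    (hαt : ∀ {i j : ι} (h : j ≤ i) (x : H2 (FE.d i).B),
      α j (Datum.trans₂ (FE.mono h) x) = Datum.trans₂ (FJ.mono h) (α i x))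
    (hβt : ∀ {i j : ι} (h : j ≤ i) (x : H2 (FJ.d i).B),
      β j (Datum.trans₂ (FJ.mono h) x) = Datum.trans₂ (FC.mono h) (β i x))
    (hex : ∀ (i : ι) (x : H2 (FJ.d i).B), β i x = 0 → ∃ z, α i z = x)
    (y : 𝒰.H2 J) (hy : 𝒰.H2map π hπ y = 0) : ∃ z : 𝒰.H2 E, 𝒰.H2map i' hi' z = y := by
  have hΦ : PresHom (FE.presH2 hE) (FJ.presH2 hJ) α (𝒰.H2map i' hi').toAddMonoidHom :=
    ⟨fun h x => hαt h x, fun i x => hα i x⟩
  have hΨ : PresHom (FJ.presH2 hJ) (FC.presH2 hC) β (𝒰.H2map π hπ).toAddMonoidHom :=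
    ⟨fun h x => hβt h x, fun i x => hβ i x⟩
  exact exact_of_levels hΦ hΨ hex y hy

end Natural

end Fermat.Agent.S55.LimDesc99
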