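/-
S55 / 35-LIM (L-d) (helper99): composition law for the transition maps between descent data, the
comparison isomorphism between two data with the same kernel (e.g. the same level `L` realised
inside two ambient levels `Ω ⊆ Ω'`), and the QUOTIENT of a datum by a normal subgroup of its finite
group (`(Gal(Ω/K), X(Ω))  ↦  (Gal(Ω/K) ⧸ N, X(Ω)^N)`), whose transition maps are helper91's
`GlobalInv91.trans₂` on the nose.
-/
import Fermat.Agent.S55.LimDesc99.InvLimit
import Fermat.Agent.S55.GlobalInv91.DoubleQuot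

set_option autoImplicit false

open CategoryTheory groupCohomology
open Fermat.Agent.S55.Profin15 Fermat.Agent.S55.CS79.InvDescent Fermat.Agent.S55.CS79.FinLevel

universe u

noncomputable section

namespace Fermat.Agent.S55.LimDesc99

variable {k Γ : Type u} [CommRing k] [Group Γ] {𝒰 : LevelStr Γ} {A : Rep.{u, u, u} k Γ}

namespace Datum

/-! ### composition law -/

section Comp

variable {d d' d'' : Datum 𝒰 A} (h₁ : d'.p.ker ≤ d.p.ker) (h₂ : d''.p.ker ≤ d'.p.ker)

theorem q_q (x : d''.Q) : q h₁ (q h₂ x) = q (h₂.trans h₁) x := by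
  obtain ⟨g, rfl⟩ := d''.surj x
  rw [q_p, q_p, q_p]

theorem t_t (b : d.B) : t h₂ (t h₁ b) = t (h₂.trans h₁) b :=
  d''.desc.inj (by rw [e_t, e_t, e_t])

/-- **composition law** for the transition maps -/
theorem trans₂_trans₂ (x : H2 d.B) : trans₂ h₂ (trans₂ h₁ x) = trans₂ (h₂.trans h₁) x := by
  obtain ⟨c, rfl⟩ := ProfinGlobal22.H2π_surjective d.B x
  rw [trans₂_H2π, trans₂_H2π, trans₂_H2π]
  congr 1
  apply Subtype.ext
  funext ⟨y, y'⟩
  show t h₂ (t h₁ (c.1 (q h₁ (q h₂ y), q h₁ (q h₂ y')))) = t (h₂.trans h₁) (c.1 (q _ y, q _ y'))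
  rw [t_t, q_q, q_q]

theorem q_self (x : d.Q) : q (le_refl d.p.ker) x = x := by
  obtain ⟨g, rfl⟩ := d.surj x
  rw [q_p]

theorem t_self (b : d.B) : t (le_refl d.p.ker) b = b :=
  d.desc.inj (by rw [e_t])

theorem trans₂_self (x : H2 d.B) : trans₂ (le_refl d.p.ker) x = x := by
  obtain ⟨c, rfl⟩ := ProfinGlobal22.H2π_surjective d.B x
  rw [trans₂_H2π]
  congr 1
  apply Subtype.ext
  funext ⟨y, y'⟩
  show t (le_refl d.p.ker) (c.1 (q (le_refl d.p.ker) y, q (le_refl d.p.ker) y')) = c.1 (y, y')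
  rw [t_self, q_self, q_self]

/-- **comparison isomorphism** between two data with the same kernel -/
def transEquiv (d d' : Datum 𝒰 A) (h : d.p.ker = d'.p.ker) : H2 d.B ≃ₗ[k] H2 d'.B where
  toLinearMap := trans₂ h.ge
  invFun := trans₂ h.le
  left_inv x := by
    show trans₂ h.le (trans₂ h.ge x) = x
    rw [trans₂_trans₂, trans₂_self]
  right_inv x := by
    show trans₂ h.ge (trans₂ h.le x) = x
    rw [trans₂_trans₂, trans₂_self]

@[simp] theorem transEquiv_apply (d d' : Datum 𝒰 A) (h : d.p.ker = d'.p.ker) (x : H2 d.B) :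
    transEquiv d d' h x = trans₂ h.ge x := rfl

theorem infl₂_transEquiv (d d' : Datum 𝒰 A) (h : d.p.ker = d'.p.ker) (x : H2 d.B) :
    d'.infl₂ (transEquiv d d' h x) = d.infl₂ x :=
  infl₂_trans₂ h.ge x

end Comp

/-! ### the quotient of a datum by a normal subgroup of its finite group -/

section Quot

variable (d : Datum 𝒰 A) (N : Subgroup d.Q) [N.Normal]

/-- the embedding `B^N → A` -/
def quotE : (d.B.quotientToInvariants N) →ₗ[k] A :=
  d.e ∘ₗ (Submodule.subtype _ : ↥(Representation.invariants (d.B.ρ.comp N.subtype)) →ₗ[k] d.B)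

theorem quotE_apply (b : d.B.quotientToInvariants N) : d.quotE N b = d.e b.1 := rfl

theorem isInvDescent_quot :
    IsInvDescent A ((QuotientGroup.mk' N).comp d.p) (d.B.quotientToInvariants N) (d.quotE N) where
  inj := by
    intro b b' h
    exact Subtype.ext (d.desc.inj h)
  mem_range a := by
    constructor
    · rintro ⟨b, rfl⟩ s hs
      have hs' : d.p s ∈ N := by
        have : (QuotientGroup.mk' N) (d.p s) = 1 := hs
        exact (QuotientGroup.eq_one_iff _).1 this
      rw [quotE_apply, d.desc.equivariant]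
      exact congrArg d.e (b.2 ⟨d.p s, hs'⟩)
    · intro ha
      have ha' : ∀ s : Γ, d.p s = 1 → A.ρ s a = a := fun s hs =>
        ha s (by
          show (QuotientGroup.mk' N) (d.p s) = 1
          rw [hs, map_one])
      obtain ⟨b, rfl⟩ := d.desc.exists_eq ha'
      refine ⟨⟨b, ?_⟩, rfl⟩
      rintro ⟨n, hn⟩
      obtain ⟨s, rfl⟩ := d.surj n
      apply d.desc.inj
      show d.e (d.B.ρ (d.p s) b) = d.e b
      rw [← d.desc.equivariant]
      exact ha s ((QuotientGroup.eq_one_iff _).2 hn)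
  equivariant g b := by
    rw [quotE_apply, d.desc.equivariant]
    rfl

/-- **the quotient datum** `(Q ⧸ N, B^N)`; its kernel `p⁻¹(N)` has to be a level. -/
def quot (hN : ((QuotientGroup.mk' N).comp d.p).ker ∈ 𝒰.levels) : Datum 𝒰 A where
  Q := d.Q ⧸ N
  p := (QuotientGroup.mk' N).comp d.p
  B := d.B.quotientToInvariants N
  e := d.quotE N
  desc := d.isInvDescent_quot N
  surj := (QuotientGroup.mk'_surjective N).comp d.surj
  ker_mem := hN

theorem quot_ker (hN : ((QuotientGroup.mk' N).comp d.p).ker ∈ 𝒰.levels) :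
    (d.quot N hN).p.ker = N.comap d.p := by
  ext s
  show (QuotientGroup.mk' N) (d.p s) = 1 ↔ d.p s ∈ N
  exact QuotientGroup.eq_one_iff _

variable {N} {N' : Subgroup d.Q} [N'.Normal] (hN'N : N' ≤ N)
  (hN : ((QuotientGroup.mk' N).comp d.p).ker ∈ 𝒰.levels)
  (hN' : ((QuotientGroup.mk' N').comp d.p).ker ∈ 𝒰.levels)

include hN'N in
theorem quot_ker_le : (d.quot N' hN').p.ker ≤ (d.quot N hN).p.ker := by
  rw [quot_ker, quot_ker]
  exact Subgroup.comap_mono hN'N

/-- **the transition maps between quotient data are helper91's `GlobalInv91.trans₂`** (layers of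
the FINITE group `Q` and its module `B`). -/
theorem quot_trans₂ (x : H2 (d.B.quotientToInvariants N)) :
    trans₂ (d.quot_ker_le hN'N hN hN') x = (GlobalInv91.trans₂ d.B hN'N).hom x :=
  trans₂_eq_map (d := d.quot N hN) (d' := d.quot N' hN') (d.quot_ker_le hN'N hN hN')
    (GlobalInv91.projQ hN'N) (GlobalInv91.inclQ d.B hN'N) (fun _ => rfl) (fun _ => rfl) x

end Quot

end Datum

end Fermat.Agent.S55.LimDesc99
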