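/-
S55 / 35-LIM (helper99): the level cohomology `𝒰.H1 A`, `𝒰.H2 A` of a smooth module, presented as
the directed colimit of the finite-layer cohomology groups `Hⁿ(G ⧸ U, A^U)`
(`LevelColim49` = helper49's bridge 10h), in the vocabulary of `LimDesc99.Pres`.
Consequence: compatible families of finite-level homomorphisms (invariant maps) descend to level
cohomology, with injectivity / compatibility statements checked on the finite layers.
-/
import Fermat.Agent.S55.LimDesc99.Torsion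
import Fermat.Agent.S55.LevelColim49.Colim

set_option autoImplicit false

open CategoryTheory groupCohomology
open Fermat.Agent.S55.Profin15 Fermat.Agent.S55.LevelColim49

universe u

namespace Fermat.Agent.S55.LimDesc99

variable {k G : Type u} [CommRing k] [Group G] (𝒰 : LevelStr G) (A : Rep.{u, u, u} k G)

/-- the index type: the levels of `𝒰`, ordered by inclusion (smaller = deeper). -/
abbrev Lev : Type u := {U : Subgroup G // U ∈ 𝒰.levels}

instance levNormal (U : Lev 𝒰) : U.1.Normal := 𝒰.normal U.1 U.2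

theorem lev_directed (U V : Lev 𝒰) : ∃ W : Lev 𝒰, W ≤ U ∧ W ≤ V := by
  obtain ⟨W, hW, hle⟩ := 𝒰.directed U.1 U.2 V.1 V.2
  exact ⟨⟨W, hW⟩, hle.trans inf_le_left, hle.trans inf_le_right⟩

variable {𝒰 A}

/-- **`𝒰.H2 A = colim_U H²(G ⧸ U, A^U)`** as a `Pres`. -/
noncomputable def presH2 (hA : 𝒰.IsSmooth A) :
    Pres (Lev 𝒰) (fun U => H2 (layer A U.1)) (𝒰.H2 A) where
  infl U := (infl₂ A 𝒰 U.2).toAddMonoidHom
  trans {U V} h := (trans₂ A (show V.1 ≤ U.1 from h)).toAddMonoidHom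
  infl_trans {U V} h x := infl₂_trans₂ A 𝒰 U.2 V.2 (show V.1 ≤ U.1 from h) x
  directed := lev_directed 𝒰
  surj y := by
    obtain ⟨U₀, hU₀⟩ := 𝒰.nonempty
    obtain ⟨W, _, hW, _, x, hx⟩ := exists_infl₂_eq 𝒰 hA y hU₀
    exact ⟨⟨W, hW⟩, x, hx⟩
  ker U x h := by
    obtain ⟨V, _, hV, hVU, hx⟩ := (infl₂_eq_zero_iff 𝒰 hA U.2 x).1 h
    exact ⟨⟨V, hV⟩, hVU, hx⟩

/-- **`𝒰.H1 A = colim_U H¹(G ⧸ U, A^U)`** as a `Pres` (all inflations injective). -/
noncomputable def presH1 (hA : 𝒰.IsSmooth A) :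
    Pres (Lev 𝒰) (fun U => H1 (layer A U.1)) (𝒰.H1 A) where
  infl U := (infl₁ A 𝒰 U.2).toAddMonoidHom
  trans {U V} h := (trans₁ A (show V.1 ≤ U.1 from h)).toAddMonoidHom
  infl_trans {U V} h x := infl₁_trans₁ A 𝒰 U.2 V.2 (show V.1 ≤ U.1 from h) x
  directed := lev_directed 𝒰
  surj y := by
    obtain ⟨U₀, hU₀⟩ := 𝒰.nonempty
    obtain ⟨W, _, hW, _, x, hx⟩ := exists_infl₁_eq 𝒰 hA y hU₀
    exact ⟨⟨W, hW⟩, x, hx⟩
  ker U x h := by
    have hx : x = 0 := infl₁_injective 𝒰 U.2 (by rw [map_zero]; exact h)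
    exact ⟨U, le_refl U, by rw [hx, map_zero]⟩

@[simp] theorem presH2_infl (hA : 𝒰.IsSmooth A) (U : Lev 𝒰) (x : H2 (layer A U.1)) :
    (presH2 hA).infl U x = infl₂ A 𝒰 U.2 x := rfl

@[simp] theorem presH2_trans (hA : 𝒰.IsSmooth A) {U V : Lev 𝒰} (h : V ≤ U)
    (x : H2 (layer A U.1)) :
    (presH2 hA).trans h x = trans₂ A (show V.1 ≤ U.1 from h) x := rfl

@[simp] theorem presH1_infl (hA : 𝒰.IsSmooth A) (U : Lev 𝒰) (x : H1 (layer A U.1)) :
    (presH1 hA).infl U x = infl₁ A 𝒰 U.2 x := rfl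

@[simp] theorem presH1_trans (hA : 𝒰.IsSmooth A) {U V : Lev 𝒰} (h : V ≤ U)
    (x : H1 (layer A U.1)) :
    (presH1 hA).trans h x = trans₁ A (show V.1 ≤ U.1 from h) x := rfl

/-! ### the limit of a compatible system of invariant maps -/

section Inv

variable {T : Type*} [AddCommGroup T] (hA : 𝒰.IsSmooth A)

/-- a system of finite-layer homomorphisms `inv_U : H²(G ⧸ U, A^U) →+ T`, compatible with the
inflations `H²(G ⧸ U, A^U) → H²(G ⧸ V, A^V)` (`V ≤ U`). -/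
structure InvSystem (𝒰 : LevelStr G) (A : Rep.{u, u, u} k G) (T : Type*) [AddCommGroup T] where
  /-- the finite-layer maps -/
  inv : ∀ U : Lev 𝒰, H2 (layer A U.1) →+ T
  inv_trans : ∀ {U V : Lev 𝒰} (h : V ≤ U) (x : H2 (layer A U.1)),
    inv V (trans₂ A (show V.1 ≤ U.1 from h) x) = inv U x

theorem InvSystem.compat (I : InvSystem 𝒰 A T) : (presH2 hA).Compat I.inv :=
  ⟨fun h x => I.inv_trans h x⟩

/-- **the invariant map on level cohomology**. -/
noncomputable def InvSystem.lim (I : InvSystem 𝒰 A T) : 𝒰.H2 A →+ T :=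
  (presH2 hA).desc I.inv (I.compat hA)

theorem InvSystem.lim_infl₂ (I : InvSystem 𝒰 A T) (U : Lev 𝒰) (x : H2 (layer A U.1)) :
    I.lim hA (infl₂ A 𝒰 U.2 x) = I.inv U x :=
  (presH2 hA).desc_infl I.inv (I.compat hA) U x

/-- the value on the class of a level cocycle inflated from the layer `U`. -/
theorem InvSystem.lim_H2π_inflZ₂ (I : InvSystem 𝒰 A T) (U : Lev 𝒰)
    (c : cocycles₂ (layer A U.1)) :
    I.lim hA (𝒰.H2π A (inflZ₂ A 𝒰 U.2 c)) = I.inv U ((H2π (layer A U.1)).hom c) := by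
  rw [← infl₂_H2π, I.lim_infl₂]

/-- **injectivity on `p`-primary classes passes to the limit.** -/
theorem InvSystem.lim_eq_zero_of_primary (I : InvSystem 𝒰 A T) (p : ℕ)
    (h : ∀ (U : Lev 𝒰) (x : H2 (layer A U.1)) (n : ℕ), (p ^ n) • x = 0 → I.inv U x = 0 → x = 0)
    (y : 𝒰.H2 A) (n : ℕ) (hy : (p ^ n) • y = 0) (h0 : I.lim hA y = 0) : y = 0 :=
  (presH2 hA).desc_eq_zero_of_primary I.inv (I.compat hA) p h y n hy h0

theorem InvSystem.lim_unique (I : InvSystem 𝒰 A T) (F : 𝒰.H2 A →+ T)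
    (hF : ∀ (U : Lev 𝒰) (x : H2 (layer A U.1)), F (infl₂ A 𝒰 U.2 x) = I.inv U x) :
    F = I.lim hA :=
  (presH2 hA).desc_unique I.inv (I.compat hA) F hF

end Inv

end Fermat.Agent.S55.LimDesc99
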