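/-
S55 / 35-LIM (L-d) (helper99), per helper33's ruling #2203 (b): transfer of the three finite-level
statements of 35-GEN (helper91 `GlobalInv91.GenTrans`)

  (α)  every `p`-primary class of `H²(C_i)` becomes, at a deeper level, the image of a
       `p`-primary class of `H²(J_j)`;
  (β→) for `p`-primary `e ∈ H²(E_i)`, at a deeper level `invJ (i_* e) = 0`        (reciprocity);
  (β←) `x ∈ H²(J_i)` with `invJ x = 0` becomes, at a deeper level, a class from `H²(E_j)` (Hasse)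

to the colimit: (A), (B→), (B←) of helper14's `LimAlg14.exists_invCp_of_total`, LITERALLY.
This file is the abstract statement over three presentations `LimDesc99.Pres`; Mathlib only.
-/
import Fermat.Agent.S55.LimDesc99.Torsion

set_option autoImplicit false

universe u v w t

namespace Fermat.Agent.S55.LimDesc99

namespace Pres

variable {ι : Type u} [Preorder ι]
  {XE XJ XC : ι → Type v} [∀ i, AddCommGroup (XE i)] [∀ i, AddCommGroup (XJ i)]
  [∀ i, AddCommGroup (XC i)]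
  {YE YJ YC : Type w} [AddCommGroup YE] [AddCommGroup YJ] [AddCommGroup YC]
  {T : Type t} [AddCommGroup T]
  {PE : Pres ι XE YE} {PJ : Pres ι XJ YJ} {PC : Pres ι XC YC}
  {a : ∀ i, XE i →+ XJ i} {b : ∀ i, XJ i →+ XC i} {I : YE →+ YJ} {Ψ : YJ →+ YC}

/-- **(A) from (α).** -/
theorem transfer_A (hb : PresHom PJ PC b Ψ) (p : ℕ)
    (hα : ∀ (i : ι) (x : XC i) (n : ℕ), (p ^ n) • x = 0 →
      ∃ (j : ι) (h : j ≤ i) (y : XJ j) (m : ℕ), (p ^ m) • y = 0 ∧ b j y = PC.trans h x)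
    (c : YC) (n : ℕ) (hc : (p ^ n) • c = 0) :
    ∃ (y : YJ) (m : ℕ), (p ^ m) • y = 0 ∧ Ψ y = c := by
  obtain ⟨i, x, hx, rfl⟩ := PC.exists_infl_eq_of_nsmul_eq_zero (p ^ n) c hc
  obtain ⟨j, h, y, m, hy, hyx⟩ := hα i x n hx
  refine ⟨PJ.infl j y, m, by rw [← map_nsmul, hy, map_zero], ?_⟩
  rw [hb.infl, hyx, PC.infl_trans]

/-- **(B→) from (β→)**, with the finite-level maps `f i = invJ ∘ infl i`. -/
theorem transfer_Bto (ha : PresHom PE PJ a I) (p : ℕ) (invJ : YJ →+ T) (f : ∀ i, XJ i →+ T)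
    (hf : ∀ (i : ι) (x : XJ i), invJ (PJ.infl i x) = f i x)
    (hβ : ∀ (i : ι) (e : XE i) (n : ℕ), (p ^ n) • e = 0 →
      ∃ (j : ι) (h : j ≤ i), f j (a j (PE.trans h e)) = 0)
    (e : YE) (n : ℕ) (he : (p ^ n) • e = 0) : invJ (I e) = 0 := by
  obtain ⟨i, x, hx, rfl⟩ := PE.exists_infl_eq_of_nsmul_eq_zero (p ^ n) e he
  obtain ⟨j, h, hj⟩ := hβ i x n hx
  rw [← PE.infl_trans h x, ha.infl, hf, hj]

/-- **(B←) from (β←)**. -/
theorem transfer_Bfrom (ha : PresHom PE PJ a I) (p : ℕ) (invJ : YJ →+ T) (f : ∀ i, XJ i →+ T)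
    (hf : ∀ (i : ι) (x : XJ i), invJ (PJ.infl i x) = f i x)
    (hβ : ∀ (i : ι) (x : XJ i) (n : ℕ), (p ^ n) • x = 0 → f i x = 0 →
      ∃ (j : ι) (h : j ≤ i) (e : XE j), a j e = PJ.trans h x)
    (y : YJ) (n : ℕ) (hy : (p ^ n) • y = 0) (h0 : invJ y = 0) : y ∈ Set.range I := by
  obtain ⟨i, x, hx, rfl⟩ := PJ.exists_infl_eq_of_nsmul_eq_zero (p ^ n) y hy
  rw [hf] at h0
  obtain ⟨j, h, e, he⟩ := hβ i x n hx h0
  exact ⟨PE.infl j e, by rw [ha.infl, he, PJ.infl_trans]⟩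

/-- (B←) without the `p`-primary restriction (helper91's `hasse_trans` has none). -/
theorem transfer_Bfrom' (ha : PresHom PE PJ a I) (invJ : YJ →+ T) (f : ∀ i, XJ i →+ T)
    (hf : ∀ (i : ι) (x : XJ i), invJ (PJ.infl i x) = f i x)
    (hβ : ∀ (i : ι) (x : XJ i), f i x = 0 →
      ∃ (j : ι) (h : j ≤ i) (e : XE j), a j e = PJ.trans h x)
    (y : YJ) (h0 : invJ y = 0) : y ∈ Set.range I := by
  obtain ⟨i, x, rfl⟩ := PJ.surj y
  rw [hf] at h0
  obtain ⟨j, h, e, he⟩ := hβ i x h0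
  exact ⟨PE.infl j e, by rw [ha.infl, he, PJ.infl_trans]⟩

/-- the composite vanishes in the limit (`hπi`) if it does at the finite levels -/
theorem transfer_comp_zero (ha : PresHom PE PJ a I) (hb : PresHom PJ PC b Ψ)
    (h : ∀ (i : ι) (e : XE i), b i (a i e) = 0) (e : YE) : Ψ (I e) = 0 := by
  obtain ⟨i, x, rfl⟩ := PE.surj e
  rw [ha.infl, hb.infl, h, map_zero]

/-- `p`-primary `H¹`-type vanishing passes to the limit (for `hH1C`): if every `p`-primary
finite-level class dies at a deeper level, every `p`-primary class of the limit is zero. -/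
theorem transfer_primary_zero (p : ℕ)
    (h : ∀ (i : ι) (x : XC i) (n : ℕ), (p ^ n) • x = 0 → ∃ (j : ι) (hji : j ≤ i),
      PC.trans hji x = 0)
    (c : YC) (n : ℕ) (hc : (p ^ n) • c = 0) : c = 0 := by
  obtain ⟨i, x, hx, rfl⟩ := PC.exists_infl_eq_of_nsmul_eq_zero (p ^ n) c hc
  obtain ⟨j, hji, hj⟩ := h i x n hx
  rw [← PC.infl_trans hji x, hj, map_zero]

end Pres

end Fermat.Agent.S55.LimDesc99
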