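/-
S55 / 35-LIM (L-d) (helper99), helper33's ruling #2203 (b): the finite-level statements (α), (β→),
(β←) of 35-GEN, in the layer vocabulary of helper49 (`LevelColim49`: `layer X U = X^U` over `G ⧸ U`,
`trans₂`, `pushLayer`, `infl₂`), give on LEVEL cohomology `𝒰.H2` the hypotheses (A), (B→), (B←) of
helper14's `LimAlg14.exists_invCp_of_total` LITERALLY, hence the invariant `invCp` on the
`p`-primary part of `𝒰.H2 C`, compatible with `invJ` and injective.
-/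
import Fermat.Agent.S55.LimDesc99.Transfer
import Fermat.Agent.S55.LimDesc99.Level
import Fermat.Agent.S55.LevelColim49.Nat
import Fermat.Agent.S55.Profin15.LES1
import Fermat.Agent.S55.Profin15.Adapter63
import Fermat.Agent.S55.CDArith63.Torsion
import Fermat.Agent.S55.LimAlg14

set_option autoImplicit false

open CategoryTheory groupCohomology
open Fermat.Agent.S55.Profin15 Fermat.Agent.S55.LevelColim49
open Fermat.Agent.S55.PrimaryExt14

universe u

noncomputable section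

namespace Fermat.Agent.S55.LimDesc99

variable {k G : Type u} [CommRing k] [Group G] {𝒰 : LevelStr G}

/-- push-forward along `φ : A ⟶ B` on level `H²`, as an additive map -/
abbrev pushH2 {A B : Rep.{u, u, u} k G} (φ : A ⟶ B) : 𝒰.H2 A →+ 𝒰.H2 B :=
  (𝒰.H2map φ.hom.toLinearMap (LevelStr.isEquivariant_hom φ)).toAddMonoidHom

/-- **`pushLayer` is a morphism of the presentations `presH2`** (helper49 `Nat.lean`). -/
theorem presHom_pushLayer {A B : Rep.{u, u, u} k G} (φ : A ⟶ B) (hA : 𝒰.IsSmooth A)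
    (hB : 𝒰.IsSmooth B) :
    PresHom (presH2 hA) (presH2 hB) (fun U => (pushLayer φ U.1 2).hom.toAddMonoidHom)
      (pushH2 (𝒰 := 𝒰) φ) where
  trans {U V} h x := (trans₂_pushLayer φ (show V.1 ≤ U.1 from h) x).symm
  infl U x := H2map_infl₂ φ 𝒰 U.2 x

/-- level `H²` (Profin15 form) is a torsion group -/
theorem H2_torsion15 (M : Rep.{u, u, u} k G) (x : 𝒰.H2 M) : ∃ n : ℕ, 0 < n ∧ n • x = 0 := by
  obtain ⟨n, hn, h⟩ := CDArith63.H2_torsion ((Adapter63.equiv 𝒰 M).symm x)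
  refine ⟨n, hn, ?_⟩
  have := congrArg (Adapter63.equiv 𝒰 M) h
  rwa [map_nsmul, AddEquiv.apply_symm_apply, map_zero] at this

section Transfer

variable {E J C : Rep.{u, u, u} k G} (i : E ⟶ J) (π : J ⟶ C)
  (hE : 𝒰.IsSmooth E) (hJ : 𝒰.IsSmooth J) (hC : 𝒰.IsSmooth C)
  {T : Type*} [AddCommGroup T] (p : ℕ)

include hJ hC in
/-- **(A) on level cohomology from (α) on the layers** (`alpha_trans`). -/
theorem level_A
    (hα : ∀ (U : Lev 𝒰) (x : H2 (layer C U.1)) (n : ℕ), (p ^ n) • x = 0 →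
      ∃ (V : Lev 𝒰) (h : V ≤ U) (y : H2 (layer J V.1)) (m : ℕ), (p ^ m) • y = 0 ∧
        (pushLayer π V.1 2).hom y = trans₂ C (show V.1 ≤ U.1 from h) x)
    (c : 𝒰.H2 C) (hc : c ∈ primary p (𝒰.H2 C)) :
    ∃ y : 𝒰.H2 J, y ∈ primary p (𝒰.H2 J) ∧ pushH2 π y = c := by
  obtain ⟨n, hn⟩ := hc
  obtain ⟨y, m, hy, hyc⟩ := Pres.transfer_A (presHom_pushLayer π hJ hC) p hα c n hn
  exact ⟨y, ⟨m, hy⟩, hyc⟩

include hE hJ in
/-- **(B→) on level cohomology from (β→) on the layers** (`reciprocity_trans`); `invJU U` is the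
finite-level sum of local invariants, `invJ` its limit. -/
theorem level_Bto (invJ : 𝒰.H2 J →+ T) (invJU : ∀ U : Lev 𝒰, H2 (layer J U.1) →+ T)
    (hinvJ : ∀ (U : Lev 𝒰) (x : H2 (layer J U.1)), invJ (infl₂ J 𝒰 U.2 x) = invJU U x)
    (hβ : ∀ (U : Lev 𝒰) (e : H2 (layer E U.1)) (n : ℕ), (p ^ n) • e = 0 →
      ∃ (V : Lev 𝒰) (h : V ≤ U),
        invJU V ((pushLayer i V.1 2).hom (trans₂ E (show V.1 ≤ U.1 from h) e)) = 0)
    (e : 𝒰.H2 E) (he : ∃ n : ℕ, (p ^ n) • e = 0) : invJ (pushH2 i e) = 0 := by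
  obtain ⟨n, hn⟩ := he
  exact Pres.transfer_Bto (presHom_pushLayer i hE hJ) p invJ invJU hinvJ hβ e n hn

include hE hJ in
/-- **(B←) on level cohomology from (β←) on the layers** (`hasse_trans`). -/
theorem level_Bfrom (invJ : 𝒰.H2 J →+ T) (invJU : ∀ U : Lev 𝒰, H2 (layer J U.1) →+ T)
    (hinvJ : ∀ (U : Lev 𝒰) (x : H2 (layer J U.1)), invJ (infl₂ J 𝒰 U.2 x) = invJU U x)
    (hβ : ∀ (U : Lev 𝒰) (x : H2 (layer J U.1)) (n : ℕ), (p ^ n) • x = 0 → invJU U x = 0 →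
      ∃ (V : Lev 𝒰) (h : V ≤ U) (e : H2 (layer E V.1)),
        (pushLayer i V.1 2).hom e = trans₂ J (show V.1 ≤ U.1 from h) x)
    (y : 𝒰.H2 J) (hy : y ∈ primary p (𝒰.H2 J)) (h0 : invJ y = 0) :
    y ∈ Set.range (pushH2 (𝒰 := 𝒰) i) := by
  obtain ⟨n, hn⟩ := hy
  exact Pres.transfer_Bfrom (presHom_pushLayer i hE hJ) p invJ invJU hinvJ hβ y n hn h0

include hC in
/-- **(F1)(p)-type vanishing**: if every `p`-primary class of a layer dies at a deeper layer, the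
`p`-primary part of level `H²` vanishes (the `H¹` analogue is helper79's
`CS79.Primary.h1PrimaryVanishes_of_cofinal`). -/
theorem level_primary_zero
    (h : ∀ (U : Lev 𝒰) (x : H2 (layer C U.1)) (n : ℕ), (p ^ n) • x = 0 →
      ∃ (V : Lev 𝒰) (hVU : V ≤ U), trans₂ C (show V.1 ≤ U.1 from hVU) x = 0)
    (c : 𝒰.H2 C) (n : ℕ) (hc : (p ^ n) • c = 0) : c = 0 :=
  Pres.transfer_primary_zero (PC := presH2 hC) p h c n hc

end Transfer

section Package

variable {E J C : Rep.{u, u, u} k G} (i : E ⟶ J) (π : J ⟶ C)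
  (hses : LevelStr.ShortExact (A := E) (B := J) (C := C) i.hom.toLinearMap π.hom.toLinearMap)
  (hJ : 𝒰.IsSmooth J) {T : Type*} [AddCommGroup T] (p : ℕ) [Fact p.Prime]

include hses hJ in
/-- **35-LIM, packaged** (helper33 #2203 (a)+(b)): from a short exact sequence `0 → E → J → C → 0`
of smooth modules, a (total) idelic invariant `invJ` on level `H²(J)` computed on the layers by
`invJU`, and the three finite-level statements (α), (β→), (β←) of 35-GEN, the invariant on the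
`p`-primary part of level `H²(C)`: compatible with `invJ` and injective. -/
theorem exists_invCp_of_layers (invJ : 𝒰.H2 J →+ T)
    (invJU : ∀ U : Lev 𝒰, H2 (layer J U.1) →+ T)
    (hinvJ : ∀ (U : Lev 𝒰) (x : H2 (layer J U.1)), invJ (infl₂ J 𝒰 U.2 x) = invJU U x)
    (hα : ∀ (U : Lev 𝒰) (x : H2 (layer C U.1)) (n : ℕ), (p ^ n) • x = 0 →
      ∃ (V : Lev 𝒰) (h : V ≤ U) (y : H2 (layer J V.1)) (m : ℕ), (p ^ m) • y = 0 ∧
        (pushLayer π V.1 2).hom y = trans₂ C (show V.1 ≤ U.1 from h) x)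
    (hβto : ∀ (U : Lev 𝒰) (e : H2 (layer E U.1)) (n : ℕ), (p ^ n) • e = 0 →
      ∃ (V : Lev 𝒰) (h : V ≤ U),
        invJU V ((pushLayer i V.1 2).hom (trans₂ E (show V.1 ≤ U.1 from h) e)) = 0)
    (hβfrom : ∀ (U : Lev 𝒰) (x : H2 (layer J U.1)) (n : ℕ), (p ^ n) • x = 0 → invJU U x = 0 →
      ∃ (V : Lev 𝒰) (h : V ≤ U) (e : H2 (layer E V.1)),
        (pushLayer i V.1 2).hom e = trans₂ J (show V.1 ≤ U.1 from h) x) :
    ∃ invC : primary p (𝒰.H2 C) →+ T,
      (∀ y : primary p (𝒰.H2 J),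
        invC (mapPrimary p (pushH2 (𝒰 := 𝒰) π) y) = invJ (y : 𝒰.H2 J)) ∧
      (∀ c : primary p (𝒰.H2 C), invC c = 0 → c = 0) := by
  have hE : 𝒰.IsSmooth E := hses.smooth_left 𝒰 hJ
  have hC : 𝒰.IsSmooth C := hses.smooth_right 𝒰 hJ
  have hex := hses.exact_H2map_H2map 𝒰 hJ
  refine LimAlg14.exists_invCp_of_total p (pushH2 (𝒰 := 𝒰) i) (pushH2 (𝒰 := 𝒰) π) ?_ ?_
    (H2_torsion15 E) invJ (level_A π hJ hC p hα) (level_Bto i hE hJ p invJ invJU hinvJ hβto)
    (level_Bfrom i hE hJ p invJ invJU hinvJ hβfrom)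
  · intro e
    exact (hex _).2 ⟨e, rfl⟩
  · intro y hy
    exact (hex y).1 hy

end Package

end Fermat.Agent.S55.LimDesc99
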