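/-
S55 / 35-LIM (L-d) (helper99): the formation invariants from (α), (β→), (β←) on an ARBITRARY
cofinal family of finite-level descent data (not necessarily the canonical layers): e.g. the data
`(Gal(Ω/K) ⧸ N, X(Ω)^N)`, `Ω` an ambient finite level, `N ⊴ Gal(Ω/K)` (`Datum.restrict`, `Datum.quot`),
in which 35-GEN (helper91 `InstD2`, `G := Gal(Ω/K)`) is proved.  Abstract version over three
presentations `Pres` first (only compatibility with the inflations is needed), then `Family`.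
-/
import Fermat.Agent.S55.LimDesc99.TransferLevel
import Fermat.Agent.S55.LimDesc99.DatumComp

set_option autoImplicit false

open CategoryTheory groupCohomology
open Fermat.Agent.S55.Profin15 Fermat.Agent.S55.CS79.InvDescent
open Fermat.Agent.S55.PrimaryExt14

universe u

noncomputable section

namespace Fermat.Agent.S55.LimDesc99

section Abstract

variable {ι : Type*} [Preorder ι]
  {XE XJ XC : ι → Type*} [∀ j, AddCommGroup (XE j)] [∀ j, AddCommGroup (XJ j)]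
  [∀ j, AddCommGroup (XC j)]
  {YE YJ YC : Type*} [AddCommGroup YE] [AddCommGroup YJ] [AddCommGroup YC]
  {T : Type*} [AddCommGroup T] {W : Type*} [Fintype W]
  (PE : Pres ι XE YE) (PJ : Pres ι XJ YJ) (PC : Pres ι XC YC)
  (I : YE →+ YJ) (Ψ : YJ →+ YC) (a : ∀ j, XE j →+ XJ j) (b : ∀ j, XJ j →+ XC j)
  (ha : ∀ (j : ι) (x : XE j), I (PE.infl j x) = PJ.infl j (a j x))
  (hb : ∀ (j : ι) (x : XJ j), Ψ (PJ.infl j x) = PC.infl j (b j x))
  (p : ℕ) [Fact p.Prime]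

theorem Pres.infl_mem_primary {X : ι → Type*} [∀ j, AddCommGroup (X j)] {Y : Type*}
    [AddCommGroup Y] (P : Pres ι X Y) (p : ℕ) (j : ι) {x : X j}
    (hx : ∃ n : ℕ, (p ^ n) • x = 0) : P.infl j x ∈ primary p Y := by
  obtain ⟨n, hn⟩ := hx
  exact ⟨n, by rw [← map_nsmul, hn, map_zero]⟩

include ha hb in
/-- **abstract form**: the output of `LimAlg14.exists_formation_inv` from (α), (β→), (β←) on
three presentations. -/
theorem Pres.exists_formation_inv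
    (hΨI : ∀ e, Ψ (I e) = 0) (hex : ∀ y, Ψ y = 0 → y ∈ Set.range I)
    (htE : ∀ e : YE, ∃ n : ℕ, 0 < n ∧ n • e = 0) (htJ : ∀ y : YJ, ∃ n : ℕ, 0 < n ∧ n • y = 0)
    (htC : ∀ c : YC, ∃ n : ℕ, 0 < n ∧ n • c = 0)
    (invJp : W → (primary p YJ →+ T))
    (hinjp : ∀ x : primary p YJ, (∀ w, invJp w x = 0) → x = 0)
    (hsurjp : ∀ (t : W → T) (n : ℕ), (∀ w, (p ^ n) • t w = 0) →
      ∃ x : primary p YJ, (p ^ n) • x = 0 ∧ ∀ w, invJp w x = t w)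
    (invJU : ∀ j : ι, XJ j →+ T)
    (hinvJ : ∀ (j : ι) (x : XJ j) (hx : ∃ n : ℕ, (p ^ n) • x = 0),
      ∑ w, invJp w ⟨PJ.infl j x, PJ.infl_mem_primary p j hx⟩ = invJU j x)
    (hα : ∀ (j : ι) (x : XC j) (n : ℕ), (p ^ n) • x = 0 →
      ∃ (l : ι) (h : l ≤ j) (y : XJ l) (m : ℕ), (p ^ m) • y = 0 ∧ b l y = PC.trans h x)
    (hβto : ∀ (j : ι) (e : XE j) (n : ℕ), (p ^ n) • e = 0 →
      ∃ (l : ι) (h : l ≤ j), invJU l (a l (PE.trans h e)) = 0)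
    (hβfrom : ∀ (j : ι) (x : XJ j) (n : ℕ), (p ^ n) • x = 0 → invJU j x = 0 →
      ∃ (l : ι) (h : l ≤ j) (e : XE l), a l e = PJ.trans h x) :
    ∃ (invJ : W → (YJ →+ T)) (invC : YC →+ T),
      (∀ w (x : primary p YJ), invJ w (x : YJ) = invJp w x) ∧
      (∀ (x : YJ) (n : ℕ), (p ^ n) • x = 0 → (∀ w, invJ w x = 0) → x = 0) ∧
      (∀ (t : W → T) (n : ℕ), (∀ w, (p ^ n) • t w = 0) →
        ∃ x : YJ, (p ^ n) • x = 0 ∧ ∀ w, invJ w x = t w) ∧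
      (∀ (y : YC) (n : ℕ), (p ^ n) • y = 0 → invC y = 0 → y = 0) ∧
      (∀ x : YJ, invC (Ψ x) = ∑ w, invJ w x) := by
  refine LimAlg14.exists_formation_inv p I Ψ hΨI hex htE htJ htC invJp hinjp hsurjp ?_ ?_ ?_
  · -- (A)
    rintro ⟨c, n, hn⟩
    obtain ⟨j, x, hx, rfl⟩ := PC.exists_infl_eq_of_nsmul_eq_zero (p ^ n) c hn
    obtain ⟨l, h, y, m, hy, hyx⟩ := hα j x n hx
    refine ⟨⟨PJ.infl l y, PJ.infl_mem_primary p l ⟨m, hy⟩⟩, Subtype.ext ?_⟩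
    show Ψ (PJ.infl l y) = PC.infl j x
    rw [hb, hyx, PC.infl_trans]
  · -- (B→)
    rintro ⟨e, n, hn⟩
    obtain ⟨j, x, hx, rfl⟩ := PE.exists_infl_eq_of_nsmul_eq_zero (p ^ n) e hn
    obtain ⟨l, h, hl⟩ := hβto j x n hx
    have hz : ∃ m : ℕ, (p ^ m) • a l (PE.trans h x) = 0 :=
      ⟨n, by rw [← map_nsmul, ← map_nsmul, hx, map_zero, map_zero]⟩
    rw [← hl, ← hinvJ l _ hz]
    refine Finset.sum_congr rfl fun w _ => congrArg (invJp w) (Subtype.ext ?_)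
    show I (PE.infl j x) = PJ.infl l (a l (PE.trans h x))
    rw [← PE.infl_trans h x, ha]
  · -- (B←)
    rintro ⟨y, n, hn⟩ h0
    obtain ⟨j, x, hx, rfl⟩ := PJ.exists_infl_eq_of_nsmul_eq_zero (p ^ n) y hn
    have h1 : invJU j x = 0 := by
      rw [← hinvJ j x ⟨n, hx⟩]
      exact h0
    obtain ⟨l, h, e, he⟩ := hβfrom j x n hx h1
    exact ⟨PE.infl l e, by rw [ha, he, PJ.infl_trans]⟩

end Abstract

section Fam

variable {k Γ : Type u} [CommRing k] [Group Γ] {𝒰 : LevelStr Γ}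
  {E J C : Rep.{u, u, u} k Γ} (i : E ⟶ J) (π : J ⟶ C)
  (hses : LevelStr.ShortExact (A := E) (B := J) (C := C) i.hom.toLinearMap π.hom.toLinearMap)
  (hJ : 𝒰.IsSmooth J) {T : Type*} [AddCommGroup T] (p : ℕ) [Fact p.Prime]
  {W : Type*} [Fintype W] {ι : Type*} [Preorder ι]
  (FE : Family 𝒰 E ι) (FJ : Family 𝒰 J ι) (FC : Family 𝒰 C ι)

theorem Datum.infl₂_mem_primary {A : Rep.{u, u, u} k Γ} (d : Datum 𝒰 A) (p : ℕ) {x : H2 d.B}
    (hx : ∃ n : ℕ, (p ^ n) • x = 0) : d.infl₂ x ∈ primary p (𝒰.H2 A) := by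
  obtain ⟨n, hn⟩ := hx
  exact ⟨n, by rw [← map_nsmul, hn, map_zero]⟩

include hses hJ in
/-- **THE FORMATION INVARIANTS FROM A COFINAL FAMILY OF DESCENT DATA.**  `a j`, `b j` are the
finite-level maps induced by `i`, `π` (compatible with the inflations: `Datum.H2map_infl₂` gives
this for Mathlib's `groupCohomology.map`), the transition maps are `Datum.trans₂`
(`= groupCohomology.map` along any compatible pair by `Datum.trans₂_eq_map`, `= GlobalInv91.trans₂`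
for quotient data by `Datum.quot_trans₂`). -/
theorem Family.exists_formation_inv
    (a : ∀ j : ι, H2 (FE.d j).B →+ H2 (FJ.d j).B) (b : ∀ j : ι, H2 (FJ.d j).B →+ H2 (FC.d j).B)
    (ha : ∀ (j : ι) (x : H2 (FE.d j).B),
      pushH2 (𝒰 := 𝒰) i ((FE.d j).infl₂ x) = (FJ.d j).infl₂ (a j x))
    (hb : ∀ (j : ι) (x : H2 (FJ.d j).B),
      pushH2 (𝒰 := 𝒰) π ((FJ.d j).infl₂ x) = (FC.d j).infl₂ (b j x))
    (invJp : W → (primary p (𝒰.H2 J) →+ T))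
    (hinjp : ∀ x : primary p (𝒰.H2 J), (∀ w, invJp w x = 0) → x = 0)
    (hsurjp : ∀ (t : W → T) (n : ℕ), (∀ w, (p ^ n) • t w = 0) →
      ∃ x : primary p (𝒰.H2 J), (p ^ n) • x = 0 ∧ ∀ w, invJp w x = t w)
    (invJU : ∀ j : ι, H2 (FJ.d j).B →+ T)
    (hinvJ : ∀ (j : ι) (x : H2 (FJ.d j).B) (hx : ∃ n : ℕ, (p ^ n) • x = 0),
      ∑ w, invJp w ⟨(FJ.d j).infl₂ x, (FJ.d j).infl₂_mem_primary p hx⟩ = invJU j x)
    (hα : ∀ (j : ι) (x : H2 (FC.d j).B) (n : ℕ), (p ^ n) • x = 0 →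
      ∃ (l : ι) (h : l ≤ j) (y : H2 (FJ.d l).B) (m : ℕ), (p ^ m) • y = 0 ∧
        b l y = Datum.trans₂ (FC.mono h) x)
    (hβto : ∀ (j : ι) (e : H2 (FE.d j).B) (n : ℕ), (p ^ n) • e = 0 →
      ∃ (l : ι) (h : l ≤ j), invJU l (a l (Datum.trans₂ (FE.mono h) e)) = 0)
    (hβfrom : ∀ (j : ι) (x : H2 (FJ.d j).B) (n : ℕ), (p ^ n) • x = 0 → invJU j x = 0 →
      ∃ (l : ι) (h : l ≤ j) (e : H2 (FE.d l).B), a l e = Datum.trans₂ (FJ.mono h) x) :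
    ∃ (invJ : W → (𝒰.H2 J →+ T)) (invC : 𝒰.H2 C →+ T),
      (∀ w (x : primary p (𝒰.H2 J)), invJ w (x : 𝒰.H2 J) = invJp w x) ∧
      (∀ (x : 𝒰.H2 J) (n : ℕ), (p ^ n) • x = 0 → (∀ w, invJ w x = 0) → x = 0) ∧
      (∀ (t : W → T) (n : ℕ), (∀ w, (p ^ n) • t w = 0) →
        ∃ x : 𝒰.H2 J, (p ^ n) • x = 0 ∧ ∀ w, invJ w x = t w) ∧
      (∀ (y : 𝒰.H2 C) (n : ℕ), (p ^ n) • y = 0 → invC y = 0 → y = 0) ∧
      (∀ x : 𝒰.H2 J, invC (pushH2 (𝒰 := 𝒰) π x) = ∑ w, invJ w x) := by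
  have hE : 𝒰.IsSmooth E := hses.smooth_left 𝒰 hJ
  have hC : 𝒰.IsSmooth C := hses.smooth_right 𝒰 hJ
  have hex := hses.exact_H2map_H2map 𝒰 hJ
  exact Pres.exists_formation_inv (FE.presH2 hE) (FJ.presH2 hJ) (FC.presH2 hC)
    (pushH2 (𝒰 := 𝒰) i) (pushH2 (𝒰 := 𝒰) π) a b ha hb p
    (fun e => (hex _).2 ⟨e, rfl⟩) (fun y hy => (hex y).1 hy)
    (H2_torsion15 E) (H2_torsion15 J) (H2_torsion15 C) invJp hinjp hsurjp invJU hinvJ
    hα hβto hβfrom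

end Fam

end Fermat.Agent.S55.LimDesc99
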