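/-
S55 / 35-LIM (L-d) (helper99): restriction of a cofinal family of descent data to an open
subgroup `V` (helper79's `CS79.Restrict.isInvDescent_res` + helper3's `CD3.restrictLevels`):
from the data `(Gal(L/ℚ), C(L))` of `(G, 𝒰, A)` to the data `(Gal(L/K), Res C(L))`, `K = L^V`, of
`(V, restrictLevels 𝒰 V, Res_V A)`, indexed by the levels `L ⊇ K`.
-/
import Fermat.Agent.S55.LimDesc99.InvLimit
import Fermat.Agent.S55.CS79.Restrict

set_option autoImplicit false

open CategoryTheory groupCohomology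
open Fermat.Agent.S55.Profin15 Fermat.Agent.S55.CS79.InvDescent Fermat.Agent.S55.CS79.FinLevel
open Fermat.Agent.S55.CS79.Restrict Fermat.Agent.S55.CD3

universe u

noncomputable section

namespace Fermat.Agent.S55.LimDesc99

variable {k Γ : Type u} [CommRing k] [Group Γ] {𝒰 : LevelStr Γ} {A : Rep.{u, u, u} k Γ}

/-- **restriction of a datum to an open subgroup `V ⊇ ker p`**: the finite group is the image
`p(V) ≤ Q` (`= Gal(L/K)`), the module is `Res_{p(V)} B`. -/
def Datum.restrict (d : Datum 𝒰 A) (V : Subgroup Γ) (hV : IsOpenSub 𝒰 V) (hd : d.p.ker ≤ V) :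
    Datum (restrictLevels 𝒰 V hV) (Rep.res V.subtype A) where
  Q := ↥(V.map d.p)
  p := resHom d.p V
  B := Rep.res (V.map d.p).subtype d.B
  e := d.e
  desc := isInvDescent_res d.desc V hd
  surj := resHom_surjective d.p V
  ker_mem := by
    rw [resHom_ker]
    exact subgroupOf_mem_restrictLevels hV d.ker_mem hd

theorem Datum.restrict_p_coe (d : Datum 𝒰 A) (V : Subgroup Γ) (hV : IsOpenSub 𝒰 V)
    (hd : d.p.ker ≤ V) (v : ↥V) :
    (show ↥(V.map d.p) from (d.restrict V hV hd).p v : d.Q) = d.p v := rfl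

theorem Datum.restrict_e (d : Datum 𝒰 A) (V : Subgroup Γ) (hV : IsOpenSub 𝒰 V)
    (hd : d.p.ker ≤ V) (b : d.B) : (d.restrict V hV hd).e b = d.e b := rfl

theorem Datum.restrict_ker (d : Datum 𝒰 A) (V : Subgroup Γ) (hV : IsOpenSub 𝒰 V)
    (hd : d.p.ker ≤ V) : (d.restrict V hV hd).p.ker = d.p.ker.subgroupOf V :=
  resHom_ker d.p V

variable {ι : Type*} [Preorder ι]

/-- **restriction of a cofinal family to an open subgroup `V`**, indexed by the members of the
family below `V`. -/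
def Family.restrict (F : Family 𝒰 A ι) (V : Subgroup Γ) (hV : IsOpenSub 𝒰 V) :
    Family (restrictLevels 𝒰 V hV) (Rep.res V.subtype A) {i : ι // (F.d i).p.ker ≤ V} where
  d i := (F.d i.1).restrict V hV i.2
  mono {i j} h := by
    rw [Datum.restrict_ker, Datum.restrict_ker]
    intro s hs
    rw [Subgroup.mem_subgroupOf] at hs ⊢
    exact F.mono (show j.1 ≤ i.1 from h) hs
  nonempty := by
    obtain ⟨U, hU, hUV⟩ := hV
    obtain ⟨i₀⟩ := F.nonempty
    obtain ⟨j, -, hj⟩ := F.cofinal U hU i₀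
    exact ⟨⟨j, hj.trans hUV⟩⟩
  directed i j := by
    obtain ⟨l, hli, hlj⟩ := F.directed i.1 j.1
    exact ⟨⟨l, (F.mono hli).trans i.2⟩, hli, hlj⟩
  cofinal := by
    rintro W ⟨U, hU, -, rfl⟩ i
    obtain ⟨j, hji, hj⟩ := F.cofinal U hU i.1
    refine ⟨⟨j, (F.mono hji).trans i.2⟩, hji, ?_⟩
    rw [Datum.restrict_ker]
    intro s hs
    rw [Subgroup.mem_subgroupOf] at hs ⊢
    exact hj hs

@[simp] theorem Family.restrict_d (F : Family 𝒰 A ι) (V : Subgroup Γ) (hV : IsOpenSub 𝒰 V)
    (i : {i : ι // (F.d i).p.ker ≤ V}) :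
    (F.restrict V hV).d i = (F.d i.1).restrict V hV i.2 := rfl

end Fermat.Agent.S55.LimDesc99
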