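/-
S55 / 35-LIM (L-d) (helper99): the CROSSING of two descent data `d ≤ d'` of the same module
(`ker p' ≤ ker p`; think `(Gal(Ω/K), X(Ω))` and `(Gal(Ω'/K), X(Ω'))`, `Ω ⊆ Ω'`).

With `N := ker (Q' → Q) ⊴ Q'` (`= Gal(Ω'/Ω)`), the smaller datum is identified with the quotient
datum `(Q' ⧸ N, B'^N)` of the bigger one, and the transition map `trans₂ : H²(Q, B) → H²(Q', B')`
becomes Mathlib's inflation `H²(Q' ⧸ N, B'^N) → H²(Q', B')` (helper91's `GlobalInv91.infl₂`):

  `Datum.cross h : H²(Q, B) ≃ H²(Q' ⧸ N, B'^N)`,   `infl₂ B' N (cross h x) = trans₂ h x`.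

So the statements of `GlobalInv91/Gen.lean` (one finite group `Γ = Q'`, `N ⊴ Γ`), applied INSIDE the
big datum, are statements about the transition maps of a family of descent data: no transport to
the layers of the limit module is needed.
-/
import Fermat.Agent.S55.LimDesc99.DatumComp

set_option autoImplicit false

open CategoryTheory groupCohomology
open Fermat.Agent.S55.Profin15 Fermat.Agent.S55.CS79.InvDescent Fermat.Agent.S55.CS79.FinLevel

universe u

noncomputable section

namespace Fermat.Agent.S55.LimDesc99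

variable {k Γ : Type u} [CommRing k] [Group Γ] {𝒰 : LevelStr Γ} {A : Rep.{u, u, u} k Γ}

namespace Datum

variable {d d' : Datum 𝒰 A} (h : d'.p.ker ≤ d.p.ker)

/-- `N = ker (Q' → Q)` (`= Gal(Ω'/Ω)`) -/
def kerQ : Subgroup d'.Q := (q h).ker

instance kerQ_normal : (kerQ h).Normal := MonoidHom.normal_ker (q h)

theorem mem_kerQ_iff (x : d'.Q) : x ∈ kerQ h ↔ q h x = 1 := MonoidHom.mem_ker

theorem p_mem_kerQ_iff (g : Γ) : d'.p g ∈ kerQ h ↔ d.p g = 1 := by
  rw [mem_kerQ_iff, q_p]

theorem kerQ_eq_map : kerQ h = d.p.ker.map d'.p := by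
  ext x
  obtain ⟨g, rfl⟩ := d'.surj x
  rw [p_mem_kerQ_iff]
  constructor
  · intro hg
    exact ⟨g, MonoidHom.mem_ker.2 hg, rfl⟩
  · rintro ⟨g', hg', hgg'⟩
    have h1 : d.p g' = 1 := MonoidHom.mem_ker.1 hg'
    have h2 : q h (d'.p g') = q h (d'.p g) := congrArg (q h) hgg'
    rw [q_p, q_p] at h2
    rw [← h2, h1]

theorem ker_comp_kerQ : ((QuotientGroup.mk' (kerQ h)).comp d'.p).ker = d.p.ker := by
  ext g
  rw [MonoidHom.mem_ker, MonoidHom.mem_ker]
  show (QuotientGroup.mk' (kerQ h)) (d'.p g) = 1 ↔ _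
  rw [QuotientGroup.mk'_apply, QuotientGroup.eq_one_iff, p_mem_kerQ_iff]

theorem kerQ_level : ((QuotientGroup.mk' (kerQ h)).comp d'.p).ker ∈ 𝒰.levels := by
  rw [ker_comp_kerQ]
  exact d.ker_mem

/-- the smaller datum realised inside the bigger one: `(Q' ⧸ N, B'^N)` -/
def crossDatum : Datum 𝒰 A := d'.quot (kerQ h) (kerQ_level h)

theorem crossDatum_ker : (crossDatum h).p.ker = d.p.ker := ker_comp_kerQ h

theorem le_crossDatum_ker : d'.p.ker ≤ (crossDatum h).p.ker := by
  rw [crossDatum_ker]
  exact h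

/-- **the crossing isomorphism** `H²(Q, B) ≃ H²(Q' ⧸ N, B'^N)` -/
def cross : H2 d.B ≃ₗ[k] H2 (d'.B.quotientToInvariants (kerQ h)) :=
  transEquiv d (crossDatum h) (crossDatum_ker h).symm

/-- the transition map from the quotient datum to the datum is Mathlib's inflation -/
theorem trans₂_crossDatum (y : H2 (d'.B.quotientToInvariants (kerQ h))) :
    trans₂ (d := crossDatum h) (d' := d') (le_crossDatum_ker h) y =
      (GlobalInv91.infl₂ d'.B (kerQ h)).hom y :=
  trans₂_eq_map (d := crossDatum h) (d' := d') (le_crossDatum_ker h)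
    (QuotientGroup.mk' (kerQ h)) (Rep.ofHom <| d'.B.ρ.quotientToInvariants_lift (kerQ h))
    (fun _ => rfl) (fun _ => rfl) y

/-- **the transition map is the inflation of the big finite group, after crossing.** -/
theorem infl₂_cross (x : H2 d.B) :
    (GlobalInv91.infl₂ d'.B (kerQ h)).hom (cross h x) = trans₂ h x := by
  have h1 := trans₂_crossDatum h (cross h x)
  have h2 : trans₂ (d := crossDatum h) (d' := d') (le_crossDatum_ker h)
      (trans₂ (d := d) (d' := crossDatum h) (crossDatum_ker h).le x) = trans₂ h x :=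
    trans₂_trans₂ _ _ x
  exact h1.symm.trans h2

theorem cross_nsmul_eq_zero {m : ℕ} {x : H2 d.B} (hx : m • x = 0) : m • cross h x = 0 := by
  rw [← map_nsmul, hx, map_zero]

theorem cross_symm_nsmul_eq_zero {m : ℕ} {y : H2 (d'.B.quotientToInvariants (kerQ h))}
    (hy : m • y = 0) : m • (cross h).symm y = 0 := by
  rw [← map_nsmul, hy, map_zero]

/-- every class of the small datum is the crossing of a class of the quotient of the big one,
with the same torsion, whose inflation is its transition. -/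
theorem exists_cross (x : H2 d.B) :
    ∃ x' : H2 (d'.B.quotientToInvariants (kerQ h)),
      (GlobalInv91.infl₂ d'.B (kerQ h)).hom x' = trans₂ h x ∧
      (∀ m : ℕ, m • x = 0 → m • x' = 0) ∧ (cross h).symm x' = x :=
  ⟨cross h x, infl₂_cross h x, fun _ hm => cross_nsmul_eq_zero h hm,
    (cross h).symm_apply_apply x⟩

/-- inflation to the level cohomology through the crossing -/
theorem infl₂_crossDatum (x : H2 d.B) : (crossDatum h).infl₂ (cross h x) = d.infl₂ x :=
  infl₂_transEquiv d (crossDatum h) (crossDatum_ker h).symm x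

end Datum

end Fermat.Agent.S55.LimDesc99
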