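/-
S55 / 35-LIM (L-d) (helper99): descent data of a SEQUENCE `X : E ⟶ J ⟶ C` of `Γ`-modules:
one finite quotient `p : Γ ↠ Q` and a sequence `Y` of `Q`-modules embedded into `X`
(e.g. `Q = Gal(Ω/K)`, `Y = Res (Ωˣ ⟶ J_S(Ω) × I^S(Ω) ⟶ C_S(Ω))`), and cofinal families of such.

* `SeqDatum.d₁/d₂/d₃` : the three `Datum`s (sharing `Q`, `p`);
* `SeqDatum.pushH2_infl₂_f/_g` : the finite-level maps `push₂ Y.f`, `push₂ Y.g` are compatible with
  inflation;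
* `SeqDatum.trans₂_push₂_f/_g` : and with the transition maps;
* `SeqFamily`, `SeqFamily.fam₁/fam₂/fam₃`;
* `SeqFamily.exists_invCp` : the invariant on the `p`-primary part of level `H²(C)` from (α), (β→),
  (β←) for the family, the finite-level maps being `GlobalInv91.push₂` (single idelic invariant
  `invJ`, no finiteness of the set of places).
-/
import Fermat.Agent.S55.LimDesc99.Cross
import Fermat.Agent.S55.LimDesc99.FormationFamily

set_option autoImplicit false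

open CategoryTheory groupCohomology
open Fermat.Agent.S55.Profin15 Fermat.Agent.S55.CS79.InvDescent Fermat.Agent.S55.CS79.FinLevel
open Fermat.Agent.S55.PrimaryExt14

universe u

noncomputable section

namespace Fermat.Agent.S55.LimDesc99

variable {k Γ : Type u} [CommRing k] [Group Γ]

/-- a finite-level descent datum of a short complex `X : E ⟶ J ⟶ C` of `Γ`-modules. -/
structure SeqDatum (𝒰 : LevelStr Γ) (X : ShortComplex (Rep.{u, u, u} k Γ)) where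
  /-- the finite quotient -/
  Q : Type u
  [grp : Group Q]
  /-- the projection -/
  p : Γ →* Q
  /-- the finite-level sequence -/
  Y : ShortComplex (Rep.{u, u, u} k Q)
  /-- the embeddings -/
  e₁ : Y.X₁ →ₗ[k] X.X₁
  e₂ : Y.X₂ →ₗ[k] X.X₂
  e₃ : Y.X₃ →ₗ[k] X.X₃
  desc₁ : IsInvDescent X.X₁ p Y.X₁ e₁
  desc₂ : IsInvDescent X.X₂ p Y.X₂ e₂
  desc₃ : IsInvDescent X.X₃ p Y.X₃ e₃
  surj : Function.Surjective p
  ker_mem : p.ker ∈ 𝒰.levels
  comm_f : ∀ b : Y.X₁, X.f.hom (e₁ b) = e₂ (Y.f.hom b)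
  comm_g : ∀ b : Y.X₂, X.g.hom (e₂ b) = e₃ (Y.g.hom b)

attribute [instance] SeqDatum.grp

namespace SeqDatum

variable {𝒰 : LevelStr Γ} {X : ShortComplex (Rep.{u, u, u} k Γ)}

/-- the datum of `E` -/
@[reducible] def d₁ (D : SeqDatum 𝒰 X) : Datum 𝒰 X.X₁ where
  Q := D.Q
  p := D.p
  B := D.Y.X₁
  e := D.e₁
  desc := D.desc₁
  surj := D.surj
  ker_mem := D.ker_mem

/-- the datum of `J` -/
@[reducible] def d₂ (D : SeqDatum 𝒰 X) : Datum 𝒰 X.X₂ where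
  Q := D.Q
  p := D.p
  B := D.Y.X₂
  e := D.e₂
  desc := D.desc₂
  surj := D.surj
  ker_mem := D.ker_mem

/-- the datum of `C` -/
@[reducible] def d₃ (D : SeqDatum 𝒰 X) : Datum 𝒰 X.X₃ where
  Q := D.Q
  p := D.p
  B := D.Y.X₃
  e := D.e₃
  desc := D.desc₃
  surj := D.surj
  ker_mem := D.ker_mem

/-- the finite-level maps are compatible with inflation (`E ⟶ J`) -/
theorem pushH2_infl₂_f (D : SeqDatum 𝒰 X) (x : H2 D.Y.X₁) :
    pushH2 (𝒰 := 𝒰) X.f (D.d₁.infl₂ x) = D.d₂.infl₂ ((GlobalInv91.push₂ D.Y.f).hom x) :=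
  Datum.H2map_infl₂ X.f.hom.toLinearMap (LevelStr.isEquivariant_hom X.f) D.d₁ D.d₂
    (MonoidHom.id D.Q) (fun _ => rfl) D.Y.f (fun b => (D.comm_f b).symm) x

/-- the finite-level maps are compatible with inflation (`J ⟶ C`) -/
theorem pushH2_infl₂_g (D : SeqDatum 𝒰 X) (x : H2 D.Y.X₂) :
    pushH2 (𝒰 := 𝒰) X.g (D.d₂.infl₂ x) = D.d₃.infl₂ ((GlobalInv91.push₂ D.Y.g).hom x) :=
  Datum.H2map_infl₂ X.g.hom.toLinearMap (LevelStr.isEquivariant_hom X.g) D.d₂ D.d₃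
    (MonoidHom.id D.Q) (fun _ => rfl) D.Y.g (fun b => (D.comm_g b).symm) x

variable {D D' : SeqDatum 𝒰 X} (h : D'.p.ker ≤ D.p.ker)

/-- the projection `Q' → Q` -/
abbrev q : D'.Q →* D.Q := Datum.q (d := D.d₁) (d' := D'.d₁) h

theorem q₂_eq : Datum.q (d := D.d₂) (d' := D'.d₂) h = q h := rfl

theorem q₃_eq : Datum.q (d := D.d₃) (d' := D'.d₃) h = q h := rfl

theorem t_f (b : D.Y.X₁) :
    D'.Y.f.hom (Datum.t (d := D.d₁) (d' := D'.d₁) h b) =
      Datum.t (d := D.d₂) (d' := D'.d₂) h (D.Y.f.hom b) := by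
  apply D'.desc₂.inj
  have h1 : D'.e₂ (D'.Y.f.hom (Datum.t (d := D.d₁) (d' := D'.d₁) h b)) = X.f.hom (D.e₁ b) := by
    rw [← D'.comm_f]
    exact congrArg X.f.hom (Datum.e_t (d := D.d₁) (d' := D'.d₁) h b)
  rw [h1, D.comm_f]
  exact (Datum.e_t (d := D.d₂) (d' := D'.d₂) h (D.Y.f.hom b)).symm

theorem t_g (b : D.Y.X₂) :
    D'.Y.g.hom (Datum.t (d := D.d₂) (d' := D'.d₂) h b) =
      Datum.t (d := D.d₃) (d' := D'.d₃) h (D.Y.g.hom b) := by
  apply D'.desc₃.inj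
  have h1 : D'.e₃ (D'.Y.g.hom (Datum.t (d := D.d₂) (d' := D'.d₂) h b)) = X.g.hom (D.e₂ b) := by
    rw [← D'.comm_g]
    exact congrArg X.g.hom (Datum.e_t (d := D.d₂) (d' := D'.d₂) h b)
  rw [h1, D.comm_g]
  exact (Datum.e_t (d := D.d₃) (d' := D'.d₃) h (D.Y.g.hom b)).symm

/-- the transition maps commute with the finite-level maps (`E ⟶ J`) -/
theorem trans₂_push₂_f (x : H2 D.Y.X₁) :
    Datum.trans₂ (d := D.d₂) (d' := D'.d₂) h ((GlobalInv91.push₂ D.Y.f).hom x) =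
      (GlobalInv91.push₂ D'.Y.f).hom (Datum.trans₂ (d := D.d₁) (d' := D'.d₁) h x) := by
  obtain ⟨c, rfl⟩ := ProfinGlobal22.H2π_surjective D.Y.X₁ x
  have e1 : (GlobalInv91.push₂ D.Y.f).hom ((H2π D.Y.X₁).hom c) =
      (H2π D.Y.X₂).hom (mapCocycles₂ (MonoidHom.id D.Q) D.Y.f c) :=
    H2π_comp_map_apply (MonoidHom.id D.Q) D.Y.f c
  have e0 : Datum.trans₂ (d := D.d₂) (d' := D'.d₂) h
      ((H2π D.Y.X₂).hom (mapCocycles₂ (MonoidHom.id D.Q) D.Y.f c)) =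
      (H2π D'.Y.X₂).hom (Datum.transZ₂ (d := D.d₂) (d' := D'.d₂) h
        (mapCocycles₂ (MonoidHom.id D.Q) D.Y.f c)) :=
    Datum.trans₂_H2π (d := D.d₂) (d' := D'.d₂) h _
  have e3 : Datum.trans₂ (d := D.d₁) (d' := D'.d₁) h ((H2π D.Y.X₁).hom c) =
      (H2π D'.Y.X₁).hom (Datum.transZ₂ (d := D.d₁) (d' := D'.d₁) h c) :=
    Datum.trans₂_H2π (d := D.d₁) (d' := D'.d₁) h c
  have e2 : (GlobalInv91.push₂ D'.Y.f).hom
      ((H2π D'.Y.X₁).hom (Datum.transZ₂ (d := D.d₁) (d' := D'.d₁) h c)) =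
      (H2π D'.Y.X₂).hom (mapCocycles₂ (MonoidHom.id D'.Q) D'.Y.f
        (Datum.transZ₂ (d := D.d₁) (d' := D'.d₁) h c)) :=
    H2π_comp_map_apply (MonoidHom.id D'.Q) D'.Y.f _
  have e4 : Datum.transZ₂ (d := D.d₂) (d' := D'.d₂) h
        (mapCocycles₂ (MonoidHom.id D.Q) D.Y.f c) =
      mapCocycles₂ (MonoidHom.id D'.Q) D'.Y.f
        (Datum.transZ₂ (d := D.d₁) (d' := D'.d₁) h c) := by
    apply Subtype.ext
    funext ⟨y, y'⟩
    exact (t_f h _).symm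
  refine ((congrArg _ e1).trans e0).trans ?_
  refine Eq.trans ?_ ((congrArg _ e3).trans e2).symm
  exact congrArg _ e4

/-- the transition maps commute with the finite-level maps (`J ⟶ C`) -/
theorem trans₂_push₂_g (x : H2 D.Y.X₂) :
    Datum.trans₂ (d := D.d₃) (d' := D'.d₃) h ((GlobalInv91.push₂ D.Y.g).hom x) =
      (GlobalInv91.push₂ D'.Y.g).hom (Datum.trans₂ (d := D.d₂) (d' := D'.d₂) h x) := by
  obtain ⟨c, rfl⟩ := ProfinGlobal22.H2π_surjective D.Y.X₂ x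
  have e1 : (GlobalInv91.push₂ D.Y.g).hom ((H2π D.Y.X₂).hom c) =
      (H2π D.Y.X₃).hom (mapCocycles₂ (MonoidHom.id D.Q) D.Y.g c) :=
    H2π_comp_map_apply (MonoidHom.id D.Q) D.Y.g c
  have e0 : Datum.trans₂ (d := D.d₃) (d' := D'.d₃) h
      ((H2π D.Y.X₃).hom (mapCocycles₂ (MonoidHom.id D.Q) D.Y.g c)) =
      (H2π D'.Y.X₃).hom (Datum.transZ₂ (d := D.d₃) (d' := D'.d₃) h
        (mapCocycles₂ (MonoidHom.id D.Q) D.Y.g c)) :=
    Datum.trans₂_H2π (d := D.d₃) (d' := D'.d₃) h _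
  have e3 : Datum.trans₂ (d := D.d₂) (d' := D'.d₂) h ((H2π D.Y.X₂).hom c) =
      (H2π D'.Y.X₂).hom (Datum.transZ₂ (d := D.d₂) (d' := D'.d₂) h c) :=
    Datum.trans₂_H2π (d := D.d₂) (d' := D'.d₂) h c
  have e2 : (GlobalInv91.push₂ D'.Y.g).hom
      ((H2π D'.Y.X₂).hom (Datum.transZ₂ (d := D.d₂) (d' := D'.d₂) h c)) =
      (H2π D'.Y.X₃).hom (mapCocycles₂ (MonoidHom.id D'.Q) D'.Y.g
        (Datum.transZ₂ (d := D.d₂) (d' := D'.d₂) h c)) :=
    H2π_comp_map_apply (MonoidHom.id D'.Q) D'.Y.g _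
  have e4 : Datum.transZ₂ (d := D.d₃) (d' := D'.d₃) h
        (mapCocycles₂ (MonoidHom.id D.Q) D.Y.g c) =
      mapCocycles₂ (MonoidHom.id D'.Q) D'.Y.g
        (Datum.transZ₂ (d := D.d₂) (d' := D'.d₂) h c) := by
    apply Subtype.ext
    funext ⟨y, y'⟩
    exact (t_g h _).symm
  refine ((congrArg _ e1).trans e0).trans ?_
  refine Eq.trans ?_ ((congrArg _ e3).trans e2).symm
  exact congrArg _ e4

/-- `N = ker (Q' → Q)`, common to the three data -/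
abbrev kerQ : Subgroup D'.Q := Datum.kerQ (d := D.d₁) (d' := D'.d₁) h

instance kerQ_normal : (kerQ h).Normal := Datum.kerQ_normal (d := D.d₁) (d' := D'.d₁) h

theorem kerQ₂_eq : Datum.kerQ (d := D.d₂) (d' := D'.d₂) h = kerQ h := rfl

theorem kerQ₃_eq : Datum.kerQ (d := D.d₃) (d' := D'.d₃) h = kerQ h := rfl

end SeqDatum

/-- a directed, cofinal family of descent data of a sequence. -/
structure SeqFamily (𝒰 : LevelStr Γ) (X : ShortComplex (Rep.{u, u, u} k Γ)) (ι : Type*)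
    [Preorder ι] where
  /-- the data -/
  D : ι → SeqDatum 𝒰 X
  mono : ∀ {i j : ι}, j ≤ i → (D j).p.ker ≤ (D i).p.ker
  nonempty : Nonempty ι
  directed : ∀ i j : ι, ∃ l, l ≤ i ∧ l ≤ j
  cofinal : ∀ V ∈ 𝒰.levels, ∀ i : ι, ∃ j, j ≤ i ∧ (D j).p.ker ≤ V

namespace SeqFamily

variable {𝒰 : LevelStr Γ} {X : ShortComplex (Rep.{u, u, u} k Γ)} {ι : Type*} [Preorder ι]
  (F : SeqFamily 𝒰 X ι)

/-- the family of data of `E` -/
def fam₁ : Family 𝒰 X.X₁ ι where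
  d i := (F.D i).d₁
  mono h := F.mono h
  nonempty := F.nonempty
  directed := F.directed
  cofinal := F.cofinal

/-- the family of data of `J` -/
def fam₂ : Family 𝒰 X.X₂ ι where
  d i := (F.D i).d₂
  mono h := F.mono h
  nonempty := F.nonempty
  directed := F.directed
  cofinal := F.cofinal

/-- the family of data of `C` -/
def fam₃ : Family 𝒰 X.X₃ ι where
  d i := (F.D i).d₃
  mono h := F.mono h
  nonempty := F.nonempty
  directed := F.directed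
  cofinal := F.cofinal

variable (hses : LevelStr.ShortExact (A := X.X₁) (B := X.X₂) (C := X.X₃)
    X.f.hom.toLinearMap X.g.hom.toLinearMap)
  (hJ : 𝒰.IsSmooth X.X₂) {T : Type*} [AddCommGroup T] (p : ℕ) [Fact p.Prime]

include hses hJ in
/-- **35-LIM for a family of sequence data**: the invariant on the `p`-primary part of level
`H²(C)` from (α), (β→), (β←) between the members of the family (finite-level maps
`GlobalInv91.push₂`, transition maps `Datum.trans₂`), with a single idelic invariant `invJ`. -/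
theorem exists_invCp (invJ : 𝒰.H2 X.X₂ →+ T) (invJU : ∀ j : ι, H2 (F.D j).Y.X₂ →+ T)
    (hinvJ : ∀ (j : ι) (x : H2 (F.D j).Y.X₂), invJ ((F.D j).d₂.infl₂ x) = invJU j x)
    (hα : ∀ (j : ι) (x : H2 (F.D j).Y.X₃) (n : ℕ), (p ^ n) • x = 0 →
      ∃ (l : ι) (h : l ≤ j) (y : H2 (F.D l).Y.X₂) (m : ℕ), (p ^ m) • y = 0 ∧
        (GlobalInv91.push₂ (F.D l).Y.g).hom y =
          Datum.trans₂ (d := (F.D j).d₃) (d' := (F.D l).d₃) (F.mono h) x)
    (hβto : ∀ (j : ι) (e : H2 (F.D j).Y.X₁) (n : ℕ), (p ^ n) • e = 0 →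
      ∃ (l : ι) (h : l ≤ j), invJU l ((GlobalInv91.push₂ (F.D l).Y.f).hom
        (Datum.trans₂ (d := (F.D j).d₁) (d' := (F.D l).d₁) (F.mono h) e)) = 0)
    (hβfrom : ∀ (j : ι) (x : H2 (F.D j).Y.X₂) (n : ℕ), (p ^ n) • x = 0 → invJU j x = 0 →
      ∃ (l : ι) (h : l ≤ j) (e : H2 (F.D l).Y.X₁),
        (GlobalInv91.push₂ (F.D l).Y.f).hom e =
          Datum.trans₂ (d := (F.D j).d₂) (d' := (F.D l).d₂) (F.mono h) x) :
    ∃ invC : primary p (𝒰.H2 X.X₃) →+ T,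
      (∀ y : primary p (𝒰.H2 X.X₂),
        invC (mapPrimary p (pushH2 (𝒰 := 𝒰) X.g) y) = invJ (y : 𝒰.H2 X.X₂)) ∧
      (∀ c : primary p (𝒰.H2 X.X₃), invC c = 0 → c = 0) := by
  have hE : 𝒰.IsSmooth X.X₁ := hses.smooth_left 𝒰 hJ
  have hC : 𝒰.IsSmooth X.X₃ := hses.smooth_right 𝒰 hJ
  have hex := hses.exact_H2map_H2map 𝒰 hJ
  have ha : PresHom (F.fam₁.presH2 hE) (F.fam₂.presH2 hJ)
      (fun j => (GlobalInv91.push₂ (F.D j).Y.f).hom.toAddMonoidHom) (pushH2 (𝒰 := 𝒰) X.f) :=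
    ⟨fun {i j} h x => (SeqDatum.trans₂_push₂_f (F.mono h) x).symm,
      fun j x => (F.D j).pushH2_infl₂_f x⟩
  have hb : PresHom (F.fam₂.presH2 hJ) (F.fam₃.presH2 hC)
      (fun j => (GlobalInv91.push₂ (F.D j).Y.g).hom.toAddMonoidHom) (pushH2 (𝒰 := 𝒰) X.g) :=
    ⟨fun {i j} h x => (SeqDatum.trans₂_push₂_g (F.mono h) x).symm,
      fun j x => (F.D j).pushH2_infl₂_g x⟩
  refine LimAlg14.exists_invCp_of_total p (pushH2 (𝒰 := 𝒰) X.f) (pushH2 (𝒰 := 𝒰) X.g)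
    (fun e => (hex _).2 ⟨e, rfl⟩) (fun y hy => (hex y).1 hy) (H2_torsion15 X.X₁) invJ ?_ ?_ ?_
  · rintro c ⟨n, hn⟩
    obtain ⟨y, m, hy, hyc⟩ := Pres.transfer_A hb p hα c n hn
    exact ⟨y, ⟨m, hy⟩, hyc⟩
  · rintro e ⟨n, hn⟩
    exact Pres.transfer_Bto ha p invJ invJU hinvJ hβto e n hn
  · rintro y ⟨n, hn⟩ h0
    exact Pres.transfer_Bfrom ha p invJ invJU hinvJ hβfrom y n hn h0

end SeqFamily

end Fermat.Agent.S55.LimDesc99
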