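/-
S55 / 35-LIM (L-d) (helper99): restriction of sequence descent data to an open subgroup `V`
(sequence version of `Datum.restrict` / `Family.restrict`):
from `(Gal(Ω/ℚ), Y(Ω))` for `(G, 𝒰, X)` to `(Gal(Ω/K), Res Y(Ω))`, `K = Ω^V`, for
`(V, restrictLevels 𝒰 V, Res_V X)`, indexed by the members of the family below `V`.
-/
import Fermat.Agent.S55.LimDesc99.SeqFamily
import Fermat.Agent.S55.LimDesc99.Restrict
import Fermat.Agent.S55.Profin15.LESNat

set_option autoImplicit false

open CategoryTheory groupCohomology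
open Fermat.Agent.S55.Profin15 Fermat.Agent.S55.CS79.InvDescent Fermat.Agent.S55.CS79.FinLevel
open Fermat.Agent.S55.CS79.Restrict Fermat.Agent.S55.CD3

universe u

noncomputable section

namespace Fermat.Agent.S55.LimDesc99

variable {k Γ : Type u} [CommRing k] [Group Γ] {𝒰 : LevelStr Γ}
  {X : ShortComplex (Rep.{u, u, u} k Γ)}

/-- **restriction of a sequence datum to an open subgroup `V ⊇ ker p`**: the finite group is the
image `p(V) ≤ Q` (`= Gal(Ω/K)`), the sequence is `Res_{p(V)} Y`. -/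
def SeqDatum.restrict (D : SeqDatum 𝒰 X) (V : Subgroup Γ) (hV : IsOpenSub 𝒰 V)
    (hd : D.p.ker ≤ V) :
    SeqDatum (restrictLevels 𝒰 V hV) (X.map (Rep.resFunctor V.subtype)) where
  Q := ↥(V.map D.p)
  p := resHom D.p V
  Y := D.Y.map (Rep.resFunctor (V.map D.p).subtype)
  e₁ := D.e₁
  e₂ := D.e₂
  e₃ := D.e₃
  desc₁ := isInvDescent_res D.desc₁ V hd
  desc₂ := isInvDescent_res D.desc₂ V hd
  desc₃ := isInvDescent_res D.desc₃ V hd
  surj := resHom_surjective D.p V
  ker_mem := by
    rw [resHom_ker]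
    exact subgroupOf_mem_restrictLevels hV D.ker_mem hd
  comm_f := D.comm_f
  comm_g := D.comm_g

theorem SeqDatum.restrict_ker (D : SeqDatum 𝒰 X) (V : Subgroup Γ) (hV : IsOpenSub 𝒰 V)
    (hd : D.p.ker ≤ V) : (D.restrict V hV hd).p.ker = D.p.ker.subgroupOf V :=
  resHom_ker D.p V

variable {ι : Type*} [Preorder ι]

/-- **restriction of a cofinal family of sequence data to an open subgroup `V`**, indexed by the
members of the family below `V`. -/
def SeqFamily.restrict (F : SeqFamily 𝒰 X ι) (V : Subgroup Γ) (hV : IsOpenSub 𝒰 V) :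
    SeqFamily (restrictLevels 𝒰 V hV) (X.map (Rep.resFunctor V.subtype))
      {i : ι // (F.D i).p.ker ≤ V} where
  D i := (F.D i.1).restrict V hV i.2
  mono {i j} h := by
    rw [SeqDatum.restrict_ker, SeqDatum.restrict_ker]
    intro s hs
    rw [Subgroup.mem_subgroupOf] at hs ⊢
    exact F.mono (show j.1 ≤ i.1 from h) hs
  nonempty := by
    obtain ⟨U, hU, hUV⟩ := hV
    obtain ⟨i₀⟩ := F.nonempty
    obtain ⟨j, -, hj⟩ := F.cofinal U hU i₀
    exact ⟨⟨j, hj.trans hUV⟩⟩
  directed i j := by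
    obtain ⟨l, hli, hlj⟩ := F.directed i.1 j.1
    exact ⟨⟨l, (F.mono hli).trans i.2⟩, hli, hlj⟩
  cofinal := by
    rintro W ⟨U, hU, -, rfl⟩ i
    obtain ⟨j, hji, hj⟩ := F.cofinal U hU i.1
    refine ⟨⟨j, (F.mono hji).trans i.2⟩, hji, ?_⟩
    rw [SeqDatum.restrict_ker]
    intro s hs
    rw [Subgroup.mem_subgroupOf] at hs ⊢
    exact hj hs

@[simp] theorem SeqFamily.restrict_D (F : SeqFamily 𝒰 X ι) (V : Subgroup Γ)
    (hV : IsOpenSub 𝒰 V) (i : {i : ι // (F.D i).p.ker ≤ V}) :
    (F.restrict V hV).D i = (F.D i.1).restrict V hV i.2 := rfl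

/-- restriction of a short exact sequence (raw form) to a subgroup -/
theorem shortExact_map_res
    (hses : LevelStr.ShortExact (A := X.X₁) (B := X.X₂) (C := X.X₃)
      X.f.hom.toLinearMap X.g.hom.toLinearMap) (V : Subgroup Γ) :
    LevelStr.ShortExact (A := (X.map (Rep.resFunctor V.subtype)).X₁)
      (B := (X.map (Rep.resFunctor V.subtype)).X₂) (C := (X.map (Rep.resFunctor V.subtype)).X₃)
      (X.map (Rep.resFunctor V.subtype)).f.hom.toLinearMap
      (X.map (Rep.resFunctor V.subtype)).g.hom.toLinearMap :=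
  hses.res V.subtype

end Fermat.Agent.S55.LimDesc99
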