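/-
S55 / 35-LIM (L-d) (helper99): helper91's `GlobalInv91.TowerLayerHyp` in MODEL vocabulary.

`Γ` a finite group (`Gal(Ω/K)`), `Y : E ⟶ J ⟶ C` a short complex of `Γ`-modules (the idele sequence
of `Ω`, restricted to `Gal(Ω/K)`), `χ : Γ → ZMod (p ^ m)` a tower character, `Z = ker χ`,
`invJ : H²(Γ, J) → T` the sum of the local invariants.  `TowerModelHyp Y p m χ invJ` is
`TowerLayerHyp` with the layer `X^V` over `G ⧸ V` replaced by an arbitrary model `(Γ, Y)`: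
`TowerLayerHyp X p V m χ invJ ↔ TowerModelHyp (X^V) p m χ invJ` (`towerLayerHyp_iff`).  All producers
(31/32/33: `Adapt77.TowerInputsP` for subquotients `(Γ, C)` of `(Gal(Ω/ℚ), C_S(Ω))`; 34: tower
reciprocity; 35f: full local degree) speak this vocabulary at `Γ = Gal(Ω/K) ≤ Gal(Ω/ℚ)`, so NO
transport to the layers of the limit modules is needed.

* `TowerModelHyp.beta_to / beta_from / alpha` : (β→), (β←), (α) for a normal subgroup `N ⊴ Γ`
  (`N = Gal(Ω/L)`), straight from `GlobalInv91/Gen.lean`.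
-/
import Fermat.Agent.S55.GlobalInv91.InstLev

set_option autoImplicit false
set_option linter.unusedSectionVars false
set_option linter.style.haveILetI false

open groupCohomology CategoryTheory Rep Limits
open Fermat.Agent.S55.GlobalInv91

universe u

namespace Fermat.Agent.S55.LimDesc99

variable {k Γ : Type u} [CommRing k] [Group Γ] (Y : ShortComplex (Rep.{u, u, u} k Γ))
  {T : Type*} [AddCommGroup T] (p : ℕ) [Fact p.Prime]

/-- The arithmetic of the tower layer `χ : Γ → ZMod (p ^ m)` of a model `(Γ, Y)`. -/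
structure TowerModelHyp (m : ℕ) (χ : Γ →* Multiplicative (ZMod (p ^ m)))
    (invJ : H2 Y.X₂ →+ T) : Prop where
  /-- `Γ` is finite -/
  finite : Finite Γ
  /-- `0 → E → J → C → 0` is exact -/
  shortExact : Y.ShortExact
  /-- `χ` takes the value `1` -/
  exists_s : ∃ s : Γ, chiVal χ s = 1
  /-- Hilbert 90 -/
  h1E : IsZero (groupCohomology Y.X₁ 1)
  /-- Hilbert 90 on the kernel of the tower character -/
  h1ZE : IsZero (groupCohomology (res χ.ker.subtype Y.X₁) 1)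
  /-- `H¹(Z, J) = 0` -/
  h1ZJ : IsZero (groupCohomology (res χ.ker.subtype Y.X₂) 1)
  /-- the `p`-primary part of `H¹(Z, C)` vanishes (33) -/
  h1ZC : ∀ x : H1 (res χ.ker.subtype Y.X₃), (∃ j : ℕ, p ^ j • x = 0) → x = 0
  /-- reciprocity on the carry classes of the tower (34) -/
  recT : ∀ b : Y.X₁.ρ.invariants, invJ ((push₂ Y.f).hom (carryH2 Y.X₁ χ b)) = 0
  /-- the second inequality for the tower layer (32) -/
  cardZ : Nat.card (InfRes9.pPrimary p (H2 (Y.X₃.quotientToInvariants χ.ker))) ∣ p ^ m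
  /-- a class of full local degree -/
  fullDeg : ∃ c₀ : H2 (Y.X₂.quotientToInvariants χ.ker),
    addOrderOf (invJ ((infl₂ Y.X₂ χ.ker).hom c₀)) = p ^ m

/-- helper91's layer hypothesis is the model hypothesis for the layer. -/
theorem towerLayerHyp_iff {G : Type u} [Group G] (X : ShortComplex (Rep.{u, u, u} k G))
    (V : Subgroup G) [V.Normal] (m : ℕ) (χ : G ⧸ V →* Multiplicative (ZMod (p ^ m)))
    (invJ : H2 (X.X₂.quotientToInvariants V) →+ T) :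
    TowerLayerHyp X p V m χ invJ ↔
      TowerModelHyp (X.map (quotientToInvariantsFunctor k V)) p m χ invJ :=
  ⟨fun h => ⟨h.finite, h.shortExact, h.exists_s, h.h1E, h.h1ZE, h.h1ZJ, h.h1ZC, h.recT, h.cardZ,
    h.fullDeg⟩,
   fun h => ⟨h.finite, h.shortExact, h.exists_s, h.h1E, h.h1ZE, h.h1ZJ, h.h1ZC, h.recT, h.cardZ,
    h.fullDeg⟩⟩

namespace TowerModelHyp

variable {Y p} {m : ℕ} {χ : Γ →* Multiplicative (ZMod (p ^ m))} {invJ : H2 Y.X₂ →+ T}

/-- the prime-to-`p` part `m'` of `|Z|` kills `H¹(Z, C)`: the hypotheses `hH1Z` and `hker`. -/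
theorem exists_coprime (h : TowerModelHyp Y p m χ invJ) :
    ∃ m' : ℕ, Nat.Coprime m' p ∧
      (∀ f : χ.ker → Y.X₃, (∀ z w : χ.ker, f (z * w) = Y.X₃.ρ (z : Γ) (f w) + f z) →
        ∃ y : Y.X₃, ∀ z : χ.ker, m' • f z = Y.X₃.ρ (z : Γ) y - y) ∧
      (∀ x : H2 (res χ.ker.subtype Y.X₁), (pushS₂ Y.f χ.ker).hom x = 0 → m' • x = 0) := by
  haveI := h.finite
  have hp : p.Prime := Fact.out
  have hne : Nat.card χ.ker ≠ 0 := Nat.card_pos.ne'
  obtain ⟨b, m', hm', hcard⟩ := Nat.exists_eq_pow_mul_and_not_dvd hne p hp.ne_one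
  have hcop : Nat.Coprime m' p := ((Nat.Prime.coprime_iff_not_dvd hp).2 hm').symm
  refine ⟨m', hcop, ?_, ?_⟩
  · exact hH1Z_of_pPrimary Y.X₃ χ p hcard h.h1ZC
  · intro x hx
    exact hker_res (X := Y) h.shortExact χ.ker
      (fun y => nsmul_H1_eq_zero_of_pPrimary (res χ.ker.subtype Y.X₃) p hcard h.h1ZC y) x hx

/-- the outputs of the tower layer. -/
theorem layer (h : TowerModelHyp Y p m χ invJ) :
    (∀ y : H2 (Y.X₁.quotientToInvariants χ.ker),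
      invJ ((push₂ Y.f).hom ((infl₂ Y.X₁ χ.ker).hom y)) = 0) ∧
    (∀ y : H2 (Y.X₂.quotientToInvariants χ.ker), invJ ((infl₂ Y.X₂ χ.ker).hom y) = 0 →
      ∃ e' : H2 (Y.X₁.quotientToInvariants χ.ker), (pushQ₂ Y.f χ.ker).hom e' = y) ∧
    ∃ s : Γ, chiVal χ s = 1 ∧
    ∃ (a : Y.X₃.ρ.invariants) (c' : H2 Y.X₂), p ^ m • c' = 0 ∧
      (push₂ Y.g).hom c' = carryH2 Y.X₃ χ a ∧
      ∀ m' : ℕ, (∃ b : Y.X₃, (∀ z : Γ, χ z = 1 → Y.X₃.ρ z b = b) ∧
        m' • (a : Y.X₃) = partialNorm Y.X₃ s b (p ^ m)) → p ^ m ∣ m' := by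
  obtain ⟨s, hs⟩ := h.exists_s
  obtain ⟨c₀, hc₀⟩ := h.fullDeg
  obtain ⟨h1, h2, h3⟩ := tower_layer_of_shortExact (X := Y) hs h.shortExact h.h1ZE h.h1E invJ
    h.recT p m rfl h.cardZ c₀ hc₀
  exact ⟨h1, h2, s, hs, h3⟩

variable (N : Subgroup Γ) [N.Normal]

/-- **(β→)** for `N ⊴ Γ`: reciprocity for the `p`-primary classes of `H²(Γ ⧸ N, E^N)` whose idele
class is split by the tower layer. -/
theorem beta_to (h : TowerModelHyp Y p m χ invJ)
    (e : H2 (Y.X₁.quotientToInvariants N)) {j : ℕ} (he : p ^ j • e = 0)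
    (hsplit : (res₂ Y.X₂ χ.ker).hom ((push₂ Y.f).hom ((infl₂ Y.X₁ N).hom e)) = 0) :
    invJ ((push₂ Y.f).hom ((infl₂ Y.X₁ N).hom e)) = 0 := by
  obtain ⟨m', hm', -, hker⟩ := h.exists_coprime
  exact reciprocity_of_tower Y.f N χ.ker p hm' invJ h.h1ZE hker h.layer.1 e he hsplit

/-- **(β←)** for `N ⊴ Γ`. -/
theorem beta_from (h : TowerModelHyp Y p m χ invJ)
    (x : H2 (Y.X₂.quotientToInvariants N)) (hx : invJ ((infl₂ Y.X₂ N).hom x) = 0)
    (hsplit : (res₂ Y.X₂ χ.ker).hom ((infl₂ Y.X₂ N).hom x) = 0) :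
    ∃ e : H2 Y.X₁, (push₂ Y.f).hom e = (infl₂ Y.X₂ N).hom x :=
  hasse_of_tower Y.f N χ.ker invJ h.h1ZJ h.layer.2.1 x hx hsplit

/-- **(α)** for `N ⊴ Γ`, `p ^ m` the exact power of `p` in `[Γ : N]`. -/
theorem alpha (h : TowerModelHyp Y p m χ invJ)
    (hb : Nat.card (InfRes9.pPrimary p (H2 (Y.X₃.quotientToInvariants N))) ∣ p ^ m)
    (hidx : p ^ m ∣ N.index)
    (h1N : IsZero (groupCohomology (res N.subtype Y.X₃) 1))
    (invJN : H2 (res N.subtype Y.X₂) →+ T)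
    (hJ1 : ∀ y : H2 Y.X₂, invJN ((res₂ Y.X₂ N).hom y) = N.index • invJ y)
    (invCN : H2 (res N.subtype Y.X₃) →+ T) (hinjN : Function.Injective invCN)
    (hcompN : ∀ x : H2 (res N.subtype Y.X₂), invCN ((pushS₂ Y.g N).hom x) = invJN x) :
    (∃ (a : Y.X₃.ρ.invariants) (γ : H2 (Y.X₃.quotientToInvariants N)),
      (infl₂ Y.X₃ N).hom γ = carryH2 Y.X₃ χ a ∧ addOrderOf γ = p ^ m ∧
      ∀ x : H2 (Y.X₃.quotientToInvariants N), (∃ j : ℕ, p ^ j • x = 0) → ∃ j : ℤ, x = j • γ) ∧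
    ∀ x : H2 (Y.X₃.quotientToInvariants N), (∃ j : ℕ, p ^ j • x = 0) →
      ∃ y : H2 Y.X₂, p ^ m • y = 0 ∧ (push₂ Y.g).hom y = (infl₂ Y.X₃ N).hom x := by
  obtain ⟨m', hm', hH1Z, -⟩ := h.exists_coprime
  obtain ⟨-, -, s, hs, a, c', hc', hπ, hc⟩ := h.layer
  haveI : Finite (InfRes9.pPrimary p (H2 (Y.X₃.quotientToInvariants N))) :=
    Nat.finite_of_card_ne_zero fun h0 => NeZero.ne (p ^ m) (by
      rw [h0] at hb
      exact zero_dvd_iff.1 hb)
  obtain ⟨γ, hγ1, hγ2, hγ3, h2⟩ := exists_fundamental_class_of_inv Y.g N p rfl h1N χ s hs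
    (Nat.Coprime.pow_right m hm') hH1Z hb invJ invJN hJ1 invCN hinjN hcompN hidx a c' hc' hπ hc
  exact ⟨⟨a, γ, hγ1, hγ2, hγ3⟩, h2⟩

end TowerModelHyp

end Fermat.Agent.S55.LimDesc99
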