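/-
S55 / 35-LIM (L-d) (helper99): **35-GEN + 35-LIM for a cofinal family of finite-level models**
(the family form of helper91's `GlobalInv91.exists_invCp_of_towerLayers`).

`F : SeqFamily 𝒰 X ι` a cofinal family of descent data `(Q_j, Y_j)` of `X : E ⟶ J ⟶ C`
(`Q_j = Gal(Ω_j/K)`, `Y_j` = the idele sequence of `Ω_j` restricted to `Gal(Ω_j/K)`), `invJ` the idelic
invariant on level `H²(J)` computed by `invJU j` on `H²(Q_j, J_j)`.  If

* (`hsplit`) every `p`-primary class of `H²(Q_j, J_j)` is split, in a bigger member `l ≤ j`, by the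
  kernel of a tower character `χ : Q_l → ZMod (p ^ m)` satisfying `TowerModelHyp Y_l p m χ (invJU l)`;
* (`halpha`) every `j` has a bigger member `l ≤ j` with a tower character of degree `p ^ m`,
  the exact power of `p` in `[Q_l : N]`, `N = ker (Q_l → Q_j) = Gal(Ω_l/Ω_j)`, with the bound
  `|H²(Q_j, C_j)(p)| ∣ p ^ m` AT LEVEL `j`, the degree formula and the invariant of the layer `N`,

then the invariant on the `p`-primary part of level `H²(C)` exists, is compatible with `invJ` and is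
injective.  Everything is stated inside the finite groups `Q_l`: the hypotheses are literally the
D2 statements at `Γ = Gal(Ω_l/K)`; the passage to the limit module is `Datum.cross`.
-/
import Fermat.Agent.S55.LimDesc99.SeqFamily
import Fermat.Agent.S55.LimDesc99.TowerModel

set_option autoImplicit false
set_option linter.unusedSectionVars false

open CategoryTheory groupCohomology Limits
open Fermat.Agent.S55.Profin15 Fermat.Agent.S55.CS79.InvDescent Fermat.Agent.S55.CS79.FinLevel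
open Fermat.Agent.S55.PrimaryExt14

universe u

noncomputable section

namespace Fermat.Agent.S55.LimDesc99

/-- the cardinality of the `p`-primary part is invariant under additive isomorphisms -/
theorem card_pPrimary_congr {A B : Type*} [AddCommGroup A] [AddCommGroup B] (φ : A ≃+ B)
    (p : ℕ) : Nat.card (InfRes9.pPrimary p A) = Nat.card (InfRes9.pPrimary p B) := by
  refine Nat.card_congr (Equiv.subtypeEquiv φ.toEquiv (fun a => ?_))
  constructor
  · rintro ⟨n, hn⟩
    exact ⟨n, by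
      show p ^ n • φ a = 0
      rw [← map_nsmul, hn, map_zero]⟩
  · rintro ⟨n, hn⟩
    refine ⟨n, φ.injective ?_⟩
    have hn' : p ^ n • φ a = 0 := hn
    rw [map_nsmul, hn', map_zero]

variable {k Γ : Type u} [CommRing k] [Group Γ] {𝒰 : LevelStr Γ}
  {X : ShortComplex (Rep.{u, u, u} k Γ)} {ι : Type*} [Preorder ι] (F : SeqFamily 𝒰 X ι)
  (hses : LevelStr.ShortExact (A := X.X₁) (B := X.X₂) (C := X.X₃)
    X.f.hom.toLinearMap X.g.hom.toLinearMap)
  (hJ : 𝒰.IsSmooth X.X₂) {T : Type*} [AddCommGroup T] (p : ℕ) [Fact p.Prime]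

include hses hJ in
/-- **35-GEN + 35-LIM, family form.** -/
theorem SeqFamily.exists_invCp_of_towerModels (invJ : 𝒰.H2 X.X₂ →+ T)
    (invJU : ∀ j : ι, H2 (F.D j).Y.X₂ →+ T)
    (hinvJ : ∀ (j : ι) (x : H2 (F.D j).Y.X₂), invJ ((F.D j).d₂.infl₂ x) = invJU j x)
    (hsplit : ∀ (j : ι) (x : H2 (F.D j).Y.X₂) (n : ℕ), (p ^ n) • x = 0 →
      ∃ (l : ι) (h : l ≤ j) (m : ℕ) (χ : (F.D l).Q →* Multiplicative (ZMod (p ^ m))),
        TowerModelHyp (F.D l).Y p m χ (invJU l) ∧
        (GlobalInv91.res₂ (F.D l).Y.X₂ χ.ker).hom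
          (Datum.trans₂ (d := (F.D j).d₂) (d' := (F.D l).d₂) (F.mono h) x) = 0)
    (halpha : ∀ j : ι,
      ∃ (l : ι) (h : l ≤ j) (m : ℕ) (χ : (F.D l).Q →* Multiplicative (ZMod (p ^ m))),
        TowerModelHyp (F.D l).Y p m χ (invJU l) ∧
        Nat.card (InfRes9.pPrimary p (H2 (F.D j).Y.X₃)) ∣ p ^ m ∧
        p ^ m ∣ (SeqDatum.kerQ (F.mono h)).index ∧
        IsZero (groupCohomology
          (Rep.res (SeqDatum.kerQ (F.mono h)).subtype (F.D l).Y.X₃) 1) ∧
        ∃ invJN : H2 (Rep.res (SeqDatum.kerQ (F.mono h)).subtype (F.D l).Y.X₂) →+ T,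
          (∀ y : H2 (F.D l).Y.X₂,
            invJN ((GlobalInv91.res₂ (F.D l).Y.X₂ (SeqDatum.kerQ (F.mono h))).hom y) =
              (SeqDatum.kerQ (F.mono h)).index • invJU l y) ∧
          ∃ invCN : H2 (Rep.res (SeqDatum.kerQ (F.mono h)).subtype (F.D l).Y.X₃) →+ T,
            Function.Injective invCN ∧
            ∀ x : H2 (Rep.res (SeqDatum.kerQ (F.mono h)).subtype (F.D l).Y.X₂),
              invCN ((GlobalInv91.pushS₂ (F.D l).Y.g (SeqDatum.kerQ (F.mono h))).hom x) =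
                invJN x) :
    ∃ invC : primary p (𝒰.H2 X.X₃) →+ T,
      (∀ y : primary p (𝒰.H2 X.X₂),
        invC (mapPrimary p (pushH2 (𝒰 := 𝒰) X.g) y) = invJ (y : 𝒰.H2 X.X₂)) ∧
      (∀ c : primary p (𝒰.H2 X.X₃), invC c = 0 → c = 0) := by
  -- compatibility of the finite-level invariants with the transition maps
  have htr : ∀ (j l : ι) (h : l ≤ j) (x : H2 (F.D j).Y.X₂),
      invJU l (Datum.trans₂ (d := (F.D j).d₂) (d' := (F.D l).d₂) (F.mono h) x) = invJU j x := by
    intro j l h x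
    rw [← hinvJ l, ← hinvJ j]
    exact congrArg invJ (Datum.infl₂_trans₂ (d := (F.D j).d₂) (d' := (F.D l).d₂) (F.mono h) x)
  refine F.exists_invCp hses hJ p invJ invJU hinvJ ?_ ?_ ?_
  · -- (α)
    intro j x n hx
    obtain ⟨l, h, m, χ, hyp, hb, hidx, h1N, invJN, hJ1, invCN, hinjN, hcompN⟩ := halpha j
    have hb' : Nat.card (InfRes9.pPrimary p
        (H2 ((F.D l).Y.X₃.quotientToInvariants (SeqDatum.kerQ (F.mono h))))) ∣ p ^ m := by
      have hc := card_pPrimary_congr
        (Datum.cross (d := (F.D j).d₃) (d' := (F.D l).d₃) (F.mono h)).toAddEquiv p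
      exact hc ▸ hb
    obtain ⟨y, hy, hyx⟩ := (hyp.alpha (SeqDatum.kerQ (F.mono h)) hb' hidx h1N invJN hJ1 invCN
      hinjN hcompN).2
      (Datum.cross (d := (F.D j).d₃) (d' := (F.D l).d₃) (F.mono h) x)
      ⟨n, Datum.cross_nsmul_eq_zero (d := (F.D j).d₃) (d' := (F.D l).d₃) (F.mono h) hx⟩
    refine ⟨l, h, y, m, hy, hyx.trans ?_⟩
    exact Datum.infl₂_cross (d := (F.D j).d₃) (d' := (F.D l).d₃) (F.mono h) x
  · -- (β→)
    intro j e n he
    have he' : (p ^ n) • (GlobalInv91.push₂ (F.D j).Y.f).hom e = 0 := by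
      rw [← map_nsmul, he, map_zero]
    obtain ⟨l, h, m, χ, hyp, hs⟩ := hsplit j _ n he'
    have hcr := Datum.infl₂_cross (d := (F.D j).d₁) (d' := (F.D l).d₁) (F.mono h) e
    have hs' : (GlobalInv91.res₂ (F.D l).Y.X₂ χ.ker).hom
        ((GlobalInv91.push₂ (F.D l).Y.f).hom
          ((GlobalInv91.infl₂ (F.D l).Y.X₁ (SeqDatum.kerQ (F.mono h))).hom
            (Datum.cross (d := (F.D j).d₁) (d' := (F.D l).d₁) (F.mono h) e))) = 0 := by
      rw [← hs, SeqDatum.trans₂_push₂_f (F.mono h) e]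
      exact congrArg (fun z => (GlobalInv91.res₂ (F.D l).Y.X₂ χ.ker).hom
        ((GlobalInv91.push₂ (F.D l).Y.f).hom z)) hcr
    have hfin := hyp.beta_to (SeqDatum.kerQ (F.mono h))
      (Datum.cross (d := (F.D j).d₁) (d' := (F.D l).d₁) (F.mono h) e)
      (Datum.cross_nsmul_eq_zero (d := (F.D j).d₁) (d' := (F.D l).d₁) (F.mono h) he) hs'
    refine ⟨l, h, ?_⟩
    rw [← hfin]
    exact congrArg (fun z => invJU l ((GlobalInv91.push₂ (F.D l).Y.f).hom z)) hcr.symm
  · -- (β←)
    intro j x n hx h0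
    obtain ⟨l, h, m, χ, hyp, hs⟩ := hsplit j x n hx
    have hcr := Datum.infl₂_cross (d := (F.D j).d₂) (d' := (F.D l).d₂) (F.mono h) x
    have hx0 : invJU l ((GlobalInv91.infl₂ (F.D l).Y.X₂ (SeqDatum.kerQ (F.mono h))).hom
        (Datum.cross (d := (F.D j).d₂) (d' := (F.D l).d₂) (F.mono h) x)) = 0 := by
      rw [← h0, ← htr j l h x]
      exact congrArg (invJU l) hcr
    have hs' : (GlobalInv91.res₂ (F.D l).Y.X₂ χ.ker).hom
        ((GlobalInv91.infl₂ (F.D l).Y.X₂ (SeqDatum.kerQ (F.mono h))).hom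
          (Datum.cross (d := (F.D j).d₂) (d' := (F.D l).d₂) (F.mono h) x)) = 0 := by
      rw [← hs]
      exact congrArg (GlobalInv91.res₂ (F.D l).Y.X₂ χ.ker).hom hcr
    obtain ⟨e, he⟩ := hyp.beta_from (SeqDatum.kerQ (F.mono h))
      (Datum.cross (d := (F.D j).d₂) (d' := (F.D l).d₂) (F.mono h) x) hx0 hs'
    exact ⟨l, h, e, he.trans hcr⟩

end Fermat.Agent.S55.LimDesc99
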