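/-
S55 / 35-LIM (L-d) (helper99): THE CONCRETE FAMILY of finite-level models of the limit `S`-idele
class sequence (D2 model of helper79 / helper44):

  `XS S : Q_Sˣ ⟶ J_S × I^S ⟶ C_S`   (limit modules of `G_ℚ`, `CS79.ClassSeq` / `CofinalCS.CS S`),
  `seqDatum S Ω : (Gal(Ω/ℚ), Ωˣ ⟶ J_S(Ω) × I^S(Ω) ⟶ C_S(Ω))`  (`IdeleVal44.sesJIS`),

for every Galois `S`-level `Ω` (`CS79.FamilyCS.GalLev S`), embedded by helper79's `kIncl`, `mIncl`,
`cIncl`.  `seqFam S hS` is the cofinal family over `G_ℚ`; `seqFamV S hS V hV` its restriction to an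
open subgroup `V` (models `(Gal(Ω/K), Res (sesJIS h_Ω))`, `K = Ω^V`, `Ω ⊇ K`).

`exists_invCp_V` : **35-GEN + 35-LIM over `V` for the true class module**: the invariant on the
`p`-primary part of level `H²(V, C_S)` from `TowerModelHyp` for the models `(Gal(Ω/K), Res sesJIS)`.
-/
import Fermat.Agent.S55.CS79.FamilyCS
import Fermat.Agent.S55.LimDesc99.TowerFamily
import Fermat.Agent.S55.LimDesc99.SeqRestrict

set_option autoImplicit false
set_option linter.unusedSectionVars false

open CategoryTheory groupCohomology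

noncomputable section

namespace Fermat.Agent.S55.LimDesc99.D2

open Fermat.Agent.S55.Profin15 Fermat.Agent.S55.Idele73.Basic
open Fermat.Agent.S55.ESDiv20 hiding GQ Qb
open Fermat.Agent.S55.ESRep20
open Fermat.Agent.S55.CS79.InvDescent Fermat.Agent.S55.CS79.Limit
open Fermat.Agent.S55.CS79.DivLimit Fermat.Agent.S55.CS79.LevelClass
open Fermat.Agent.S55.CS79.ClassSeq Fermat.Agent.S55.CS79.CofinalCS
open Fermat.Agent.S55.CS79.FamilyCS
open Fermat.Agent.S55.GlobalMod94.JS Fermat.Agent.S55.CD3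
open Fermat.Agent.S55.PrimaryExt14
open Fermat.Agent.S55.LimDesc99
open Fermat.Agent.Lib.FrobeniusExists (isAlgebraic_Qb isAlgClosure_Qb isGalois_Qb)

attribute [local instance] isAlgebraic_Qb isAlgClosure_Qb isGalois_Qb

variable (S : Finset Nat.Primes)

theorem diagHom_classProj :
    diagHom (diagJ S) (divLim S) ≫ classProj (diagJ S) (divLim S) = 0 := by
  apply Rep.hom_ext
  ext x
  show (classProj (diagJ S) (divLim S)).hom ((diagHom (diagJ S) (divLim S)).hom x) = 0
  rw [classProj_apply, Submodule.Quotient.mk_eq_zero]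
  exact ⟨x, rfl⟩

/-- **the limit `S`-idele class sequence** `Q_Sˣ ⟶ J_S × I^S ⟶ C_S` -/
def XS : ShortComplex (Rep.{0, 0, 0} ℤ GQ) :=
  ShortComplex.mk (diagHom (diagJ S) (divLim S)) (classProj (diagJ S) (divLim S))
    (diagHom_classProj S)

theorem XS_X₁ : (XS S).X₁ = QSxRep S := rfl

theorem XS_X₂ : (XS S).X₂ = prodRep (JSp S) (ISlim S) := rfl

theorem XS_X₃ : (XS S).X₃ = CS S := rfl

theorem XS_shortExact (hS : S.Nonempty) :
    LevelStr.ShortExact (A := (XS S).X₁) (B := (XS S).X₂) (C := (XS S).X₃)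
      (XS S).f.hom.toLinearMap (XS S).g.hom.toLinearMap where
  equivariant_left := LevelStr.isEquivariant_hom (XS S).f
  equivariant_right := LevelStr.isEquivariant_hom (XS S).g
  injective := (shortExact_class (diagJ S) (divLim S) (diagJ_injective S hS)).inj
  surjective := (shortExact_class (diagJ S) (divLim S) (diagJ_injective S hS)).surj
  exact := fun b => by
    rw [Set.mem_range]
    exact (shortExact_class (diagJ S) (divLim S) (diagJ_injective S hS)).exact b

theorem XS_isSmooth : (globalLevels S).IsSmooth (XS S).X₂ :=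
  isSmooth_prodRep (JSp_isSmooth S) (isSmooth_ISlim S)

variable {S}

/-- **the model at the Galois `S`-level `Ω`**: `(Gal(Ω/ℚ), Ωˣ ⟶ J_S(Ω) × I^S(Ω) ⟶ C_S(Ω))` -/
def seqDatum (hS : S.Nonempty) (i : GalLev S) : SeqDatum (globalLevels S) (XS S) where
  Q := GalL i.1
  p := resL i.1
  Y := IdeleVal44.sesJIS (unrOutside S i.1 i.unr)
  e₁ := kIncl S i.1 i.unr
  e₂ := mIncl S i.1 i.unr
  e₃ := cIncl S i.1 i.unr
  desc₁ := isInvDescent_kIncl S i.1 i.unr
  desc₂ := isInvDescent_mIncl S i.1 i.unr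
  desc₃ := isInvDescent_CS S i.1 hS i.unr (unrOutside S i.1 i.unr)
  surj := resL_surjective i.1
  ker_mem := i.ker_mem
  comm_f := fun b => (mIncl_deltaS S i.1 i.unr b).symm
  comm_g := fun b => (cIncl_toCS S i.1 i.unr b).symm

variable (S)

/-- **the cofinal family of models over `G_ℚ`** -/
def seqFam (hS : S.Nonempty) : SeqFamily (globalLevels S) (XS S) (GalLev S) where
  D i := seqDatum hS i
  mono h := GalLev.ker_mono h
  nonempty := ⟨GalLev.bot⟩
  directed i j := ⟨i.sup j, GalLev.sup_le_left i j, GalLev.sup_le_right i j⟩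
  cofinal _ hV i := GalLev.cofinal hV i

variable (V : Subgroup GQ) (hV : IsOpenSub (globalLevels S) V)

/-- the index set over `V`: the Galois `S`-levels `Ω` containing the fixed field of `V` -/
abbrev LevV : Type := {i : GalLev S // (resL i.1).ker ≤ V}

/-- the limit sequence restricted to `V` -/
abbrev XSV : ShortComplex (Rep.{0, 0, 0} ℤ ↥V) := (XS S).map (Rep.resFunctor V.subtype)

/-- **the cofinal family of models over an open subgroup `V`**:
`(Gal(Ω/K), Res (Ωˣ ⟶ J_S(Ω) × I^S(Ω) ⟶ C_S(Ω)))`, `K = Ω^V`. -/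
def seqFamV (hS : S.Nonempty) :
    SeqFamily (restrictLevels (globalLevels S) V hV) (XSV S V) (LevV S V) :=
  (seqFam S hS).restrict V hV

/-- the Galois group `Gal(Ω/K) ≤ Gal(Ω/ℚ)` of the model `Ω` over `V` -/
abbrev HV (i : LevV S V) : Subgroup (GalL i.1.1) := V.map (resL i.1.1)

/-- the model sequence over `V`: `Res_{Gal(Ω/K)} (sesJIS h_Ω)` -/
abbrev YV (i : LevV S V) : ShortComplex (Rep.{0, 0, 0} ℤ ↥(HV S V i)) :=
  (IdeleVal44.sesJIS (unrOutside S i.1.1 i.1.unr)).map (Rep.resFunctor (HV S V i).subtype)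

theorem seqFamV_Y (hS : S.Nonempty) (i : LevV S V) : ((seqFamV S V hV hS).D i).Y = YV S V i := rfl

theorem XSV_shortExact (hS : S.Nonempty) :
    LevelStr.ShortExact (A := (XSV S V).X₁) (B := (XSV S V).X₂) (C := (XSV S V).X₃)
      (XSV S V).f.hom.toLinearMap (XSV S V).g.hom.toLinearMap :=
  shortExact_map_res (XS_shortExact S hS) V

theorem XSV_isSmooth : (restrictLevels (globalLevels S) V hV).IsSmooth (XSV S V).X₂ :=
  Fermat.Agent.S55.CS79.Restrict.isSmooth_res (XS_isSmooth S) hV

variable {T : Type*} [AddCommGroup T] (p : ℕ) [Fact p.Prime]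

/-- **35-GEN + 35-LIM over `V` for the true `S`-idele class module `C_S`**: from `TowerModelHyp`
for the models `(Gal(Ω/K), Res sesJIS h_Ω)` (hypotheses: see
`SeqFamily.exists_invCp_of_towerModels`). -/
theorem exists_invCp_V (hS : S.Nonempty)
    (invJ : (restrictLevels (globalLevels S) V hV).H2 (XSV S V).X₂ →+ T)
    (invJU : ∀ j : LevV S V, H2 (YV S V j).X₂ →+ T)
    (hinvJ : ∀ (j : LevV S V) (x : H2 (YV S V j).X₂),
      invJ (((seqFamV S V hV hS).D j).d₂.infl₂ x) = invJU j x)
    (hsplit : ∀ (j : LevV S V) (x : H2 (YV S V j).X₂) (n : ℕ), (p ^ n) • x = 0 →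
      ∃ (l : LevV S V) (h : l ≤ j) (m : ℕ)
        (χ : ↥(HV S V l) →* Multiplicative (ZMod (p ^ m))),
        TowerModelHyp (YV S V l) p m χ (invJU l) ∧
        (GlobalInv91.res₂ (YV S V l).X₂ χ.ker).hom
          (Datum.trans₂ (d := ((seqFamV S V hV hS).D j).d₂) (d' := ((seqFamV S V hV hS).D l).d₂)
            ((seqFamV S V hV hS).mono h) x) = 0)
    (halpha : ∀ j : LevV S V,
      ∃ (l : LevV S V) (h : l ≤ j) (m : ℕ)
        (χ : ↥(HV S V l) →* Multiplicative (ZMod (p ^ m))),
        TowerModelHyp (YV S V l) p m χ (invJU l) ∧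
        Nat.card (InfRes9.pPrimary p (H2 (YV S V j).X₃)) ∣ p ^ m ∧
        p ^ m ∣ (SeqDatum.kerQ ((seqFamV S V hV hS).mono h)).index ∧
        Limits.IsZero (groupCohomology
          (Rep.res (SeqDatum.kerQ ((seqFamV S V hV hS).mono h)).subtype (YV S V l).X₃) 1) ∧
        ∃ invJN : H2 (Rep.res (SeqDatum.kerQ ((seqFamV S V hV hS).mono h)).subtype
            (YV S V l).X₂) →+ T,
          (∀ y : H2 (YV S V l).X₂,
            invJN ((GlobalInv91.res₂ (YV S V l).X₂
              (SeqDatum.kerQ ((seqFamV S V hV hS).mono h))).hom y) =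
              (SeqDatum.kerQ ((seqFamV S V hV hS).mono h)).index • invJU l y) ∧
          ∃ invCN : H2 (Rep.res (SeqDatum.kerQ ((seqFamV S V hV hS).mono h)).subtype
              (YV S V l).X₃) →+ T,
            Function.Injective invCN ∧
            ∀ x : H2 (Rep.res (SeqDatum.kerQ ((seqFamV S V hV hS).mono h)).subtype
                (YV S V l).X₂),
              invCN ((GlobalInv91.pushS₂ (YV S V l).g
                (SeqDatum.kerQ ((seqFamV S V hV hS).mono h))).hom x) = invJN x) :
    ∃ invC : primary p ((restrictLevels (globalLevels S) V hV).H2 (XSV S V).X₃) →+ T,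
      (∀ y : primary p ((restrictLevels (globalLevels S) V hV).H2 (XSV S V).X₂),
        invC (mapPrimary p (pushH2 (𝒰 := restrictLevels (globalLevels S) V hV) (XSV S V).g) y) =
          invJ (y : (restrictLevels (globalLevels S) V hV).H2 (XSV S V).X₂)) ∧
      (∀ c : primary p ((restrictLevels (globalLevels S) V hV).H2 (XSV S V).X₃),
        invC c = 0 → c = 0) :=
  (seqFamV S V hV hS).exists_invCp_of_towerModels (XSV_shortExact S V hS) (XSV_isSmooth S V hV) p
    invJ invJU hinvJ hsplit halpha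

end Fermat.Agent.S55.LimDesc99.D2
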