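/-
S55 / 35-LIM (L-d) (helper99): helper91's request (R) of #2521 — THE CONCRETE `GlobalInv91.SCFamily`
of the true `S`-idele class sequence over an open subgroup `V`:

  `D2.scFamV S V hV hS : GlobalInv91.SCFamily (restrictLevels (globalLevels S) V hV) (XSV S V) (LevV S V)`

with `(d Ω).Q = ↥(V.map (resL Ω))` and
`(d Ω).Y = (IdeleVal44.sesJIS (unrOutside S Ω _)).map (Rep.resFunctor (V.map (resL Ω)).subtype)`
(both `rfl`), obtained from `LimDesc99.D2.seqFamV` by the generic converter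
`SeqFamily.toSC` (`LimDesc99.SeqDatum` and `GlobalInv91.SCDatum` are the same structure up to the
orientation of `comm_f`, `comm_g`; `TowerModelHyp` and `FinLayerHyp` have the same fields).

`D2.exists_invCp_V_fin` : **35-GEN + 35-LIM over `V` for `C_S`** = `SCFamily.exists_invCp` at this
family (hypotheses in `FinLayerHyp` vocabulary).
-/
import Fermat.Agent.S55.GlobalInv91.Fam
import Fermat.Agent.S55.LimDesc99.D2Family

set_option autoImplicit false
set_option linter.unusedSectionVars false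

open CategoryTheory groupCohomology

universe u

noncomputable section

namespace Fermat.Agent.S55.LimDesc99

open Fermat.Agent.S55.Profin15 Fermat.Agent.S55.GlobalInv91

section Generic

variable {k Γ : Type u} [CommRing k] [Group Γ] {𝒰 : LevelStr Γ}
  {X : ShortComplex (Rep.{u, u, u} k Γ)}

/-- a `SeqDatum` is an `SCDatum` -/
def SeqDatum.toSC (D : SeqDatum 𝒰 X) : SCDatum 𝒰 X where
  Q := D.Q
  p := D.p
  surj := D.surj
  ker_mem := D.ker_mem
  Y := D.Y
  e₁ := D.e₁
  e₂ := D.e₂
  e₃ := D.e₃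
  desc₁ := D.desc₁
  desc₂ := D.desc₂
  desc₃ := D.desc₃
  comm_f := fun b => (D.comm_f b).symm
  comm_g := fun b => (D.comm_g b).symm

/-- an `SCDatum` is a `SeqDatum` -/
def SeqDatum.ofSC (d : SCDatum 𝒰 X) : SeqDatum 𝒰 X where
  Q := d.Q
  p := d.p
  surj := d.surj
  ker_mem := d.ker_mem
  Y := d.Y
  e₁ := d.e₁
  e₂ := d.e₂
  e₃ := d.e₃
  desc₁ := d.desc₁
  desc₂ := d.desc₂
  desc₃ := d.desc₃
  comm_f := fun b => (d.comm_f b).symm
  comm_g := fun b => (d.comm_g b).symm

variable {ι : Type*} [Preorder ι]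

/-- a `SeqFamily` is an `SCFamily` -/
def SeqFamily.toSC (F : SeqFamily 𝒰 X ι) : SCFamily 𝒰 X ι where
  d i := (F.D i).toSC
  mono h := F.mono h
  nonempty := F.nonempty
  directed := F.directed
  cofinal := F.cofinal

/-- an `SCFamily` is a `SeqFamily` -/
def SeqFamily.ofSC (F : SCFamily 𝒰 X ι) : SeqFamily 𝒰 X ι where
  D i := SeqDatum.ofSC (F.d i)
  mono h := F.mono h
  nonempty := F.nonempty
  directed := F.directed
  cofinal := F.cofinal

variable {T : Type*} [AddCommGroup T] (p : ℕ) [Fact p.Prime]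

/-- the two layer hypotheses have the same fields -/
theorem towerModelHyp_iff_finLayerHyp (Y : ShortComplex (Rep.{u, u, u} k Γ)) (m : ℕ)
    (χ : Γ →* Multiplicative (ZMod (p ^ m))) (invJ : H2 Y.X₂ →+ T) :
    TowerModelHyp Y p m χ invJ ↔ FinLayerHyp Y p m χ invJ :=
  ⟨fun h => ⟨h.finite, h.shortExact, h.exists_s, h.h1E, h.h1ZE, h.h1ZJ, h.h1ZC, h.recT, h.cardZ,
    h.fullDeg⟩,
   fun h => ⟨h.finite, h.shortExact, h.exists_s, h.h1E, h.h1ZE, h.h1ZJ, h.h1ZC, h.recT, h.cardZ,
    h.fullDeg⟩⟩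

end Generic

namespace D2

open Fermat.Agent.S55.CS79.FamilyCS Fermat.Agent.S55.CS79.LevelClass Fermat.Agent.S55.CD3
open Fermat.Agent.S55.ESDiv20 hiding GQ Qb
open Fermat.Agent.S55.Idele73.Basic Fermat.Agent.S55.PrimaryExt14

variable (S : Finset Nat.Primes) (V : Subgroup GQ) (hV : IsOpenSub (globalLevels S) V)

/-- **THE CONCRETE `SCFamily`** (request (R) of helper91 #2521). -/
def scFamV (hS : S.Nonempty) :
    SCFamily (restrictLevels (globalLevels S) V hV) (XSV S V) (LevV S V) :=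
  (seqFamV S V hV hS).toSC

theorem scFamV_Q (hS : S.Nonempty) (i : LevV S V) :
    ((scFamV S V hV hS).d i).Q = ↥(V.map (resL i.1.1)) := rfl

theorem scFamV_p (hS : S.Nonempty) (i : LevV S V) :
    ((scFamV S V hV hS).d i).p = Fermat.Agent.S55.CS79.Restrict.resHom (resL i.1.1) V := rfl

theorem scFamV_Y (hS : S.Nonempty) (i : LevV S V) :
    ((scFamV S V hV hS).d i).Y =
      (IdeleVal44.sesJIS (unrOutside S i.1.1 i.1.unr)).map
        (Rep.resFunctor (V.map (resL i.1.1)).subtype) := rfl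

theorem scFamV_e₁ (hS : S.Nonempty) (i : LevV S V) :
    ((scFamV S V hV hS).d i).e₁ = kIncl S i.1.1 i.1.unr := rfl

theorem scFamV_e₂ (hS : S.Nonempty) (i : LevV S V) :
    ((scFamV S V hV hS).d i).e₂ = mIncl S i.1.1 i.1.unr := rfl

theorem scFamV_e₃ (hS : S.Nonempty) (i : LevV S V) :
    ((scFamV S V hV hS).d i).e₃ = cIncl S i.1.1 i.1.unr := rfl

variable {T : Type*} [AddCommGroup T] (p : ℕ) [Fact p.Prime]

/-- **35-GEN + 35-LIM over `V` for the true class module `C_S`, in helper91's vocabulary**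
(`FinLayerHyp` on the models `(Gal(Ω/K), Res sesJIS h_Ω)`). -/
theorem exists_invCp_V_fin (hS : S.Nonempty)
    (invJ : (restrictLevels (globalLevels S) V hV).H2 (XSV S V).X₂ →+ T)
    (invJU : ∀ i : LevV S V, H2 ((scFamV S V hV hS).d i).Y.X₂ →+ T)
    (hinvJ : ∀ (i : LevV S V) (x : H2 ((scFamV S V hV hS).d i).Y.X₂),
      invJ (((scFamV S V hV hS).d i).dat₂.infl₂ x) = invJU i x)
    (hsplit : ∀ (i : LevV S V) (x : H2 ((scFamV S V hV hS).d i).Y.X₂) (n : ℕ),
      (p ^ n) • x = 0 →
      ∃ (j : LevV S V) (h : j ≤ i) (m : ℕ)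
        (χ : ((scFamV S V hV hS).d j).Q →* Multiplicative (ZMod (p ^ m))),
        FinLayerHyp ((scFamV S V hV hS).d j).Y p m χ (invJU j) ∧
        (res₂ ((scFamV S V hV hS).d j).Y.X₂ χ.ker).hom
          ((SCDatum.tr₂ ((scFamV S V hV hS).mono h)).hom x) = 0)
    (halpha : ∀ i : LevV S V,
      ∃ (j : LevV S V) (h : j ≤ i) (m : ℕ)
        (χ : ((scFamV S V hV hS).d j).Q →* Multiplicative (ZMod (p ^ m))),
        FinLayerHyp ((scFamV S V hV hS).d j).Y p m χ (invJU j) ∧
        Nat.card (InfRes9.pPrimary p (H2 ((scFamV S V hV hS).d i).Y.X₃)) ∣ p ^ m ∧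
        p ^ m ∣ (SCDatum.q ((scFamV S V hV hS).mono h)).ker.index ∧
        Limits.IsZero (groupCohomology
          (Rep.res (SCDatum.q ((scFamV S V hV hS).mono h)).ker.subtype
            ((scFamV S V hV hS).d j).Y.X₃) 1) ∧
        ∃ invJN : H2 (Rep.res (SCDatum.q ((scFamV S V hV hS).mono h)).ker.subtype
            ((scFamV S V hV hS).d j).Y.X₂) →+ T,
          (∀ y : H2 ((scFamV S V hV hS).d j).Y.X₂,
            invJN ((res₂ ((scFamV S V hV hS).d j).Y.X₂
              (SCDatum.q ((scFamV S V hV hS).mono h)).ker).hom y) =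
              (SCDatum.q ((scFamV S V hV hS).mono h)).ker.index • invJU j y) ∧
          ∃ invCN : H2 (Rep.res (SCDatum.q ((scFamV S V hV hS).mono h)).ker.subtype
              ((scFamV S V hV hS).d j).Y.X₃) →+ T,
            Function.Injective invCN ∧
            ∀ x : H2 (Rep.res (SCDatum.q ((scFamV S V hV hS).mono h)).ker.subtype
                ((scFamV S V hV hS).d j).Y.X₂),
              invCN ((pushS₂ ((scFamV S V hV hS).d j).Y.g
                (SCDatum.q ((scFamV S V hV hS).mono h)).ker).hom x) = invJN x) :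
    ∃ invC : primary p ((restrictLevels (globalLevels S) V hV).H2 (XSV S V).X₃) →+ T,
      (∀ y : primary p ((restrictLevels (globalLevels S) V hV).H2 (XSV S V).X₂),
        invC (mapPrimary p (pushH2 (𝒰 := restrictLevels (globalLevels S) V hV) (XSV S V).g) y) =
          invJ (y : (restrictLevels (globalLevels S) V hV).H2 (XSV S V).X₂)) ∧
      (∀ c : primary p ((restrictLevels (globalLevels S) V hV).H2 (XSV S V).X₃),
        invC c = 0 → c = 0) :=
  (scFamV S V hV hS).exists_invCp (XSV_shortExact S V hS) (XSV_isSmooth S V hV) p invJ invJU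
    hinvJ hsplit halpha

end D2

end Fermat.Agent.S55.LimDesc99
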