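/-
S55 / 35-LIM (L-d) (helper99): **SLOT A3 AS ONE THEOREM WITH FINITE-LEVEL INPUTS.**

`CDArith63.P1Chain.HasFormationDatum p S V hV` (helper63's target of the limit step, hence (P1) by
`P1Chain.globalRightExact_of_datum`) for `p` odd, `p ∈ S`, `V` open fixing `μ_p`, from

* (J-side, local: 52 + 22b) `invJp hinjp hsurjp` : the `p`-primary local invariants on level
  `H²(V, J_S)` (helper94 `GlobalMod94.JSideFinal.jside_JS_of_pres`);
* (total idelic invariant at the finite levels) `invJU i` on `H²(Gal(Ω_i/K), J_S(Ω_i) × I^S(Ω_i))`,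
  compatible with the transition maps (`htr`) and restricting to `∑_w invJp w` on the `J_S`-factor
  of inflated `p`-primary classes (`hG3`);
* (35-GEN at the finite levels) `hsplit`, `halpha` of helper91's `GlobalInv91.SCFamily.exists_invCp`
  for the concrete family `D2.scFamV S V hV hS` (hypotheses `FinLayerHyp` on the models
  `(Gal(Ω/K), Res (Ωˣ → J_S(Ω) × I^S(Ω) → C_S(Ω)))`).

Discharged inside: the limit invariant `InvP := lim invJU` (`Family.InvSystem.lim`), 35-LIM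
(`D2.exists_invCp_V_fin`), the transfer `C_S ⇝ C'_S = J_S/E_S` and the extension from `p`-primary
classes (helper14 `ClassGlue14.hasFormationDatum_of_invCp`), `H¹(V, C_S)(p) = 0`
(helper77 `Leaf33Final.h1PrimaryVanishes_CS_res`, unconditional), `H³(V, J_S)[p] = 0`
(helper43 `HH3J.hH3J_JSp`, unconditional).
-/
import Fermat.Agent.S55.LimDesc99.SCAdapter
import Fermat.Agent.S55.ClassGlue14
import Fermat.Agent.S55.Adapt77.Leaf33Final
import Fermat.Agent.S55.TateNak43.HH3J

set_option autoImplicit false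
set_option linter.unusedSectionVars false

open CategoryTheory groupCohomology ExtCitation

noncomputable section

namespace Fermat.Agent.S55.LimDesc99.A3

open Fermat.Agent.S55.Profin15 Fermat.Agent.S55.Profin15.LevelStr Fermat.Agent.S55.CD3
open Fermat.Agent.S55.CDArith63 Fermat.Agent.S55.CDArith63.P1Chain
open Fermat.Agent.S55.ESDiv20 hiding GQ Qb
open Fermat.Agent.S55.ESRep20 Fermat.Agent.S55.GlobalMod94.JS
open Fermat.Agent.S55.Idele73.Basic
open Fermat.Agent.S55.CS79.ClassSeq Fermat.Agent.S55.CS79.DivLimit Fermat.Agent.S55.CS79.FamilyCS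
open Fermat.Agent.S55.CS79.LevelClass
open Fermat.Agent.S55.PrimaryExt14 Fermat.Agent.S55.QZ33
open Fermat.Agent.S55.GlobalInv91 Fermat.Agent.S55.ClassGlue14
open Fermat.Agent.S55.LimDesc99 Fermat.Agent.S55.LimDesc99.D2

variable (p : ℕ) [hp : Fact p.Prime] (S : Finset Nat.Primes) (V : Subgroup GQ)
  (hV : IsOpenSub (globalLevels S) V)

/-- the finite levels of `J_S` over `V`: `(Gal(Ω/K), Res J_S(Ω))` -/
def famJV : Family (restrictLevels (globalLevels S) V hV) (JV S V) (LevV S V) :=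
  (famJ S).restrict V hV

theorem famJV_B (i : LevV S V) :
    ((famJV S V hV).d i).B = Rep.res (HV S V i).subtype (IdeleVal44.JS i.1.1 S) := rfl

/-- the finite-level inclusion `J_S(Ω) → J_S(Ω) × I^S(Ω)` over `Gal(Ω/K)` -/
def inlRep (i : LevV S V) : ((famJV S V hV).d i).B ⟶ (YV S V i).X₂ :=
  (Rep.resFunctor (HV S V i).subtype).map
    (IdeleVal44.prodRep.inl (IdeleVal44.JS i.1.1 S) (IdeleVal44.IS i.1.1 S))

/-- `H²(Gal(Ω/K), J_S(Ω)) → H²(Gal(Ω/K), J_S(Ω) × I^S(Ω))` -/
def inlLev (i : LevV S V) : H2 ((famJV S V hV).d i).B →+ H2 (YV S V i).X₂ :=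
  (groupCohomology.map (MonoidHom.id ↥(HV S V i)) (inlRep S V hV i) 2).hom.toAddMonoidHom

variable {S V}

/-- the inclusion `J_S → J_S × I^S` commutes with the inflations -/
theorem H2map_inl_infl₂ (hS : S.Nonempty) (i : LevV S V) (y : H2 ((famJV S V hV).d i).B) :
    (restrictLevels (globalLevels S) V hV).H2map
        (resLin (A := JSp S) (B := prodRep (JSp S) (ISlim S)) V.subtype (inlLin S))
        ((inlLin_equivariant S).res V.subtype) (((famJV S V hV).d i).infl₂ y) =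
      ((scFamV S V hV hS).d i).dat₂.infl₂ (inlLev S V hV i y) :=
  Datum.H2map_infl₂
    (resLin (A := JSp S) (B := prodRep (JSp S) (ISlim S)) V.subtype (inlLin S))
    ((inlLin_equivariant S).res V.subtype) ((famJV S V hV).d i)
    ((scFamV S V hV hS).d i).dat₂ (MonoidHom.id ↥(HV S V i)) (fun _ => rfl)
    (inlRep S V hV i)
    (fun b => Prod.ext rfl (map_zero (iIncl S i.1.1 i.1.unr))) y

variable (S V)

/-- **SLOT A3 FROM FINITE-LEVEL INPUTS.** -/
theorem hasFormationDatum_of_D2 (hpS : pPrime p ∈ S) (hp2 : p ≠ 2)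
    (hmu : ∀ σ ∈ V, cycloChar p σ = 1) {W : Type} [Fintype W] [Nonempty W]
    -- the J-side (52 + 22b)
    (invJp : W → (primary p ((restrictLevels (globalLevels S) V hV).H2 (JV S V)) →+ QZ))
    (hinjp : ∀ x : primary p ((restrictLevels (globalLevels S) V hV).H2 (JV S V)),
      (∀ w, invJp w x = 0) → x = 0)
    (hsurjp : ∀ (t : W → QZ) (n : ℕ), (∀ w, (p ^ n) • t w = 0) →
      ∃ x : primary p ((restrictLevels (globalLevels S) V hV).H2 (JV S V)),
        (p ^ n) • x = 0 ∧ ∀ w, invJp w x = t w)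
    -- the total idelic invariant at the finite levels
    (invJU : ∀ i : LevV S V, H2 ((scFamV S V hV ⟨_, hpS⟩).d i).Y.X₂ →+ QZ)
    (htr : ∀ (i j : LevV S V) (h : j ≤ i) (x : H2 ((scFamV S V hV ⟨_, hpS⟩).d i).Y.X₂),
      invJU j ((SCDatum.tr₂ ((scFamV S V hV ⟨_, hpS⟩).mono h)).hom x) = invJU i x)
    (hG3 : ∀ (i : LevV S V) (y : H2 ((famJV S V hV).d i).B) (hy : ∃ n : ℕ, (p ^ n) • y = 0),
      invJU i (inlLev S V hV i y) =
        ∑ w, invJp w ⟨((famJV S V hV).d i).infl₂ y, ((famJV S V hV).d i).infl₂_mem_primary p hy⟩)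
    -- 35-GEN at the finite levels
    (hsplit : ∀ (i : LevV S V) (x : H2 ((scFamV S V hV ⟨_, hpS⟩).d i).Y.X₂) (n : ℕ),
      (p ^ n) • x = 0 →
      ∃ (j : LevV S V) (h : j ≤ i) (m : ℕ)
        (χ : ((scFamV S V hV ⟨_, hpS⟩).d j).Q →* Multiplicative (ZMod (p ^ m))),
        FinLayerHyp ((scFamV S V hV ⟨_, hpS⟩).d j).Y p m χ (invJU j) ∧
        (res₂ ((scFamV S V hV ⟨_, hpS⟩).d j).Y.X₂ χ.ker).hom
          ((SCDatum.tr₂ ((scFamV S V hV ⟨_, hpS⟩).mono h)).hom x) = 0)
    (halpha : ∀ i : LevV S V,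
      ∃ (j : LevV S V) (h : j ≤ i) (m : ℕ)
        (χ : ((scFamV S V hV ⟨_, hpS⟩).d j).Q →* Multiplicative (ZMod (p ^ m))),
        FinLayerHyp ((scFamV S V hV ⟨_, hpS⟩).d j).Y p m χ (invJU j) ∧
        Nat.card (InfRes9.pPrimary p (H2 ((scFamV S V hV ⟨_, hpS⟩).d i).Y.X₃)) ∣ p ^ m ∧
        p ^ m ∣ (SCDatum.q ((scFamV S V hV ⟨_, hpS⟩).mono h)).ker.index ∧
        Limits.IsZero (groupCohomology
          (Rep.res (SCDatum.q ((scFamV S V hV ⟨_, hpS⟩).mono h)).ker.subtype
            ((scFamV S V hV ⟨_, hpS⟩).d j).Y.X₃) 1) ∧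
        ∃ invJN : H2 (Rep.res (SCDatum.q ((scFamV S V hV ⟨_, hpS⟩).mono h)).ker.subtype
            ((scFamV S V hV ⟨_, hpS⟩).d j).Y.X₂) →+ QZ,
          (∀ y : H2 ((scFamV S V hV ⟨_, hpS⟩).d j).Y.X₂,
            invJN ((res₂ ((scFamV S V hV ⟨_, hpS⟩).d j).Y.X₂
              (SCDatum.q ((scFamV S V hV ⟨_, hpS⟩).mono h)).ker).hom y) =
              (SCDatum.q ((scFamV S V hV ⟨_, hpS⟩).mono h)).ker.index • invJU j y) ∧
          ∃ invCN : H2 (Rep.res (SCDatum.q ((scFamV S V hV ⟨_, hpS⟩).mono h)).ker.subtype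
              ((scFamV S V hV ⟨_, hpS⟩).d j).Y.X₃) →+ QZ,
            Function.Injective invCN ∧
            ∀ x : H2 (Rep.res (SCDatum.q ((scFamV S V hV ⟨_, hpS⟩).mono h)).ker.subtype
                ((scFamV S V hV ⟨_, hpS⟩).d j).Y.X₂),
              invCN ((pushS₂ ((scFamV S V hV ⟨_, hpS⟩).d j).Y.g
                (SCDatum.q ((scFamV S V hV ⟨_, hpS⟩).mono h)).ker).hom x) = invJN x) :
    HasFormationDatum p S V hV := by
  have hS : S.Nonempty := ⟨_, hpS⟩
  -- the limit of the finite-level idelic invariants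
  let I : (scFamV S V hV hS).fam₂.InvSystem QZ :=
    { inv := invJU
      inv_trans := fun {i j} h x => by
        have h1 := SCDatum.trans₂_eq_tr₂ ((scFamV S V hV hS).mono h) x
        exact (congrArg (invJU j) h1).trans (htr i j h x) }
  let InvP : (restrictLevels (globalLevels S) V hV).H2 (XSV S V).X₂ →+ QZ :=
    I.lim (XSV_isSmooth S V hV)
  have hinvJ : ∀ (i : LevV S V) (x : H2 ((scFamV S V hV hS).d i).Y.X₂),
      InvP (((scFamV S V hV hS).d i).dat₂.infl₂ x) = invJU i x := fun i x =>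
    I.lim_infl₂ (XSV_isSmooth S V hV) i x
  -- 35-GEN + 35-LIM
  obtain ⟨invCp, hcompat, hinjCp⟩ :=
    exists_invCp_V_fin S V hV p hS InvP invJU hinvJ hsplit halpha
  -- (G3) in the limit
  have hInv : ∀ x : primary p ((restrictLevels (globalLevels S) V hV).H2 (JV S V)),
      InvP ((restrictLevels (globalLevels S) V hV).H2map
        (resLin (A := JSp S) (B := prodRep (JSp S) (ISlim S)) V.subtype (inlLin S))
        ((inlLin_equivariant S).res V.subtype)
        (x : (restrictLevels (globalLevels S) V hV).H2 (JV S V))) = ∑ w, invJp w x := by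
    rintro ⟨x0, n, hn⟩
    obtain ⟨i, y, hy, rfl⟩ := (famJV S V hV).exists_infl₂_eq_of_nsmul_eq_zero
      (Fermat.Agent.S55.CS79.Restrict.isSmooth_res (JSp_isSmooth S) hV) x0 (p ^ n) hn
    have h1 := H2map_inl_infl₂ hV hS i y
    have h2 := hG3 i y ⟨n, hy⟩
    exact ((congrArg InvP h1).trans (hinvJ i _)).trans h2
  exact hasFormationDatum_of_invCp S V hV hpS invJp hinjp hsurjp InvP hInv invCp hcompat hinjCp
    (fun c n hc => Adapt77.Leaf33Final.h1PrimaryVanishes_CS_res hpS hp2 V hV hmu c ⟨n, hc⟩)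
    (TateNak43.HH3J.hH3J_JSp p S V hV)

end Fermat.Agent.S55.LimDesc99.A3
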