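/-
S55 / 35-LIM (L-d) (helper99): **THE CORE OF THE LIMIT CLASS FORMATION OVER AN OPEN `V ≤ G_ℚ` AS ONE
NAMED PROP**, and its two consumers.

`Core p S V hV a` : there is an invariant `invCp` on the `p`-primary part of the level `H²(V, C_S)`
of the TRUE class module `C_S = coker (Q_Sˣ → J_S × I^S)`, injective, whose pull-back to the
`J_S`-factor is the (`a`-twisted) sum of the honest local invariants
`∑_w a_w (inv_w (loc_w x))` (`w` the places of `K = Q̄^V` above `S`; `a_w` the `ε`-twist of
helper37/helper71/helper72 at `w ∣ p`, the identity elsewhere).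

* `hasFormationDatum_of_core` : `Core ⟹ CDArith63.P1Chain.HasFormationDatum p S V hV` (slot A3, (P1));
* `placeV_datum_of_core` (file `PlaceVDatum.lean`) : `Core ⟹` the datum of (P6)/(S1') in the place-indexed
  form (local invariants on the groups `Br_w`, a TOTAL `invC` on `H²(V, C'_S)`, reciprocity for ALL
  classes of `H²(V, J_S)`).
* `core_of_limit`, `core_of_D2` : `Core` from the inputs of `GlobalInv91.SCFamily.exists_invCp` at
  the D2 family (limit-level total invariant, resp. finite-level total invariants).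
-/
import Fermat.Agent.S55.LimDesc99.A3Final
import Fermat.Agent.S55.GlobalMod94.JSideTotal
import Fermat.Agent.S55.TwistFamily72

set_option autoImplicit false
set_option linter.unusedSectionVars false
set_option linter.unusedVariables false

open CategoryTheory groupCohomology ExtCitation

noncomputable section

namespace Fermat.Agent.S55.LimDesc99.A3

open Fermat.Agent.S55.Profin15 Fermat.Agent.S55.Profin15.LevelStr Fermat.Agent.S55.CD3
open Fermat.Agent.S55.CDArith63 Fermat.Agent.S55.CDArith63.P1Chain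
open Fermat.Agent.S55.ESDiv20 hiding GQ Qb
open Fermat.Agent.S55.ESRep20 Fermat.Agent.S55.GlobalMod94.JS
open Fermat.Agent.S55.Idele73.Basic
open Fermat.Agent.S55.CS79.ClassSeq Fermat.Agent.S55.CS79.DivLimit Fermat.Agent.S55.CS79.FamilyCS
open Fermat.Agent.S55.CS79.LevelClass
open Fermat.Agent.S55.PrimaryExt14 Fermat.Agent.S55.QZ33
open Fermat.Agent.S55.GlobalInv91 Fermat.Agent.S55.ClassGlue14
open Fermat.Agent.S55.LimDesc99 Fermat.Agent.S55.LimDesc99.D2
open Fermat.Agent.S55.GlobalMod94.OpenJS Fermat.Agent.S55.GlobalMod94.JSideUncond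
open Fermat.Agent.S55.GlobalMod94.JSideTotal

variable (p : ℕ) [hp : Fact p.Prime] (S : Finset Nat.Primes) (V : Subgroup GQ)
  (hV : IsOpenSub (globalLevels S) V)

/-- the `a`-twisted honest local invariant at `w` on the `p`-primary part of `H²(V, J_S)` -/
def invJpA (a : PlaceV S V hV → (QZ →+ QZ)) (w : PlaceV S V hV) :
    primary p ((restrictLevels (globalLevels S) V hV).H2 (JV S V)) →+ QZ :=
  (a w).comp (invJpU S V hV p w)

theorem invJpA_apply (a : PlaceV S V hV → (QZ →+ QZ)) (w : PlaceV S V hV)
    (x : primary p ((restrictLevels (globalLevels S) V hV).H2 (JV S V))) :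
    invJpA p S V hV a w x = a w (invBrU S V hV w (locW S V hV w
      (x : (restrictLevels (globalLevels S) V hV).H2 (JV S V)))) := rfl

/-- **THE CORE**: the invariant of the true class module on `p`-primary classes over `V`. -/
def Core (a : PlaceV S V hV → (QZ →+ QZ)) : Prop :=
  ∃ invCp : primary p ((restrictLevels (globalLevels S) V hV).H2 (CtV S V)) →+ QZ,
    (∀ c : primary p ((restrictLevels (globalLevels S) V hV).H2 (CtV S V)), invCp c = 0 → c = 0) ∧
    ∀ x : primary p ((restrictLevels (globalLevels S) V hV).H2 (JV S V)),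
      invCp (mapPrimary p ((restrictLevels (globalLevels S) V hV).H2map
          (resLin (A := prodRep (JSp S) (ISlim S)) (B := ClassData72.CSl S) V.subtype (projLin S))
          ((projLin_equivariant S).res V.subtype)).toAddMonoidHom
        (mapPrimary p ((restrictLevels (globalLevels S) V hV).H2map
          (resLin (A := JSp S) (B := prodRep (JSp S) (ISlim S)) V.subtype (inlLin S))
          ((inlLin_equivariant S).res V.subtype)).toAddMonoidHom x)) =
        ∑ w, a w (invBrU S V hV w (locW S V hV w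
          (x : (restrictLevels (globalLevels S) V hV).H2 (JV S V))))

variable {p S V}

/-- **`Core` from the LIMIT-level inputs** of `GlobalInv91.SCFamily.exists_invCp` at the D2 family:
a total idelic invariant `InvP` on `H²(V, J_S × I^S)` restricting to the twisted sum of the local
invariants on the `J_S`-factor (`hInv`, (G3)), computed at the finite levels by `invJU` (`hinvJ`),
and 35-GEN at the finite levels (`hsplit`, `halpha`). -/
theorem core_of_limit (hS : S.Nonempty) (a : PlaceV S V hV → (QZ →+ QZ))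
    (InvP : (restrictLevels (globalLevels S) V hV).H2 (XSV S V).X₂ →+ QZ)
    (hInv : ∀ x : primary p ((restrictLevels (globalLevels S) V hV).H2 (JV S V)),
      InvP ((restrictLevels (globalLevels S) V hV).H2map
        (resLin (A := JSp S) (B := prodRep (JSp S) (ISlim S)) V.subtype (inlLin S))
        ((inlLin_equivariant S).res V.subtype)
        (x : (restrictLevels (globalLevels S) V hV).H2 (JV S V))) =
        ∑ w, a w (invBrU S V hV w (locW S V hV w
          (x : (restrictLevels (globalLevels S) V hV).H2 (JV S V)))))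
    (invJU : ∀ i : LevV S V, H2 ((scFamV S V hV hS).d i).Y.X₂ →+ QZ)
    (hinvJ : ∀ (i : LevV S V) (x : H2 ((scFamV S V hV hS).d i).Y.X₂),
      InvP (((scFamV S V hV hS).d i).dat₂.infl₂ x) = invJU i x)
    (hsplit : ∀ (i : LevV S V) (x : H2 ((scFamV S V hV hS).d i).Y.X₂) (n : ℕ),
      (p ^ n) • x = 0 →
      ∃ (j : LevV S V) (h : j ≤ i) (m : ℕ)
        (χ : ((scFamV S V hV hS).d j).Q →* Multiplicative (ZMod (p ^ m))),
        FinLayerHyp ((scFamV S V hV hS).d j).Y p m χ (invJU j) ∧
        (res₂ ((scFamV S V hV hS).d j).Y.X₂ χ.ker).hom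
          ((SCDatum.tr₂ ((scFamV S V hV hS).mono h)).hom x) = 0)
    (halpha : ∀ i : LevV S V,
      ∃ (j : LevV S V) (h : j ≤ i) (m : ℕ)
        (χ : ((scFamV S V hV hS).d j).Q →* Multiplicative (ZMod (p ^ m))),
        FinLayerHyp ((scFamV S V hV hS).d j).Y p m χ (invJU j) ∧
        Nat.card (InfRes9.pPrimary p (H2 ((scFamV S V hV hS).d i).Y.X₃)) ∣ p ^ m ∧
        p ^ m ∣ (SCDatum.q ((scFamV S V hV hS).mono h)).ker.index ∧
        Limits.IsZero (groupCohomology
          (Rep.res (SCDatum.q ((scFamV S V hV hS).mono h)).ker.subtype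
            ((scFamV S V hV hS).d j).Y.X₃) 1) ∧
        ∃ invJN : H2 (Rep.res (SCDatum.q ((scFamV S V hV hS).mono h)).ker.subtype
            ((scFamV S V hV hS).d j).Y.X₂) →+ QZ,
          (∀ y : H2 ((scFamV S V hV hS).d j).Y.X₂,
            invJN ((res₂ ((scFamV S V hV hS).d j).Y.X₂
              (SCDatum.q ((scFamV S V hV hS).mono h)).ker).hom y) =
              (SCDatum.q ((scFamV S V hV hS).mono h)).ker.index • invJU j y) ∧
          ∃ invCN : H2 (Rep.res (SCDatum.q ((scFamV S V hV hS).mono h)).ker.subtype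
              ((scFamV S V hV hS).d j).Y.X₃) →+ QZ,
            Function.Injective invCN ∧
            ∀ x : H2 (Rep.res (SCDatum.q ((scFamV S V hV hS).mono h)).ker.subtype
                ((scFamV S V hV hS).d j).Y.X₂),
              invCN ((pushS₂ ((scFamV S V hV hS).d j).Y.g
                (SCDatum.q ((scFamV S V hV hS).mono h)).ker).hom x) = invJN x) :
    Core p S V hV a := by
  obtain ⟨invCp, hcompat, hinjCp⟩ :=
    exists_invCp_V_fin S V hV p hS InvP invJU hinvJ hsplit halpha
  refine ⟨invCp, hinjCp, fun x => ?_⟩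
  exact (hcompat _).trans (hInv x)

/-- **`Core` from the FINITE-level inputs** (the binders `invJU htr hG3 hsplit halpha` of
`A3.hasFormationDatum_of_D2`, with the twisted local family). -/
theorem core_of_D2 (hS : S.Nonempty) (a : PlaceV S V hV → (QZ →+ QZ))
    (invJU : ∀ i : LevV S V, H2 ((scFamV S V hV hS).d i).Y.X₂ →+ QZ)
    (htr : ∀ (i j : LevV S V) (h : j ≤ i) (x : H2 ((scFamV S V hV hS).d i).Y.X₂),
      invJU j ((SCDatum.tr₂ ((scFamV S V hV hS).mono h)).hom x) = invJU i x)
    (hG3 : ∀ (i : LevV S V) (y : H2 ((famJV S V hV).d i).B) (hy : ∃ n : ℕ, (p ^ n) • y = 0),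
      invJU i (inlLev S V hV i y) =
        ∑ w, a w (invBrU S V hV w (locW S V hV w (((famJV S V hV).d i).infl₂ y))))
    (hsplit : ∀ (i : LevV S V) (x : H2 ((scFamV S V hV hS).d i).Y.X₂) (n : ℕ),
      (p ^ n) • x = 0 →
      ∃ (j : LevV S V) (h : j ≤ i) (m : ℕ)
        (χ : ((scFamV S V hV hS).d j).Q →* Multiplicative (ZMod (p ^ m))),
        FinLayerHyp ((scFamV S V hV hS).d j).Y p m χ (invJU j) ∧
        (res₂ ((scFamV S V hV hS).d j).Y.X₂ χ.ker).hom
          ((SCDatum.tr₂ ((scFamV S V hV hS).mono h)).hom x) = 0)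
    (halpha : ∀ i : LevV S V,
      ∃ (j : LevV S V) (h : j ≤ i) (m : ℕ)
        (χ : ((scFamV S V hV hS).d j).Q →* Multiplicative (ZMod (p ^ m))),
        FinLayerHyp ((scFamV S V hV hS).d j).Y p m χ (invJU j) ∧
        Nat.card (InfRes9.pPrimary p (H2 ((scFamV S V hV hS).d i).Y.X₃)) ∣ p ^ m ∧
        p ^ m ∣ (SCDatum.q ((scFamV S V hV hS).mono h)).ker.index ∧
        Limits.IsZero (groupCohomology
          (Rep.res (SCDatum.q ((scFamV S V hV hS).mono h)).ker.subtype
            ((scFamV S V hV hS).d j).Y.X₃) 1) ∧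
        ∃ invJN : H2 (Rep.res (SCDatum.q ((scFamV S V hV hS).mono h)).ker.subtype
            ((scFamV S V hV hS).d j).Y.X₂) →+ QZ,
          (∀ y : H2 ((scFamV S V hV hS).d j).Y.X₂,
            invJN ((res₂ ((scFamV S V hV hS).d j).Y.X₂
              (SCDatum.q ((scFamV S V hV hS).mono h)).ker).hom y) =
              (SCDatum.q ((scFamV S V hV hS).mono h)).ker.index • invJU j y) ∧
          ∃ invCN : H2 (Rep.res (SCDatum.q ((scFamV S V hV hS).mono h)).ker.subtype
              ((scFamV S V hV hS).d j).Y.X₃) →+ QZ,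
            Function.Injective invCN ∧
            ∀ x : H2 (Rep.res (SCDatum.q ((scFamV S V hV hS).mono h)).ker.subtype
                ((scFamV S V hV hS).d j).Y.X₂),
              invCN ((pushS₂ ((scFamV S V hV hS).d j).Y.g
                (SCDatum.q ((scFamV S V hV hS).mono h)).ker).hom x) = invJN x) :
    Core p S V hV a := by
  let I : (scFamV S V hV hS).fam₂.InvSystem QZ :=
    { inv := invJU
      inv_trans := fun {i j} h x => by
        have h1 := SCDatum.trans₂_eq_tr₂ ((scFamV S V hV hS).mono h) x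
        exact (congrArg (invJU j) h1).trans (htr i j h x) }
  let InvP : (restrictLevels (globalLevels S) V hV).H2 (XSV S V).X₂ →+ QZ :=
    I.lim (XSV_isSmooth S V hV)
  have hinvJ : ∀ (i : LevV S V) (x : H2 ((scFamV S V hV hS).d i).Y.X₂),
      InvP (((scFamV S V hV hS).d i).dat₂.infl₂ x) = invJU i x := fun i x =>
    I.lim_infl₂ (XSV_isSmooth S V hV) i x
  refine core_of_limit hV hS a InvP ?_ invJU hinvJ hsplit halpha
  rintro ⟨x0, n, hn⟩
  obtain ⟨i, y, hy, rfl⟩ := (famJV S V hV).exists_infl₂_eq_of_nsmul_eq_zero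
    (Fermat.Agent.S55.CS79.Restrict.isSmooth_res (JSp_isSmooth S) hV) x0 (p ^ n) hn
  have h1 := H2map_inl_infl₂ hV hS i y
  have h2 := hG3 i y ⟨n, hy⟩
  exact ((congrArg InvP h1).trans (hinvJ i _)).trans h2

/-- the map `H²(V, J_S) → H²(V, C_S)` induced by `J_S → J_S × I^S → C_S` -/
def toCt : (restrictLevels (globalLevels S) V hV).H2 (JV S V) →+
    (restrictLevels (globalLevels S) V hV).H2 (CtV S V) :=
  ((restrictLevels (globalLevels S) V hV).H2map
      (resLin (A := prodRep (JSp S) (ISlim S)) (B := ClassData72.CSl S) V.subtype (projLin S))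
      ((projLin_equivariant S).res V.subtype)).toAddMonoidHom.comp
    ((restrictLevels (globalLevels S) V hV).H2map
      (resLin (A := JSp S) (B := prodRep (JSp S) (ISlim S)) V.subtype (inlLin S))
      ((inlLin_equivariant S).res V.subtype)).toAddMonoidHom

/-- `J_S → J_S × I^S → C_S` is `J_S → C'_S → C_S` on level `H²` -/
theorem toCt_eq (x : (restrictLevels (globalLevels S) V hV).H2 (JV S V)) :
    toCt hV x = (restrictLevels (globalLevels S) V hV).H2map
        (resLin (A := CSp S) (B := ClassData72.CSl S) V.subtype (ClassData72.phi S) ∘ₗ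
          resLin (A := JSp S) (B := CSp S) V.subtype (πCS S).hom.toLinearMap)
        (((LevelStr.isEquivariant_hom (πCS S)).res V.subtype).comp
          (shortExact_classV S V).equivariant_left) x := by
  have key : ∀ (f g : JV S V →ₗ[ℤ] CtV S V) (hf : IsEquivariant f) (hg : IsEquivariant g),
      f = g → (restrictLevels (globalLevels S) V hV).H2map f hf x =
        (restrictLevels (globalLevels S) V hV).H2map g hg x := by
    intro f g hf hg hfg
    subst hfg
    rfl
  have h1 := H2map_comp (restrictLevels (globalLevels S) V hV)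
    ((inlLin_equivariant S).res V.subtype) ((projLin_equivariant S).res V.subtype) x
  exact h1.symm.trans (key _ _ _ _ (projLin_comp_inlLin S))

/-- **SLOT A3 FROM THE CORE**: `Core p S V hV a ⟹ HasFormationDatum p S V hV` for `p` odd,
`p ∈ S`, `V` fixing `μ_p`, and an admissible twist `a` (injective, surjective on `p`-primary
torsion: `TwistFamily72.epsAt_injective`, `epsAt_surj_primary`). -/
theorem hasFormationDatum_of_core (hpS : pPrime p ∈ S) (hp2 : p ≠ 2)
    (hmu : ∀ σ ∈ V, cycloChar p σ = 1) (a : PlaceV S V hV → (QZ →+ QZ))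
    (ha : ∀ w, Function.Injective (a w))
    (ha' : ∀ (w : PlaceV S V hV) (t : QZ) (n : ℕ), p ^ n • t = 0 →
      ∃ s : QZ, p ^ n • s = 0 ∧ a w s = t)
    (hcore : Core p S V hV a) : HasFormationDatum p S V hV := by
  obtain ⟨invCp, hinjCp, hc⟩ := hcore
  have hpr : p.Prime := hp.out
  have : Nonempty (PlaceV S V hV) := nonempty_placeV S V hV ⟨_, hpS⟩
  obtain ⟨invJ, invC, -, -, h3, h4, h5, h6⟩ :=
    exists_total_inv p
      (fun x => LimDesc99.H2_torsion15 (JV S V) x)
      (fun y => LimDesc99.H2_torsion15 (CtV S V) y)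
      (toCt hV) (invJpA p S V hV a) invCp
      (TwistFamily72.twist_hinjp (invJpU S V hV p) a ha (hinjp_U S V hV p))
      (TwistFamily72.twist_hsurjp (invJpU S V hV p) a ha' (hsurjp_U S V hV hpr hpS))
      hinjCp (fun x => hc x)
  refine hasFormationDatum_of_class S V hV hpS invJ h3 h4 invC h5 (fun x => ?_)
    (fun c n hc => Adapt77.Leaf33Final.h1PrimaryVanishes_CS_res hpS hp2 V hV hmu c ⟨n, hc⟩)
    (TateNak43.HH3J.hH3J_JSp p S V hV)
  rw [← toCt_eq hV x]
  exact h6 x

end Fermat.Agent.S55.LimDesc99.A3
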