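/-
S55 / 35-LIM (L-d) (helper99): **THE PLACE-INDEXED DATUM OF (P6)/(S1') FROM THE CORE.**

`placeV_datum_of_core` : for `p` odd, `p ∈ S`, `V` open fixing `μ_p`, an admissible twist `a` and
`Core p S V hV a` (file `Core.lean`), there are

* local invariants `inv w : Br_w →+ ℚ/ℤ` on the local groups `Br_w = BrW S V hV w` (helper94
  `GlobalMod94.OpenJS`), injective and surjective on `p`-torsion,
* a TOTAL `invC : H²(V, C'_S) →+ ℚ/ℤ` (`C'_S = J_S/E_S`, helper41 `S1Limit41.Global.CV`), injective
  on `p`-torsion,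
* reciprocity for ALL classes: `invC (π_* y) = ∑_w inv w (loc_w y)`,

together with `hJsurj` (helper94) and `hC1` (helper77), i.e. the six Props of helper32's
`KummerSq32.levelDatum_of_placeV` / `globalCokerDim_of_placeV` and the binders
`inv invC hinv_inj hinv_surj hinjC hrec` of helper67's `S1_67.P6Inst` / helper41's
`S1Limit41.Global.range_loc_iffV`.

`inv w := a w ∘ inv_w ∘ (projection of Br_w onto its p-primary part)`,
`invC := (extension by the p-primary projection of invCp) ∘ (H²(V, C'_S) → H²(V, C_S))`: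
both sides of the reciprocity law kill the prime-to-`p` torsion.
-/
import Fermat.Agent.S55.LimDesc99.Core
import Fermat.Agent.S55.S1Limit41.Global

set_option autoImplicit false
set_option linter.unusedSectionVars false
set_option linter.unusedVariables false

open CategoryTheory groupCohomology ExtCitation

noncomputable section

namespace Fermat.Agent.S55.LimDesc99.A3

open Fermat.Agent.S55.Profin15 Fermat.Agent.S55.Profin15.LevelStr Fermat.Agent.S55.CD3
open Fermat.Agent.S55.PrimaryExt14 Fermat.Agent.S55.QZ33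
open Fermat.Agent.S55.ClassLimit72 Fermat.Agent.S55.S1Limit41.Transfer

section Generic

universe u

variable {k G : Type u} [CommRing k] [Group G] (𝒰 : LevelStr G) {p : ℕ} [hp : Fact p.Prime]
variable {J C' C Cl : Rep.{u, u, u} k G} {π' : J →ₗ[k] C'} {φ : C' →ₗ[k] C} {ψ : C →ₗ[k] Cl}
variable {T : Type*} [AddCommGroup T] {W : Type*} [Fintype W] {B : W → Type*}
  [∀ w, AddCommGroup (B w)]

/-- **Local invariants and a total class invariant from the `p`-primary core** (`0 → C' → C → Cl → 0`
with `Cl` prime-to-`p` torsion; `B w` torsion local groups, `locJ w` the localisations, `invB w`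
local invariants): `inv w` extends `invB w` from the `p`-primary part, `invC` is injective on
`p`-primary classes of `C'`, and reciprocity holds for ALL classes of `H²(J)`. -/
theorem exists_local_datum_of_core (h : ShortExact φ ψ) (hC : 𝒰.IsSmooth C)
    (hCl : IsPrimeToP p Cl) (hπ' : IsEquivariant π')
    (htB : ∀ w (b : B w), ∃ n : ℕ, 0 < n ∧ n • b = 0)
    (locJ : ∀ w, 𝒰.H2 J →+ B w) (invB : ∀ w, B w →+ T)
    (invCp : primary p (𝒰.H2 C) →+ T) (hinjCp : ∀ c : primary p (𝒰.H2 C), invCp c = 0 → c = 0)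
    (hcore : ∀ x : primary p (𝒰.H2 J),
      invCp (mapPrimary p
        (𝒰.H2map (φ ∘ₗ π') (hπ'.comp h.equivariant_left)).toAddMonoidHom x) =
        ∑ w, invB w (locJ w (x : 𝒰.H2 J))) :
    ∃ (inv : ∀ w, B w →+ T) (invC : 𝒰.H2 C' →+ T),
      (∀ w (b : B w), b ∈ primary p (B w) → inv w b = invB w b) ∧
      (∀ (c : 𝒰.H2 C') (n : ℕ), p ^ n • c = 0 → invC c = 0 → c = 0) ∧
      (∀ y : 𝒰.H2 J, invC (𝒰.H2map π' hπ' y) = ∑ w, inv w (locJ w y)) := by
  have htJ : ∀ x : 𝒰.H2 J, ∃ n : ℕ, 0 < n ∧ n • x = 0 := fun x => LimDesc99.H2_torsion15 J x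
  have htC : ∀ y : 𝒰.H2 C, ∃ n : ℕ, 0 < n ∧ n • y = 0 := fun y => LimDesc99.H2_torsion15 C y
  refine ⟨fun w => extend p (htB w) ((invB w).comp (primary p (B w)).subtype),
    invC' 𝒰 h (extend p htC invCp), ?_, ?_, ?_⟩
  · intro w b hb
    rw [extend_of_mem p (htB w) _ hb]
    rfl
  · intro c n hc h0
    exact hinvC_primary_of_class 𝒰 h hC hCl (extend p htC invCp)
      (hinjC_extend p htC invCp hinjCp) c n hc h0
  · intro y
    rw [invC'_apply, ← H2map_comp 𝒰 hπ' h.equivariant_left, extend_apply]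
    have h1 := primaryProj_map p htJ htC
      (𝒰.H2map (φ ∘ₗ π') (hπ'.comp h.equivariant_left)).toAddMonoidHom y
    have h2 : primaryProj p htC (𝒰.H2map (φ ∘ₗ π') (hπ'.comp h.equivariant_left) y) =
        mapPrimary p (𝒰.H2map (φ ∘ₗ π') (hπ'.comp h.equivariant_left)).toAddMonoidHom
          (primaryProj p htJ y) := h1
    rw [h2, hcore]
    refine Finset.sum_congr rfl fun w _ => ?_
    rw [extend_apply, primaryProj_map p htJ (htB w) (locJ w) y]
    rfl

end Generic

open Fermat.Agent.S55.CDArith63 Fermat.Agent.S55.CDArith63.P1Chain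
open Fermat.Agent.S55.ESDiv20 hiding GQ Qb
open Fermat.Agent.S55.ESRep20 Fermat.Agent.S55.GlobalMod94.JS
open Fermat.Agent.S55.Idele73.Basic
open Fermat.Agent.S55.CS79.ClassSeq Fermat.Agent.S55.CS79.DivLimit
open Fermat.Agent.S55.ClassGlue14
open Fermat.Agent.S55.GlobalMod94.OpenJS Fermat.Agent.S55.GlobalMod94.JSideUncond
open Fermat.Agent.S55.GlobalMod94.JSideTotal

variable {p : ℕ} [hp : Fact p.Prime] {S : Finset Nat.Primes} {V : Subgroup GQ}
  (hV : IsOpenSub (globalLevels S) V)

/-- `hJsurj` of (P6): every family of `p`-torsion local classes is the family of localisations of a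
`p`-torsion class of `H²(V, J_S)` (helper94, unconditional). -/
theorem hJsurj_placeV (hpS : pPrime p ∈ S) (η : ∀ w : PlaceV S V hV, BrW S V hV w)
    (hη : ∀ w, p • η w = 0) :
    ∃ y : (restrictLevels (globalLevels S) V hV).H2 (Rep.res V.subtype (JSp S)),
      p • y = 0 ∧ ∀ w, locW S V hV w y = η w := by
  have hpr : p.Prime := hp.out
  obtain ⟨x, hx, hxt⟩ := invJU_surj S V hV hpr hpS (fun w => invBrU S V hV w (η w)) 1
    (fun w => by rw [pow_one, ← map_nsmul, hη w, map_zero])
  refine ⟨x, by rwa [pow_one] at hx, fun w => ?_⟩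
  exact (invBrU S V hV w).injective ((invJU_apply S V hV w x).symm.trans (hxt w))

/-- **THE PLACE-INDEXED DATUM OF (P6)/(S1') FROM THE CORE.** -/
theorem placeV_datum_of_core (hpS : pPrime p ∈ S) (hp2 : p ≠ 2)
    (hmu : ∀ σ ∈ V, cycloChar p σ = 1) (a : PlaceV S V hV → (QZ →+ QZ))
    (ha : ∀ w, Function.Injective (a w))
    (ha' : ∀ (w : PlaceV S V hV) (t : QZ) (n : ℕ), p ^ n • t = 0 →
      ∃ s : QZ, p ^ n • s = 0 ∧ a w s = t)
    (hcore : Core p S V hV a) :
    ∃ (inv : ∀ w : PlaceV S V hV, BrW S V hV w →+ QZ)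
      (invC : (S1Limit41.Global.levV S V hV).H2 (S1Limit41.Global.CV S V) →+ QZ),
      (∀ η : ∀ w : PlaceV S V hV, BrW S V hV w, (∀ w, p • η w = 0) →
        ∃ y : (S1Limit41.Global.levV S V hV).H2 (S1Limit41.Global.JV S V),
          p • y = 0 ∧ ∀ w, locW S V hV w y = η w) ∧
      (∀ (w : PlaceV S V hV) (b : BrW S V hV w), p • b = 0 → inv w b = 0 → b = 0) ∧
      (∀ (w : PlaceV S V hV) (s : QZ), p • s = 0 →
        ∃ b : BrW S V hV w, p • b = 0 ∧ inv w b = s) ∧
      (∀ c : (S1Limit41.Global.levV S V hV).H1 (S1Limit41.Global.CV S V), p • c = 0 → c = 0) ∧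
      (∀ c : (S1Limit41.Global.levV S V hV).H2 (S1Limit41.Global.CV S V),
        p • c = 0 → invC c = 0 → c = 0) ∧
      (∀ y : (S1Limit41.Global.levV S V hV).H2 (S1Limit41.Global.JV S V),
        invC ((S1Limit41.Global.levV S V hV).H2map _
          (S1Limit41.Global.ideleV S V ⟨_, hpS⟩).equivariant_right y) =
          ∑ w : PlaceV S V hV, inv w (locW S V hV w y)) := by
  obtain ⟨invCp, hinjCp, hc⟩ := hcore
  have htB : ∀ (w : PlaceV S V hV) (b : BrW S V hV w), ∃ n : ℕ, 0 < n ∧ n • b = 0 := by
    intro w b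
    obtain ⟨n, hn, h⟩ := QZ.exists_nsmul_eq_zero (invBrU S V hV w b)
    refine ⟨n, hn, (invBrU S V hV w).injective ?_⟩
    rw [map_nsmul, h, map_zero]
  have hcore' : ∀ x : primary p ((restrictLevels (globalLevels S) V hV).H2 (JV S V)),
      invCp (mapPrimary p ((restrictLevels (globalLevels S) V hV).H2map
        (resLin (A := CSp S) (B := ClassData72.CSl S) V.subtype (ClassData72.phi S) ∘ₗ
          resLin (A := JSp S) (B := CSp S) V.subtype (πCS S).hom.toLinearMap)
        (((LevelStr.isEquivariant_hom (πCS S)).res V.subtype).comp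
          (shortExact_classV S V).equivariant_left)).toAddMonoidHom x) =
        ∑ w, ((a w).comp (invBrU S V hV w).toAddMonoidHom)
          ((locW S V hV w).toAddMonoidHom
            (x : (restrictLevels (globalLevels S) V hV).H2 (JV S V))) := by
    intro x
    have e : mapPrimary p ((restrictLevels (globalLevels S) V hV).H2map
        (resLin (A := CSp S) (B := ClassData72.CSl S) V.subtype (ClassData72.phi S) ∘ₗ
          resLin (A := JSp S) (B := CSp S) V.subtype (πCS S).hom.toLinearMap)
        (((LevelStr.isEquivariant_hom (πCS S)).res V.subtype).comp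
          (shortExact_classV S V).equivariant_left)).toAddMonoidHom x =
        mapPrimary p ((restrictLevels (globalLevels S) V hV).H2map
          (resLin (A := prodRep (JSp S) (ISlim S)) (B := ClassData72.CSl S) V.subtype
            (projLin S)) ((projLin_equivariant S).res V.subtype)).toAddMonoidHom
          (mapPrimary p ((restrictLevels (globalLevels S) V hV).H2map
            (resLin (A := JSp S) (B := prodRep (JSp S) (ISlim S)) V.subtype (inlLin S))
            ((inlLin_equivariant S).res V.subtype)).toAddMonoidHom x) :=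
      Subtype.ext (toCt_eq hV (x : (restrictLevels (globalLevels S) V hV).H2 (JV S V))).symm
    rw [e]
    exact hc x
  letI instB : ∀ w : PlaceV S V hV, AddCommGroup (BrW S V hV w) := fun w => inferInstance
  obtain ⟨inv, invC, h1, h2, h3⟩ :=
    exists_local_datum_of_core (W := PlaceV S V hV) (B := fun w => BrW S V hV w) (T := QZ)
      (restrictLevels (globalLevels S) V hV) (shortExact_classV S V)
      (CtV_isSmooth S V hV) (ClassData72.isPrimeToP_ClS S hpS)
      ((LevelStr.isEquivariant_hom (πCS S)).res V.subtype) htB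
      (fun w => (locW S V hV w).toAddMonoidHom)
      (fun w => (a w).comp (invBrU S V hV w).toAddMonoidHom) invCp hinjCp hcore'
  have hprim : ∀ (w : PlaceV S V hV) (b : BrW S V hV w), p • b = 0 →
      b ∈ primary p (BrW S V hV w) := fun w b hb => ⟨1, by rwa [pow_one]⟩
  refine ⟨inv, invC, hJsurj_placeV hV hpS, ?_, ?_,
    fun c hc => Adapt77.Leaf33Final.hC1 hpS hp2 V hV hmu c hc,
    fun c hc h0 => h2 c 1 (by rwa [pow_one]) h0, fun y => h3 y⟩
  · intro w b hb h0
    rw [h1 w b (hprim w b hb)] at h0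
    have h4 : invBrU S V hV w b = 0 := ha w (by rw [map_zero]; exact h0)
    exact (invBrU S V hV w).injective (h4.trans (map_zero _).symm)
  · intro w s hs
    obtain ⟨s', hs', hs2⟩ := ha' w s 1 (by rwa [pow_one])
    have hb : p • (invBrU S V hV w).symm s' = 0 := by
      rw [← map_nsmul, ← pow_one p, hs', map_zero]
    refine ⟨(invBrU S V hV w).symm s', hb, ?_⟩
    rw [h1 w _ (hprim w _ hb)]
    show a w (invBrU S V hV w ((invBrU S V hV w).symm s')) = s
    rw [AddEquiv.apply_symm_apply, hs2]

end Fermat.Agent.S55.LimDesc99.A3
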