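/-
S55 / 35-LIM (L-d) (helper99): **THE TWO LITERAL PLUGS (P1) AND (P6) FROM THE ONE NAMED PROP
`A3.Core`.**

`AllCore p S` : for every open `V ≤ G_ℚ` on which `μ_p` is trivial there is an admissible twist
family `a` (injective, surjective on `p`-primary torsion) with `Core p S V hV a`.

* `globalRightExact_of_allCore` : `AllCore p S → Contract34.GlobalRightExact p S` (P1)
  (`hasFormationDatum_of_core` + helper63 `P1Chain.globalRightExact_of_datum`);
* `globalCokerDim_of_allCore` : `AllCore p S → Contract34.GlobalCokerDim p S` (P6)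
  (`placeV_datum_of_core` at `V = (mk' U).ker` + helper32 `KummerSq32.globalCokerDim_of_placeV`).
-/
import Fermat.Agent.S55.LimDesc99.PlaceVDatum
import Fermat.Agent.S55.KummerSq32.P6Place

set_option autoImplicit false
set_option linter.unusedSectionVars false
set_option linter.unusedVariables false

open CategoryTheory groupCohomology ExtCitation

namespace Fermat.Agent.S55.LimDesc99.A3

open Fermat.Agent.S55.Profin15 Fermat.Agent.S55.Profin15.LevelStr Fermat.Agent.S55.CD3
open Fermat.Agent.S55.CDArith63 Fermat.Agent.S55.CDArith63.P1Chain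
open Fermat.Agent.S55.CDArith63.Global
open Fermat.Agent.S55.Idele73.Basic Fermat.Agent.S55.QZ33
open Fermat.Agent.S55.GlobalMod94.OpenJS

variable (p : ℕ) [hp : Fact p.Prime] (S : Finset Nat.Primes)

/-- the arithmetic content of (P1) and (P6): the core over every open `V` fixing `μ_p`, for some
admissible twist -/
def AllCore : Prop :=
  ∀ (V : Subgroup GQ) (hV : IsOpenSub (globalLevels S) V), (∀ σ ∈ V, cycloChar p σ = 1) →
    ∃ a : PlaceV S V hV → (QZ →+ QZ), (∀ w, Function.Injective (a w)) ∧
      (∀ (w : PlaceV S V hV) (t : QZ) (n : ℕ), p ^ n • t = 0 →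
        ∃ s : QZ, p ^ n • s = 0 ∧ a w s = t) ∧
      Core p S V hV a

variable {p S}

/-- **(P1) from the core.** -/
theorem globalRightExact_of_allCore (hpS : pPrime p ∈ S) (hp2 : p ≠ 2) (h : AllCore p S) :
    Contract34.GlobalRightExact p S :=
  globalRightExact_of_datum hpS fun V hV hmu => by
    obtain ⟨a, ha, ha', hcore⟩ := h V hV hmu
    exact hasFormationDatum_of_core hV hpS hp2 hmu a ha ha' hcore

/-- **(P6) from the core.** -/
theorem globalCokerDim_of_allCore (hpS : pPrime p ∈ S) (hp2 : p ≠ 2) (h : AllCore p S) :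
    Contract34.GlobalCokerDim p S :=
  KummerSq32.globalCokerDim_of_placeV hpS fun U _ hU hmu => by
    have hmu' := S2Count92.cycloChar_eq_one_of_mu_piU hmu
    obtain ⟨a, ha, ha', hcore⟩ := h _ (P6Transport82.hker_mk hU) hmu'
    exact placeV_datum_of_core (P6Transport82.hker_mk hU) hpS hp2 hmu' a ha ha' hcore

end Fermat.Agent.S55.LimDesc99.A3
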