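/-
S55 / 35-LIM (L-d) (helper99): **`A3.AllCore p S` FROM THE THREE NAMED FINITE-LEVEL FACTS**, with
every constant FIXED:

* the twist `aU hp2 w := RecT.twistU hp2 w.1` (helper37's ONE global `p`-adic unit `RecT.epsU hp2`);
* the finite-level total invariants `invJUU hp2 i := SysMore.toH2 (RecT.totalSysU hp2 Ω_i S) Gal(Ω_i/K)`;
* the limit `S`-part `InvSU hp2 := ∑_w aU w ∘ inv_w ∘ loc_w` (helper94) and the limit total invariant
  `InvPU hp2 := InvLim53.Total.invTot … (InvSU hp2)` (helper53).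

Named inputs (Props below): `HS` (helper94 `HSAssembly` (H3): the `S`-part is computed at the
finite levels by `jsSys`), `HSplit`, `HAlpha` (helper91 `D2Wire`: the binders `hsplit`, `halpha` of
`GlobalInv91.SCFamily.exists_invCp` at `D2.scFamV` for `invJUU`).
-/
import Fermat.Agent.S55.LimDesc99.CorePlugs
import Fermat.Agent.S55.InvLim53.Total
import Fermat.Agent.S55.CycloRecip37.RecT

set_option autoImplicit false
set_option linter.unusedSectionVars false
set_option linter.unusedVariables false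

open CategoryTheory groupCohomology ExtCitation

noncomputable section

namespace Fermat.Agent.S55.LimDesc99.A3

open Fermat.Agent.S55.Profin15 Fermat.Agent.S55.Profin15.LevelStr Fermat.Agent.S55.CD3
open Fermat.Agent.S55.ESDiv20 hiding GQ Qb
open Fermat.Agent.S55.ESRep20 Fermat.Agent.S55.GlobalMod94.JS
open Fermat.Agent.S55.Idele73.Basic
open Fermat.Agent.S55.CS79.ClassSeq Fermat.Agent.S55.CS79.DivLimit Fermat.Agent.S55.CS79.FamilyCS
open Fermat.Agent.S55.CS79.LevelClass
open Fermat.Agent.S55.PrimaryExt14 Fermat.Agent.S55.QZ33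
open Fermat.Agent.S55.GlobalInv91 Fermat.Agent.S55.ClassGlue14
open Fermat.Agent.S55.LimDesc99 Fermat.Agent.S55.LimDesc99.D2
open Fermat.Agent.S55.GlobalMod94.OpenJS Fermat.Agent.S55.GlobalMod94.JSideUncond
open Fermat.Agent.S55.GlobalMod94.JSideTotal
open Fermat.Agent.S55.CycloRecip37 Fermat.Agent.S55.CycloRecip37.TotalSys
open Fermat.Agent.S55.CycloRecip37.Uncond Fermat.Agent.S55.FrobSys98.Tame

variable {p : ℕ} [hp : Fact p.Prime] (hp2 : p ≠ 2) (S : Finset Nat.Primes) (V : Subgroup GQ)
  (hV : IsOpenSub (globalLevels S) V)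

/-- the twist at the places above `V`: helper37's `ε` at `w ∣ p`, the identity elsewhere -/
def aU (w : PlaceV S V hV) : QZ →+ QZ := RecT.twistU hp2 (w.1 : Nat.Primes)

theorem aU_injective (w : PlaceV S V hV) : Function.Injective (aU hp2 S V hV w) :=
  RecT.twistU_injective hp2 _

theorem aU_surj_primary (w : PlaceV S V hV) (t : QZ) (n : ℕ) (ht : p ^ n • t = 0) :
    ∃ s : QZ, p ^ n • s = 0 ∧ aU hp2 S V hV w s = t :=
  TwistFamily72.epsAt_surj_primary p (RecT.epsU hp2) (RecT.epsU_compat hp2) _ _ t n ht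

/-- the finite-level total invariant: helper37's total system at the level `Ω_i` over `K` -/
def invJUU (hS : S.Nonempty) (i : LevV S V) : H2 ((scFamV S V hV hS).d i).Y.X₂ →+ QZ :=
  SysMore.toH2 (RecT.totalSysU hp2 i.1.1 S) (HV S V i)

/-- the `S`-part of the limit total invariant: the twisted sum of the honest local invariants -/
def InvSU : (restrictLevels (globalLevels S) V hV).H2 (Rep.res V.subtype (JSp S)) →+ QZ :=
  ∑ w : PlaceV S V hV, (aU hp2 S V hV w).comp (invJU S V hV w)

theorem InvSU_apply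
    (x : (restrictLevels (globalLevels S) V hV).H2 (Rep.res V.subtype (JSp S))) :
    InvSU hp2 S V hV x = ∑ w, aU hp2 S V hV w (invBrU S V hV w (locW S V hV w x)) := by
  unfold InvSU
  rw [AddMonoidHom.finset_sum_apply]
  rfl

/-- the limit total invariant on `H²(V, J_S × I^S)` -/
def InvPU : (restrictLevels (globalLevels S) V hV).H2 (XSV S V).X₂ →+ QZ :=
  InvLim53.Total.invTot S V hV qzProj qzProj_one (InvSU hp2 S V hV)

/-- **(HS)** [helper94 `HSAssembly` (H3) + helper64/helper28 (LOC71)]: on classes inflated from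
the finite level `Ω_i`, the `S`-part is computed by the `S`-part `jsSys` of the total system. -/
def HS : Prop :=
  ∀ (i : LevV S V) (y : H2 (Rep.res (HV S V i).subtype (IdeleVal44.JS i.1.1 S))),
    InvSU hp2 S V hV (((InvLim53.Total.famJV S V hV).d i).infl₂ y) =
      SysMore.toH2 (jsSys i.1.1 S (fun q => locSysU q i.1.1) (RecT.twistU hp2)) (HV S V i) y

/-- **(HSplit)** [helper91 `D2Wire`]: the binder `hsplit` of `SCFamily.exists_invCp` at `D2.scFamV`
for the total systems. -/
def HSplit (hS : S.Nonempty) : Prop :=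
  ∀ (i : LevV S V) (x : H2 ((scFamV S V hV hS).d i).Y.X₂) (n : ℕ),
    (p ^ n) • x = 0 →
    ∃ (j : LevV S V) (h : j ≤ i) (m : ℕ)
      (χ : ((scFamV S V hV hS).d j).Q →* Multiplicative (ZMod (p ^ m))),
      FinLayerHyp ((scFamV S V hV hS).d j).Y p m χ (invJUU hp2 S V hV hS j) ∧
      (res₂ ((scFamV S V hV hS).d j).Y.X₂ χ.ker).hom
        ((SCDatum.tr₂ ((scFamV S V hV hS).mono h)).hom x) = 0

/-- **(HAlpha)** [helper91 `D2Wire`]: the binder `halpha` of `SCFamily.exists_invCp` at `D2.scFamV`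
for the total systems. -/
def HAlpha (hS : S.Nonempty) : Prop :=
  ∀ i : LevV S V,
    ∃ (j : LevV S V) (h : j ≤ i) (m : ℕ)
      (χ : ((scFamV S V hV hS).d j).Q →* Multiplicative (ZMod (p ^ m))),
      FinLayerHyp ((scFamV S V hV hS).d j).Y p m χ (invJUU hp2 S V hV hS j) ∧
      Nat.card (InfRes9.pPrimary p (H2 ((scFamV S V hV hS).d i).Y.X₃)) ∣ p ^ m ∧
      p ^ m ∣ (SCDatum.q ((scFamV S V hV hS).mono h)).ker.index ∧
      Limits.IsZero (groupCohomology
        (Rep.res (SCDatum.q ((scFamV S V hV hS).mono h)).ker.subtype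
          ((scFamV S V hV hS).d j).Y.X₃) 1) ∧
      ∃ invJN : H2 (Rep.res (SCDatum.q ((scFamV S V hV hS).mono h)).ker.subtype
          ((scFamV S V hV hS).d j).Y.X₂) →+ QZ,
        (∀ y : H2 ((scFamV S V hV hS).d j).Y.X₂,
          invJN ((res₂ ((scFamV S V hV hS).d j).Y.X₂
            (SCDatum.q ((scFamV S V hV hS).mono h)).ker).hom y) =
            (SCDatum.q ((scFamV S V hV hS).mono h)).ker.index • invJUU hp2 S V hV hS j y) ∧
        ∃ invCN : H2 (Rep.res (SCDatum.q ((scFamV S V hV hS).mono h)).ker.subtype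
            ((scFamV S V hV hS).d j).Y.X₃) →+ QZ,
          Function.Injective invCN ∧
          ∀ x : H2 (Rep.res (SCDatum.q ((scFamV S V hV hS).mono h)).ker.subtype
              ((scFamV S V hV hS).d j).Y.X₂),
            invCN ((pushS₂ ((scFamV S V hV hS).d j).Y.g
              (SCDatum.q ((scFamV S V hV hS).mono h)).ker).hom x) = invJN x

variable {S V}

/-- `hinvJ`: the limit total invariant is computed at the finite levels by the total systems -/
theorem InvPU_infl₂ (hS : S.Nonempty) (hHS : HS hp2 S V hV) (i : LevV S V)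
    (x : H2 ((scFamV S V hV hS).d i).Y.X₂) :
    InvPU hp2 S V hV (((scFamV S V hV hS).d i).dat₂.infl₂ x) = invJUU hp2 S V hV hS i x :=
  InvLim53.Total.invTot_infl₂ S V hV qzProj qzProj_one (InvSU hp2 S V hV)
    (fun i => jsSys i.1.1 S (fun q => locSysU q i.1.1) (RecT.twistU hp2)) hHS i x

/-- **THE CORE over `V` from the three named finite-level facts.** -/
theorem core_of_named (hS : S.Nonempty) (hHS : HS hp2 S V hV) (hsplit : HSplit hp2 S V hV hS)
    (halpha : HAlpha hp2 S V hV hS) : Core p S V hV (aU hp2 S V hV) :=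
  core_of_limit hV hS (aU hp2 S V hV) (InvPU hp2 S V hV)
    (fun x => (InvLim53.Total.invTot_inlV S V hV qzProj qzProj_one (InvSU hp2 S V hV) _).trans
      (InvSU_apply hp2 S V hV _))
    (invJUU hp2 S V hV hS) (InvPU_infl₂ hp2 hV hS hHS) hsplit halpha

variable (S)

/-- **`AllCore p S` from the three named finite-level facts** (hence (P1) and (P6) by
`globalRightExact_of_allCore`, `globalCokerDim_of_allCore`). -/
theorem allCore_of_named (hpS : pPrime p ∈ S)
    (h : ∀ (V : Subgroup GQ) (hV : IsOpenSub (globalLevels S) V),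
      (∀ σ ∈ V, cycloChar p σ = 1) →
      HS hp2 S V hV ∧ HSplit hp2 S V hV ⟨_, hpS⟩ ∧ HAlpha hp2 S V hV ⟨_, hpS⟩) :
    AllCore p S := fun V hV hmu =>
  ⟨aU hp2 S V hV, aU_injective hp2 S V hV, aU_surj_primary hp2 S V hV,
    core_of_named hp2 hV ⟨_, hpS⟩ (h V hV hmu).1 (h V hV hmu).2.1 (h V hV hmu).2.2⟩

end Fermat.Agent.S55.LimDesc99.A3
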