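/-
S55 / 35-LIM (L-d) (helper99): **`A3.HAlpha` UNCONDITIONALLY**: the binder `halpha` of
`GlobalInv91.SCFamily.exists_invCp` at `D2.scFamV S V hV hS` for the total systems `invJUU`, from

* helper91 `GlobalInv91.D2Alpha.halpha_D2_of_recN` (the whole `halpha` from ONE Sys-level input
  `RecN`: reciprocity of the total system on the tower classes at every level),
* helper37 `CycloRecip37.RecTInfl.totalSysU_carry_eq_zero'` (= `RecN`, no level condition),
* helper77 `Adapt77.NamedWire.halpha_named_of_D2` (transport from the `toH2top (restrict …)` normal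
  form `D2Wire.invJU` to the named Prop `A3.HAlpha`).
-/
import Fermat.Agent.S55.LimDesc99.AllCoreFinal
import Fermat.Agent.S55.GlobalInv91.D2Alpha
import Fermat.Agent.S55.Adapt77.NamedWire
import Fermat.Agent.S55.CycloRecip37.RecTInfl

set_option autoImplicit false
set_option linter.unusedSectionVars false
set_option linter.unusedVariables false

open CategoryTheory groupCohomology ExtCitation

namespace Fermat.Agent.S55.LimDesc99.A3

open Fermat.Agent.S55.Profin15 Fermat.Agent.S55.Profin15.LevelStr Fermat.Agent.S55.CD3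
open Fermat.Agent.S55.Idele73.Basic Fermat.Agent.S55.QZ33
open Fermat.Agent.S55.CS79.FamilyCS Fermat.Agent.S55.CS79.LevelClass
open Fermat.Agent.S55.GlobalInv91
open Fermat.Agent.S55.LimDesc99 Fermat.Agent.S55.LimDesc99.D2

variable {p : ℕ} [hp : Fact p.Prime] (hp2 : p ≠ 2) {S : Finset Nat.Primes} {V : Subgroup GQ}
  (hV : IsOpenSub (globalLevels S) V)

/-- helper91's Sys-level input `RecN` of `halpha` IS helper37's level-free reciprocity. -/
theorem recN99 (hpS : pPrime p ∈ S) : D2Alpha.RecN p hp2 S V := fun j M hM N' a ha =>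
  CycloRecip37.RecTInfl.totalSysU_carry_eq_zero' hp2 j.1.unr
    (unrOutside S j.1.1 j.1.unr) hpS M hM N' a ha

/-- **(HAlpha), unconditional.** -/
theorem hAlpha (hpS : pPrime p ∈ S) (hmu : ∀ σ ∈ V, cycloChar p σ = 1) :
    HAlpha hp2 S V hV ⟨_, hpS⟩ :=
  Adapt77.NamedWire.halpha_named_of_D2 hp2 hpS hV fun i =>
    D2Alpha.halpha_D2_of_recN p hp2 S hpS V hV hmu (recN99 hp2 hpS) i

end Fermat.Agent.S55.LimDesc99.A3
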