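/-
S55 / 35-LIM (helper99): insurance twin of the `S`-part binder (HS), part a: per `q ∈ S`.
-/
import Fermat.Agent.S55.LimDesc99.AllCoreFinal
import Fermat.Agent.S55.JSH2_64.CoindCompat
import Fermat.Agent.S55.JSH2_64.LocCompat
import Fermat.Agent.S55.CycloRecip37.JqIsoEApply
import Fermat.Agent.S55.InvLim53.TotalU

set_option autoImplicit false
set_option linter.unusedSectionVars false
set_option linter.unusedVariables false

open CategoryTheory groupCohomology ExtCitation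

noncomputable section

namespace Fermat.Agent.S55.LimDesc99.HS99

open Fermat.Agent.S55.Profin15 Fermat.Agent.S55.Profin15.LevelStr Fermat.Agent.S55.CD3
open Fermat.Agent.S55.ESDiv20 hiding GQ Qb
open Fermat.Agent.S55.ESRep20 Fermat.Agent.S55.GlobalMod94.JS
open Fermat.Agent.S55.Idele73 Fermat.Agent.S55.Idele73.Basic Fermat.Agent.S55.Idele73.Local
open Fermat.Agent.S55.CS79.Limit Fermat.Agent.S55.CS79.FamilyCS Fermat.Agent.S55.CS79.LevelClass
open Fermat.Agent.S55.CS79.FormationCS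
open Fermat.Agent.S55.QZ33
open Fermat.Agent.S55.LimDesc99
open Fermat.Agent.S55.GlobalMod94.OpenJS Fermat.Agent.S55.GlobalMod94.JSideUncond
open Fermat.Agent.S55.GlobalMod94.JSideTotal Fermat.Agent.S55.GlobalMod94.OpenDatum
open Fermat.Agent.S55.GlobalMod94.LimitMackey
open Fermat.Agent.S55.CycloRecip37 Fermat.Agent.S55.CycloRecip37.GSys
open Fermat.Agent.S55.CycloRecip37.TotalSys Fermat.Agent.S55.CycloRecip37.CoindSys
open Fermat.Agent.S55.IdeleCoh54.IdealSys
open Fermat.Agent.S55.P2Local71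

attribute [local instance] IdeleVal44.factPrimes44 IdeleCoh54.IdealSys.fintypeGalL

variable (S : Finset Nat.Primes) (V : Subgroup GQ) (hV : IsOpenSub (globalLevels S) V)
  (i : LevV S V)

/-- the finite-level cochain at `q`: the `q`-component of (the extension by zero of) `ȳ`, read
through `JqIsoE⁻¹` -/
def fq99 (q : IdeleVal44.InS S)
    (c : cocycles₂ (Rep.res (HV S V i).subtype (IdeleVal44.JS i.1.1 S))) :
    GalL i.1.1 × GalL i.1.1 → Rep.coind (jE (q.1 : ℕ) i.1.1) (EUnits (q.1 : ℕ) i.1.1) :=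
  fun x => (JqIsoE (q.1 : ℕ) i.1.1).inv.hom
    (compC (fun q : IdeleVal44.InS S => Jq (q.1 : ℕ) i.1.1) q (GSys.ext0 (HV S V i) c.1) x)

theorem isCocOn_fq99 (q : IdeleVal44.InS S)
    (c : cocycles₂ (Rep.res (HV S V i).subtype (IdeleVal44.JS i.1.1 S))) :
    IsCocOn (Rep.coind (jE (q.1 : ℕ) i.1.1) (EUnits (q.1 : ℕ) i.1.1)) (HV S V i)
      (fq99 S V i q c) :=
  hom_isCocOn (JqIsoE (q.1 : ℕ) i.1.1).inv
    (isCocOn_compC (fun q : IdeleVal44.InS S => Jq (q.1 : ℕ) i.1.1)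
      (isCocOn_ext0 (HV S V i) c.1 c.2) q)

/-- the pointwise hypothesis `hc` of helper64's `sum_locw_eq_coindS` for the inflated cocycle -/
theorem hc99 (q : ↥S)
    (c : cocycles₂ (Rep.res (HV S V i).subtype (IdeleVal44.JS i.1.1 S))) (v v' : ↥V) (γ : GQ) :
    (CS79.Smooth.smoothIncl (globalLevels S) (Rep.coind (rS S q) (AS S q))
        (((((InvLim53.Total.famJV S V hV).d i).inflZ₂ c :
          ↥((restrictLevels (globalLevels S) V hV).Z₂ (Rep.res V.subtype (JSp S)))) :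
            ↥V × ↥V → Rep.res V.subtype (JSp S)) (v, v') q)).1 γ =
      eLin ((q : Nat.Primes) : ℕ) i.1.1
        ((fq99 S V i q c (resL i.1.1 v, resL i.1.1 v')).1 (resL i.1.1 γ)) := by
  rw [fq99, JqIsoEApply.eLin_JqIsoE_inv, compC_apply,
    ext0_of_mem (HV S V i) c.1 ⟨v, v.2, rfl⟩ ⟨v', v'.2, rfl⟩]
  rfl

/-- `jE ∘ resE = resL ∘ localGaloisToGlobal` -/
theorem hj99 (q : ↥S) (τ : Gq ((q : Nat.Primes) : ℕ)) :
    jE ((q : Nat.Primes) : ℕ) i.1.1 (resE ((q : Nat.Primes) : ℕ) i.1.1 τ) =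
      resL i.1.1 (rS S q τ) :=
  jE_resE ((q : Nat.Primes) : ℕ) i.1.1 τ

/-- **per `q ∈ S`**: the sum of the local invariants at the places above `q` of the localisations
of a class inflated from the level `Ω_i` is the coinduced local system at that level. -/
theorem sum_invBrU_locW (q : ↥S)
    (c : cocycles₂ (Rep.res (HV S V i).subtype (IdeleVal44.JS i.1.1 S))) :
    ∑ x : ↥(RS S V hV q), invBrU S V hV ⟨q, x⟩ (locW S V hV ⟨q, x⟩
        (((InvLim53.Total.famJV S V hV).d i).infl₂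
          ((H2π (Rep.res (HV S V i).subtype (IdeleVal44.JS i.1.1 S))).hom c))) =
      CoindSys.coindS (locSys71 (q : Nat.Primes) i.1.1) (HV S V i) (fq99 S V i q c) := by
  have h := Datum.infl₂_H2π ((InvLim53.Total.famJV S V hV).d i) c
  have key := JSH2_64.CoindCompat.sum_locw_eq_coindS (globalLevels S) (rS S) (AS S) V hV (RS S V hV)
    (𝒱S S V) (hcontS S V hV) q (resL i.1.1) (resE ((q : Nat.Primes) : ℕ) i.1.1)
    (jE ((q : Nat.Primes) : ℕ) i.1.1) (hj99 S V i q) (EUnits ((q : Nat.Primes) : ℕ) i.1.1)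
    (eLin ((q : Nat.Primes) : ℕ) i.1.1) (locSys71 (q : Nat.Primes) i.1.1)
    (resL_surjective i.1.1) (resE_surjective ((q : Nat.Primes) : ℕ) i.1.1) i.2
    (isRepr_RS S V hV q)
    (fun x => (invBrU S V hV ⟨q, x⟩).toAddMonoidHom)
    (fun x g hg hz => JSH2_64.LocCompat.invW71_infl_eq_locSys71 (q : Nat.Primes) i.1.1
      (Mackey.twSub (rS S q) V (x : GQ))
      (GlobalMod94.JSideFinal.isOpen_Gw S V hV q (x : GQ))
      (Mackey.twSub (jE ((q : Nat.Primes) : ℕ) i.1.1) (V.map (resL i.1.1)) (resL i.1.1 (x : GQ)))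
      (fun τ => JSH2_64.CoindCompat.mem_twSub_iff (rS S q) (resL i.1.1)
        (resE ((q : Nat.Primes) : ℕ) i.1.1) (jE ((q : Nat.Primes) : ℕ) i.1.1) (hj99 S V i q)
        V i.2 (x : GQ) τ) g hg hz)
    (fq99 S V i q c) (isCocOn_fq99 S V i q c)
    (((InvLim53.Total.famJV S V hV).d i).inflZ₂ c)
    (fun v v' γ => hc99 S V hV i q c v v' γ)
  refine Eq.trans (Finset.sum_congr rfl fun x _ => ?_) key
  exact congrArg (fun z => invBrU S V hV ⟨q, x⟩ (locW S V hV ⟨q, x⟩ z)) h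

end Fermat.Agent.S55.LimDesc99.HS99
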