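/-
S55 / 35-LIM (helper99): **the `S`-part binder (HS), UNCONDITIONALLY** (insurance twin of helper94's
`HSAssembly`): on classes inflated from the finite level `Ω_i`, the twisted sum of the honest local
invariants `InvSU = ∑_w aU w ∘ inv_w ∘ loc_w` is computed by the `S`-part `jsSys` of helper37's
total system.  Per `q ∈ S` this is helper64's `CoindCompat.sum_locw_eq_coindS` fed with helper64's
(LOC71) `LocCompat.invW71_infl_eq_locSys71` (`HS99a.sum_invBrU_locW`); the right-hand side is
unfolded by helper53's `TotalU.toH2_jsSys_H2π`.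
-/
import Fermat.Agent.S55.LimDesc99.HS99a

set_option autoImplicit false
set_option linter.unusedSectionVars false
set_option linter.unusedVariables false

open CategoryTheory groupCohomology ExtCitation

namespace Fermat.Agent.S55.LimDesc99.HS99

open Fermat.Agent.S55.Profin15 Fermat.Agent.S55.Profin15.LevelStr Fermat.Agent.S55.CD3
open Fermat.Agent.S55.ESDiv20 hiding GQ Qb
open Fermat.Agent.S55.ESRep20 Fermat.Agent.S55.GlobalMod94.JS
open Fermat.Agent.S55.Idele73 Fermat.Agent.S55.Idele73.Basic Fermat.Agent.S55.Idele73.Local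
open Fermat.Agent.S55.CS79.Limit Fermat.Agent.S55.CS79.FamilyCS Fermat.Agent.S55.CS79.LevelClass
open Fermat.Agent.S55.CS79.FormationCS
open Fermat.Agent.S55.QZ33
open Fermat.Agent.S55.LimDesc99
open Fermat.Agent.S55.GlobalMod94.OpenJS Fermat.Agent.S55.GlobalMod94.JSideUncond
open Fermat.Agent.S55.GlobalMod94.JSideTotal Fermat.Agent.S55.GlobalMod94.OpenDatum
open Fermat.Agent.S55.CycloRecip37 Fermat.Agent.S55.CycloRecip37.GSys
open Fermat.Agent.S55.CycloRecip37.TotalSys Fermat.Agent.S55.CycloRecip37.CoindSys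
open Fermat.Agent.S55.CycloRecip37.Uncond
open Fermat.Agent.S55.IdeleCoh54.IdealSys
open Fermat.Agent.S55.P2Local71

attribute [local instance] IdeleVal44.factPrimes44 IdeleCoh54.IdealSys.fintypeGalL

variable {p : ℕ} [hp : Fact p.Prime] (hp2 : p ≠ 2)
  (S : Finset Nat.Primes) (V : Subgroup GQ) (hV : IsOpenSub (globalLevels S) V)

/-- **(HS), unconditional.** -/
theorem hS99 : A3.HS hp2 S V hV := by
  intro i y
  obtain ⟨c, rfl⟩ := ProfinGlobal22.H2π_surjective _ y
  rw [InvLim53.TotalU.toH2_jsSys_H2π, A3.InvSU_apply]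
  rw [Fintype.sum_sigma]
  refine Finset.sum_congr rfl fun q _ => ?_
  exact (map_sum (RecT.twistU hp2 (q : Nat.Primes)) _ _).symm.trans
    (congrArg (RecT.twistU hp2 (q : Nat.Primes)) (sum_invBrU_locW S V hV i q c))

end Fermat.Agent.S55.LimDesc99.HS99
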