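/-
S55 / 35-LIM (L-d) (helper99): **`A3.AllCore p S` UNCONDITIONALLY** (`p` odd, `p ∈ S`): the three
named finite-level facts of `AllCoreFinal` are theorems — `HS` (`HS99.hS99`), `HSplit`
(`A3.hSplit`), `HAlpha` (`A3.hAlpha`).  Hence (P1) `Contract34.GlobalRightExact p S` and (P6)
`Contract34.GlobalCokerDim p S` by `CorePlugs`, and the frozen S55 statement by helper33's
`Final33h.s55_of_allCore` / helper20's `RecipFinal20.s55_of_allCore_only`.
-/
import Fermat.Agent.S55.LimDesc99.HS99
import Fermat.Agent.S55.LimDesc99.HSplit99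
import Fermat.Agent.S55.LimDesc99.HAlpha99

set_option autoImplicit false
set_option linter.unusedSectionVars false
set_option linter.unusedVariables false

open CategoryTheory groupCohomology ExtCitation

namespace Fermat.Agent.S55.LimDesc99.A3

open Fermat.Agent.S55.Profin15 Fermat.Agent.S55.CD3 Fermat.Agent.S55.Idele73.Basic

variable {p : ℕ} [hp : Fact p.Prime]

/-- **`AllCore p S`, unconditionally** (`p` odd, `p ∈ S`). -/
theorem allCore_uncond (hp2 : p ≠ 2) (S : Finset Nat.Primes) (hpS : pPrime p ∈ S) :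
    AllCore p S :=
  allCore_of_named hp2 S hpS fun V hV hmu =>
    ⟨HS99.hS99 hp2 S V hV, hSplit hp2 hV hpS hmu, hAlpha hp2 hV hpS hmu⟩

/-- (P1), unconditionally. -/
theorem globalRightExact_uncond (hp2 : p ≠ 2) (S : Finset Nat.Primes) (hpS : pPrime p ∈ S) :
    Contract34.GlobalRightExact p S :=
  globalRightExact_of_allCore hpS hp2 (allCore_uncond hp2 S hpS)

/-- (P6), unconditionally. -/
theorem globalCokerDim_uncond (hp2 : p ≠ 2) (S : Finset Nat.Primes) (hpS : pPrime p ∈ S) :
    Contract34.GlobalCokerDim p S :=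
  globalCokerDim_of_allCore hpS hp2 (allCore_uncond hp2 S hpS)

end Fermat.Agent.S55.LimDesc99.A3
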