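/-
S55 / 35-LIM (L-d) (helper99): `TransferLevel` restated with the hypotheses LITERALLY in
helper91's vocabulary (`GlobalInv91.trans₂`, `GlobalInv91.pushQ₂`: the conclusions of
`GlobalInv91.alpha_trans`, `reciprocity_trans`, `hasse_trans`), via helper49's `Bridge91`.
-/
import Fermat.Agent.S55.LimDesc99.TransferLevel
import Fermat.Agent.S55.LevelColim49.Bridge91

set_option autoImplicit false

open CategoryTheory groupCohomology
open Fermat.Agent.S55.Profin15 Fermat.Agent.S55.LevelColim49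
open Fermat.Agent.S55.PrimaryExt14

universe u

noncomputable section

namespace Fermat.Agent.S55.LimDesc99

variable {k G : Type u} [CommRing k] [Group G] {𝒰 : LevelStr G}
  {E J C : Rep.{u, u, u} k G} (i : E ⟶ J) (π : J ⟶ C)
  (hses : LevelStr.ShortExact (A := E) (B := J) (C := C) i.hom.toLinearMap π.hom.toLinearMap)
  (hJ : 𝒰.IsSmooth J) {T : Type*} [AddCommGroup T] (p : ℕ) [Fact p.Prime]

include hses hJ in
/-- **35-LIM, packaged, helper91's vocabulary**: the three hypotheses are exactly the shapes of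
the conclusions of `GlobalInv91.alpha_trans` (second component), `reciprocity_trans`,
`hasse_trans` (for a deeper level `V` depending on `U`). -/
theorem exists_invCp_of_layers91 (invJ : 𝒰.H2 J →+ T)
    (invJU : ∀ U : Lev 𝒰, H2 (J.quotientToInvariants U.1) →+ T)
    (hinvJ : ∀ (U : Lev 𝒰) (x : H2 (J.quotientToInvariants U.1)),
      invJ (infl₂ J 𝒰 U.2 x) = invJU U x)
    (hα : ∀ (U : Lev 𝒰) (x : H2 (C.quotientToInvariants U.1)) (n : ℕ), (p ^ n) • x = 0 →
      ∃ (V : Lev 𝒰) (h : V ≤ U) (y : H2 (J.quotientToInvariants V.1)) (m : ℕ), (p ^ m) • y = 0 ∧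
        (GlobalInv91.pushQ₂ π V.1).hom y =
          (GlobalInv91.trans₂ C (show V.1 ≤ U.1 from h)).hom x)
    (hβto : ∀ (U : Lev 𝒰) (e : H2 (E.quotientToInvariants U.1)) (n : ℕ), (p ^ n) • e = 0 →
      ∃ (V : Lev 𝒰) (h : V ≤ U),
        invJU V ((GlobalInv91.pushQ₂ i V.1).hom
          ((GlobalInv91.trans₂ E (show V.1 ≤ U.1 from h)).hom e)) = 0)
    (hβfrom : ∀ (U : Lev 𝒰) (x : H2 (J.quotientToInvariants U.1)) (n : ℕ), (p ^ n) • x = 0 →
      invJU U x = 0 →
      ∃ (V : Lev 𝒰) (h : V ≤ U) (e : H2 (E.quotientToInvariants V.1)),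
        (GlobalInv91.pushQ₂ i V.1).hom e =
          (GlobalInv91.trans₂ J (show V.1 ≤ U.1 from h)).hom x) :
    ∃ invC : primary p (𝒰.H2 C) →+ T,
      (∀ y : primary p (𝒰.H2 J),
        invC (mapPrimary p (pushH2 (𝒰 := 𝒰) π) y) = invJ (y : 𝒰.H2 J)) ∧
      (∀ c : primary p (𝒰.H2 C), invC c = 0 → c = 0) := by
  refine exists_invCp_of_layers i π hses hJ p invJ invJU hinvJ ?_ ?_ ?_
  · intro U x n hx
    obtain ⟨V, h, y, m, hy, hyx⟩ := hα U x n hx
    exact ⟨V, h, y, m, hy, by rw [← trans₂91_eq]; exact hyx⟩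
  · intro U e n he
    obtain ⟨V, h, hV⟩ := hβto U e n he
    exact ⟨V, h, by rw [← trans₂91_eq]; exact hV⟩
  · intro U x n hx h0
    obtain ⟨V, h, e, he⟩ := hβfrom U x n hx h0
    exact ⟨V, h, e, by rw [← trans₂91_eq]; exact he⟩

end Fermat.Agent.S55.LimDesc99
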