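/-
S55 / 35-LIM (L-d) (helper99): the canonical family of descent data `(G ⧸ U, A^U)`, `U` running
over the levels (helper49's layers `LevelColim49.layer A U`), as a `LimDesc99.Family`; in
particular `Family`s exist for every smooth module, and results stated for helper49's layers and
for helper79's descent data transfer both ways.
-/
import Fermat.Agent.S55.LimDesc99.InvLimit
import Fermat.Agent.S55.LimDesc99.Level

set_option autoImplicit false

open CategoryTheory groupCohomology
open Fermat.Agent.S55.Profin15 Fermat.Agent.S55.CS79.InvDescent Fermat.Agent.S55.CS79.FinLevel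
open Fermat.Agent.S55.LevelColim49

universe u

noncomputable section

namespace Fermat.Agent.S55.LimDesc99

variable {k G : Type u} [CommRing k] [Group G] (𝒰 : LevelStr G) (A : Rep.{u, u, u} k G)

/-- helper49's layer is an invariant descent datum in helper79's sense -/
theorem isInvDescent_layer (U : Subgroup G) [U.Normal] :
    IsInvDescent A (QuotientGroup.mk' U) (layer A U) (incl A U) where
  inj := incl_injective A U
  mem_range a := by
    rw [mem_range_incl_iff]
    constructor
    · intro h s hs
      exact h s ((QuotientGroup.eq_one_iff s).1 hs)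
    · intro h s hs
      exact h s ((QuotientGroup.eq_one_iff s).2 hs)
  equivariant g b := (incl_ρ A U g b).symm

/-- the canonical datum of a level -/
def Datum.ofLevel (U : Lev 𝒰) : Datum 𝒰 A where
  Q := G ⧸ U.1
  p := QuotientGroup.mk' U.1
  B := layer A U.1
  e := incl A U.1
  desc := isInvDescent_layer A U.1
  surj := QuotientGroup.mk'_surjective U.1
  ker_mem := by
    rw [QuotientGroup.ker_mk']
    exact U.2

theorem Datum.ofLevel_ker (U : Lev 𝒰) : (Datum.ofLevel 𝒰 A U).p.ker = U.1 :=
  QuotientGroup.ker_mk' U.1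

/-- **the canonical family** -/
def Family.ofLevels : Family 𝒰 A (Lev 𝒰) where
  d := Datum.ofLevel 𝒰 A
  mono {U V} h := by
    rw [Datum.ofLevel_ker, Datum.ofLevel_ker]
    exact h
  nonempty := by
    obtain ⟨U, hU⟩ := 𝒰.nonempty
    exact ⟨⟨U, hU⟩⟩
  directed := lev_directed 𝒰
  cofinal V hV U := by
    obtain ⟨W, hWU, hWV⟩ := lev_directed 𝒰 U ⟨V, hV⟩
    exact ⟨W, hWU, by rw [Datum.ofLevel_ker]; exact hWV⟩

/-- the inflation of the canonical datum is helper49's inflation -/
theorem Datum.ofLevel_infl₂ (U : Lev 𝒰) (x : H2 (layer A U.1)) :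
    (Datum.ofLevel 𝒰 A U).infl₂ x = LevelColim49.infl₂ A 𝒰 U.2 x := by
  obtain ⟨c, rfl⟩ := ProfinGlobal22.H2π_surjective (layer A U.1) x
  rw [LevelColim49.infl₂_H2π]
  exact Datum.infl₂_H2π (Datum.ofLevel 𝒰 A U) c

end Fermat.Agent.S55.LimDesc99
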