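/-
S55 / 35-LIM (L-d) (helper99): the limit invariant in helper63's `CDArith63` vocabulary
(`CDArith63.H2 𝒰 ρ`, `H2mk`, `mapH2`), i.e. LITERALLY the binders `invC`, `hinjC`, `hcompat` of
`CDArith63.h3Van_of_formation` / `FormationP` and of helper70's `Recip70.reciprocity_of_formation`,
produced from finite-level statements over a cofinal family of descent data.
-/
import Fermat.Agent.S55.LimDesc99.InvLimit
import Fermat.Agent.S55.Profin15.Adapter63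

set_option autoImplicit false

open CategoryTheory groupCohomology
open Fermat.Agent.S55.Profin15 Fermat.Agent.S55.CS79.InvDescent Fermat.Agent.S55.CS79.FinLevel
open Fermat.Agent.S55.CDArith63

universe u

noncomputable section

namespace Fermat.Agent.S55.LimDesc99

variable {k Γ : Type u} [CommRing k] [Group Γ] {𝒰 : LevelStr Γ}

section Single

variable {A : Rep.{u, u, u} k Γ}

/-- inflation from a datum into helper63's level `H²` -/
def Datum.inflCD (d : Datum 𝒰 A) : H2 d.B →+ CDArith63.H2 𝒰 A.ρ :=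
  (Adapter63.equiv 𝒰 A).symm.toAddMonoidHom.comp d.infl₂.toAddMonoidHom

theorem Datum.inflCD_apply (d : Datum 𝒰 A) (x : H2 d.B) :
    d.inflCD x = (Adapter63.equiv 𝒰 A).symm (d.infl₂ x) := rfl

theorem Datum.equiv_inflCD (d : Datum 𝒰 A) (x : H2 d.B) :
    Adapter63.equiv 𝒰 A (d.inflCD x) = d.infl₂ x := by
  rw [Datum.inflCD_apply, AddEquiv.apply_symm_apply]

theorem Datum.pull₂_mem_Z2 (d : Datum 𝒰 A) (c : cocycles₂ d.B) :
    pull₂ d.p d.e (c : d.Q × d.Q → d.B) ∈ Z2 𝒰 A.ρ :=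
  (Adapter63.mem_Z2_iff_mem_Z₂ 𝒰 A _).2 (d.inflZ₂ c).2

/-- on cocycles, `inflCD` is the class of the pull-back -/
theorem Datum.inflCD_H2π (d : Datum 𝒰 A) (c : cocycles₂ d.B) :
    d.inflCD ((H2π d.B).hom c) = H2mk 𝒰 A.ρ ⟨pull₂ d.p d.e c, d.pull₂_mem_Z2 c⟩ := by
  rw [Datum.inflCD_apply, Datum.infl₂_H2π, Adapter63.equiv_symm_H2π]
  rfl

variable {ι : Type*} [Preorder ι] {T : Type*} [AddCommGroup T] {F : Family 𝒰 A ι}
  (hA : 𝒰.IsSmooth A)

/-- **`invC` in helper63's vocabulary** -/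
def Family.InvSystem.limCD (I : F.InvSystem T) : CDArith63.H2 𝒰 A.ρ →+ T :=
  (I.lim hA).comp (Adapter63.equiv 𝒰 A).toAddMonoidHom

theorem Family.InvSystem.limCD_apply (I : F.InvSystem T) (x : CDArith63.H2 𝒰 A.ρ) :
    I.limCD hA x = I.lim hA (Adapter63.equiv 𝒰 A x) := rfl

theorem Family.InvSystem.limCD_inflCD (I : F.InvSystem T) (i : ι) (x : H2 (F.d i).B) :
    I.limCD hA ((F.d i).inflCD x) = I.inv i x := by
  rw [I.limCD_apply, Datum.equiv_inflCD, I.lim_infl₂]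

/-- the value of `invC` on the class of a pulled-back finite-level cocycle -/
theorem Family.InvSystem.limCD_H2mk_pull₂ (I : F.InvSystem T) (i : ι)
    (c : cocycles₂ (F.d i).B) :
    I.limCD hA (H2mk 𝒰 A.ρ ⟨pull₂ (F.d i).p (F.d i).e c, (F.d i).pull₂_mem_Z2 c⟩) =
      I.inv i ((H2π (F.d i).B).hom c) := by
  rw [← Datum.inflCD_H2π, I.limCD_inflCD]

/-- **`hinjC`**: injectivity of `invC` on `p`-primary classes from the finite levels -/
theorem Family.InvSystem.limCD_eq_zero_of_primary (I : F.InvSystem T) (p : ℕ)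
    (h : ∀ (i : ι) (x : H2 (F.d i).B) (n : ℕ), (p ^ n) • x = 0 → I.inv i x = 0 → x = 0)
    (y : CDArith63.H2 𝒰 A.ρ) (n : ℕ) (hy : (p ^ n) • y = 0) (h0 : I.limCD hA y = 0) : y = 0 := by
  have h1 : Adapter63.equiv 𝒰 A y = 0 :=
    I.lim_eq_zero_of_primary hA p h _ n (by rw [← map_nsmul, hy, map_zero]) h0
  exact (AddEquiv.map_eq_zero_iff _).1 h1

/-- every class of helper63's level `H²` is inflated from a finite level (torsion form) -/
theorem Family.exists_inflCD_eq_of_nsmul_eq_zero (F : Family 𝒰 A ι) (hA : 𝒰.IsSmooth A)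
    (y : CDArith63.H2 𝒰 A.ρ) (n : ℕ) (hy : n • y = 0) :
    ∃ (i : ι) (x : H2 (F.d i).B), n • x = 0 ∧ (F.d i).inflCD x = y := by
  obtain ⟨i, x, hx, hxy⟩ := F.exists_infl₂_eq_of_nsmul_eq_zero hA (Adapter63.equiv 𝒰 A y) n
    (by rw [← map_nsmul, hy, map_zero])
  exact ⟨i, x, hx, by rw [Datum.inflCD_apply, hxy, AddEquiv.symm_apply_apply]⟩

theorem Family.exists_inflCD_eq (F : Family 𝒰 A ι) (hA : 𝒰.IsSmooth A)
    (y : CDArith63.H2 𝒰 A.ρ) : ∃ (i : ι) (x : H2 (F.d i).B), (F.d i).inflCD x = y := by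
  obtain ⟨i, x, -, hxy⟩ := F.exists_inflCD_eq_of_nsmul_eq_zero hA y 0 (zero_nsmul y)
  exact ⟨i, x, hxy⟩

end Single

section Natural

variable {J C : Rep.{u, u, u} k Γ} (π : J →ₗ[k] C) (hπ : LevelStr.IsEquivariant π)
  {ι : Type*} [Preorder ι] {T : Type*} [AddCommGroup T]

/-- naturality of `inflCD` in the coefficients -/
theorem Datum.mapH2_inflCD (dJ : Datum 𝒰 J) (dC : Datum 𝒰 C) (r : dC.Q →* dJ.Q)
    (hr : ∀ g, r (dC.p g) = dJ.p g) (ψ : Rep.res r dJ.B ⟶ dC.B)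
    (hψ : ∀ b : dJ.B, dC.e (ψ.hom b) = π (dJ.e b)) (x : H2 dJ.B) :
    mapH2 𝒰 J.ρ C.ρ π.toAddMonoidHom hπ (dJ.inflCD x) =
      dC.inflCD ((groupCohomology.map r ψ 2).hom x) := by
  apply (Adapter63.equiv 𝒰 C).injective
  rw [Adapter63.equiv_mapH2 𝒰 J π hπ, Datum.equiv_inflCD, Datum.equiv_inflCD,
    Datum.H2map_infl₂ π hπ dJ dC r hr ψ hψ]

/-- **`hcompat`** in helper63's vocabulary: `invC (π_* x) = G x` for all `x` of level `H²(J)`, from
the finite-level identities `G (infl_i x) = inv_i (φ_i x)`. -/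
theorem Family.limCD_mapH2_eq (FJ : Family 𝒰 J ι) (FC : Family 𝒰 C ι) (hJ : 𝒰.IsSmooth J)
    (hC : 𝒰.IsSmooth C) (IC : FC.InvSystem T) (φ : ∀ i : ι, H2 (FJ.d i).B →+ H2 (FC.d i).B)
    (hφ : ∀ (i : ι) (x : H2 (FJ.d i).B),
      mapH2 𝒰 J.ρ C.ρ π.toAddMonoidHom hπ ((FJ.d i).inflCD x) = (FC.d i).inflCD (φ i x))
    (G : CDArith63.H2 𝒰 J.ρ →+ T)
    (hG : ∀ (i : ι) (x : H2 (FJ.d i).B), G ((FJ.d i).inflCD x) = IC.inv i (φ i x))
    (y : CDArith63.H2 𝒰 J.ρ) :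
    IC.limCD hC (mapH2 𝒰 J.ρ C.ρ π.toAddMonoidHom hπ y) = G y := by
  obtain ⟨i, x, rfl⟩ := FJ.exists_inflCD_eq hJ y
  rw [hφ, IC.limCD_inflCD, hG]

/-- the same with the finite-level maps given by Mathlib's `groupCohomology.map` -/
theorem Family.limCD_mapH2_eq_of_map (FJ : Family 𝒰 J ι) (FC : Family 𝒰 C ι)
    (hJ : 𝒰.IsSmooth J) (hC : 𝒰.IsSmooth C) (IC : FC.InvSystem T)
    (r : ∀ i : ι, (FC.d i).Q →* (FJ.d i).Q) (hr : ∀ i g, r i ((FC.d i).p g) = (FJ.d i).p g)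
    (ψ : ∀ i : ι, Rep.res (r i) (FJ.d i).B ⟶ (FC.d i).B)
    (hψ : ∀ (i : ι) (b : (FJ.d i).B), (FC.d i).e ((ψ i).hom b) = π ((FJ.d i).e b))
    (G : CDArith63.H2 𝒰 J.ρ →+ T)
    (hG : ∀ (i : ι) (x : H2 (FJ.d i).B),
      G ((FJ.d i).inflCD x) = IC.inv i ((groupCohomology.map (r i) (ψ i) 2).hom x))
    (y : CDArith63.H2 𝒰 J.ρ) :
    IC.limCD hC (mapH2 𝒰 J.ρ C.ρ π.toAddMonoidHom hπ y) = G y :=
  Family.limCD_mapH2_eq π hπ FJ FC hJ hC IC
    (fun i => (groupCohomology.map (r i) (ψ i) 2).hom.toAddMonoidHom)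
    (fun i x => Datum.mapH2_inflCD π hπ (FJ.d i) (FC.d i) (r i) (hr i) (ψ i) (hψ i) x) G hG y

/-- **(L-d), packaged**: from a compatible system of finite-level invariants of `C` which is
injective on `p`-primary classes and computes `G` (the sum of the local invariants on level
`H²(J)`) on inflated classes, the three binders `invC`, `hinjC`, `hcompat` of
`CDArith63.h3Van_of_formation`. -/
theorem Family.exists_invC (FJ : Family 𝒰 J ι) (FC : Family 𝒰 C ι) (hJ : 𝒰.IsSmooth J)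
    (hC : 𝒰.IsSmooth C) (IC : FC.InvSystem T) (p : ℕ)
    (hinj : ∀ (i : ι) (x : H2 (FC.d i).B) (n : ℕ), (p ^ n) • x = 0 → IC.inv i x = 0 → x = 0)
    (r : ∀ i : ι, (FC.d i).Q →* (FJ.d i).Q) (hr : ∀ i g, r i ((FC.d i).p g) = (FJ.d i).p g)
    (ψ : ∀ i : ι, Rep.res (r i) (FJ.d i).B ⟶ (FC.d i).B)
    (hψ : ∀ (i : ι) (b : (FJ.d i).B), (FC.d i).e ((ψ i).hom b) = π ((FJ.d i).e b))
    (G : CDArith63.H2 𝒰 J.ρ →+ T)
    (hG : ∀ (i : ι) (x : H2 (FJ.d i).B),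
      G ((FJ.d i).inflCD x) = IC.inv i ((groupCohomology.map (r i) (ψ i) 2).hom x)) :
    ∃ invC : CDArith63.H2 𝒰 C.ρ →+ T,
      (∀ (i : ι) (x : H2 (FC.d i).B), invC ((FC.d i).inflCD x) = IC.inv i x) ∧
      (∀ (y : CDArith63.H2 𝒰 C.ρ) (n : ℕ), (p ^ n) • y = 0 → invC y = 0 → y = 0) ∧
      (∀ x : CDArith63.H2 𝒰 J.ρ, invC (mapH2 𝒰 J.ρ C.ρ π.toAddMonoidHom hπ x) = G x) :=
  ⟨IC.limCD hC, fun i x => IC.limCD_inflCD hC i x,
    fun y n hy h0 => IC.limCD_eq_zero_of_primary hC p hinj y n hy h0,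
    fun x => Family.limCD_mapH2_eq_of_map π hπ FJ FC hJ hC IC r hr ψ hψ G hG x⟩

end Natural

end Fermat.Agent.S55.LimDesc99
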