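/-
S55 / 35-LIM (L-d) (helper99): THE FORMATION INVARIANTS FROM THE LAYERS, in the `W`-indexed form of
helper14's `LimAlg14.exists_formation_inv`: local invariants `invJp w` given only on the
`p`-primary part of level `H²(J)`, whose SUM is computed on the layers by `invJU U`, and the three
finite-level statements (α), (β→), (β←) of 35-GEN.  Output = the four binders
`hinj hsurj hinjC hcompat` of `CDArith63.GlobalForm.formation_res` (conjuncts (1)–(4) of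
helper63's `P1Chain.HasFormationDatum`), with TOTAL maps `invJ w`, `invC`.
-/
import Fermat.Agent.S55.LimDesc99.TransferLevel

set_option autoImplicit false

open CategoryTheory groupCohomology
open Fermat.Agent.S55.Profin15 Fermat.Agent.S55.LevelColim49
open Fermat.Agent.S55.PrimaryExt14

universe u

noncomputable section

namespace Fermat.Agent.S55.LimDesc99

variable {k G : Type u} [CommRing k] [Group G] {𝒰 : LevelStr G}

/-- the inflation of a `p`-primary layer class is `p`-primary -/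
theorem infl₂_mem_primary (p : ℕ) (A : Rep.{u, u, u} k G) {U : Subgroup G} [U.Normal]
    (hU : U ∈ 𝒰.levels) {x : H2 (layer A U)} (hx : ∃ n : ℕ, (p ^ n) • x = 0) :
    infl₂ A 𝒰 hU x ∈ primary p (𝒰.H2 A) := by
  obtain ⟨n, hn⟩ := hx
  exact ⟨n, by rw [← map_nsmul, hn, map_zero]⟩

section Package

variable {E J C : Rep.{u, u, u} k G} (i : E ⟶ J) (π : J ⟶ C)
  (hses : LevelStr.ShortExact (A := E) (B := J) (C := C) i.hom.toLinearMap π.hom.toLinearMap)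
  (hJ : 𝒰.IsSmooth J) {T : Type*} [AddCommGroup T] (p : ℕ) [Fact p.Prime]
  {W : Type*} [Fintype W]

omit [Fact p.Prime] in
include hses hJ in
/-- **(B→) for `p`-primary invariants, from the layers.** -/
theorem level_Bto_primary (invJp : W → (primary p (𝒰.H2 J) →+ T))
    (invJU : ∀ U : Lev 𝒰, H2 (layer J U.1) →+ T)
    (hinvJ : ∀ (U : Lev 𝒰) (x : H2 (layer J U.1)) (hx : ∃ n : ℕ, (p ^ n) • x = 0),
      ∑ w, invJp w ⟨infl₂ J 𝒰 U.2 x, infl₂_mem_primary p J U.2 hx⟩ = invJU U x)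
    (hβto : ∀ (U : Lev 𝒰) (e : H2 (layer E U.1)) (n : ℕ), (p ^ n) • e = 0 →
      ∃ (V : Lev 𝒰) (h : V ≤ U),
        invJU V ((pushLayer i V.1 2).hom (trans₂ E (show V.1 ≤ U.1 from h) e)) = 0)
    (e : primary p (𝒰.H2 E)) :
    ∑ w, invJp w (mapPrimary p (pushH2 (𝒰 := 𝒰) i) e) = 0 := by
  have hE : 𝒰.IsSmooth E := hses.smooth_left 𝒰 hJ
  obtain ⟨e, n, hn⟩ := e
  obtain ⟨U, x, hx, rfl⟩ := (presH2 hE).exists_infl_eq_of_nsmul_eq_zero (p ^ n) e hn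
  obtain ⟨V, h, hV⟩ := hβto U x n hx
  have hz : ∃ m : ℕ, (p ^ m) • (pushLayer i V.1 2).hom (trans₂ E (show V.1 ≤ U.1 from h) x) = 0 :=
    ⟨n, by rw [← map_nsmul, ← map_nsmul, hx, map_zero, map_zero]⟩
  rw [← hV, ← hinvJ V _ hz]
  refine Finset.sum_congr rfl fun w _ => congrArg (invJp w) (Subtype.ext ?_)
  show pushH2 i ((presH2 hE).infl U x) = _
  rw [← (presH2 hE).infl_trans h x]
  exact H2map_infl₂ i 𝒰 V.2 _

omit [Fact p.Prime] in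
include hses hJ in
/-- **(B←) for `p`-primary invariants, from the layers.** -/
theorem level_Bfrom_primary (invJp : W → (primary p (𝒰.H2 J) →+ T))
    (invJU : ∀ U : Lev 𝒰, H2 (layer J U.1) →+ T)
    (hinvJ : ∀ (U : Lev 𝒰) (x : H2 (layer J U.1)) (hx : ∃ n : ℕ, (p ^ n) • x = 0),
      ∑ w, invJp w ⟨infl₂ J 𝒰 U.2 x, infl₂_mem_primary p J U.2 hx⟩ = invJU U x)
    (hβfrom : ∀ (U : Lev 𝒰) (x : H2 (layer J U.1)) (n : ℕ), (p ^ n) • x = 0 → invJU U x = 0 →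
      ∃ (V : Lev 𝒰) (h : V ≤ U) (e : H2 (layer E V.1)),
        (pushLayer i V.1 2).hom e = trans₂ J (show V.1 ≤ U.1 from h) x)
    (y : primary p (𝒰.H2 J)) (h0 : ∑ w, invJp w y = 0) :
    (y : 𝒰.H2 J) ∈ Set.range (pushH2 (𝒰 := 𝒰) i) := by
  have hE : 𝒰.IsSmooth E := hses.smooth_left 𝒰 hJ
  obtain ⟨y, n, hn⟩ := y
  obtain ⟨U, x, hx, rfl⟩ := (presH2 hJ).exists_infl_eq_of_nsmul_eq_zero (p ^ n) y hn
  have h1 : invJU U x = 0 := by
    rw [← hinvJ U x ⟨n, hx⟩]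
    exact h0
  obtain ⟨V, h, e, he⟩ := hβfrom U x n hx h1
  refine ⟨infl₂ E 𝒰 V.2 e, ?_⟩
  show pushH2 i (infl₂ E 𝒰 V.2 e) = (presH2 hJ).infl U x
  rw [← (presH2 hJ).infl_trans h x]
  show 𝒰.H2map _ _ (infl₂ E 𝒰 V.2 e) = infl₂ J 𝒰 V.2 (trans₂ J _ x)
  rw [H2map_infl₂ i 𝒰 V.2 e, he]

include hses hJ in
/-- **THE FORMATION INVARIANTS FROM THE LAYERS** (helper33 #2203 (a)+(b), `W`-indexed form). -/
theorem exists_formation_inv_of_layers (invJp : W → (primary p (𝒰.H2 J) →+ T))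
    (hinjp : ∀ x : primary p (𝒰.H2 J), (∀ w, invJp w x = 0) → x = 0)
    (hsurjp : ∀ (t : W → T) (n : ℕ), (∀ w, (p ^ n) • t w = 0) →
      ∃ x : primary p (𝒰.H2 J), (p ^ n) • x = 0 ∧ ∀ w, invJp w x = t w)
    (invJU : ∀ U : Lev 𝒰, H2 (layer J U.1) →+ T)
    (hinvJ : ∀ (U : Lev 𝒰) (x : H2 (layer J U.1)) (hx : ∃ n : ℕ, (p ^ n) • x = 0),
      ∑ w, invJp w ⟨infl₂ J 𝒰 U.2 x, infl₂_mem_primary p J U.2 hx⟩ = invJU U x)
    (hα : ∀ (U : Lev 𝒰) (x : H2 (layer C U.1)) (n : ℕ), (p ^ n) • x = 0 →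
      ∃ (V : Lev 𝒰) (h : V ≤ U) (y : H2 (layer J V.1)) (m : ℕ), (p ^ m) • y = 0 ∧
        (pushLayer π V.1 2).hom y = trans₂ C (show V.1 ≤ U.1 from h) x)
    (hβto : ∀ (U : Lev 𝒰) (e : H2 (layer E U.1)) (n : ℕ), (p ^ n) • e = 0 →
      ∃ (V : Lev 𝒰) (h : V ≤ U),
        invJU V ((pushLayer i V.1 2).hom (trans₂ E (show V.1 ≤ U.1 from h) e)) = 0)
    (hβfrom : ∀ (U : Lev 𝒰) (x : H2 (layer J U.1)) (n : ℕ), (p ^ n) • x = 0 → invJU U x = 0 →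
      ∃ (V : Lev 𝒰) (h : V ≤ U) (e : H2 (layer E V.1)),
        (pushLayer i V.1 2).hom e = trans₂ J (show V.1 ≤ U.1 from h) x) :
    ∃ (invJ : W → (𝒰.H2 J →+ T)) (invC : 𝒰.H2 C →+ T),
      (∀ w (x : primary p (𝒰.H2 J)), invJ w (x : 𝒰.H2 J) = invJp w x) ∧
      (∀ (x : 𝒰.H2 J) (n : ℕ), (p ^ n) • x = 0 → (∀ w, invJ w x = 0) → x = 0) ∧
      (∀ (t : W → T) (n : ℕ), (∀ w, (p ^ n) • t w = 0) →
        ∃ x : 𝒰.H2 J, (p ^ n) • x = 0 ∧ ∀ w, invJ w x = t w) ∧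
      (∀ (y : 𝒰.H2 C) (n : ℕ), (p ^ n) • y = 0 → invC y = 0 → y = 0) ∧
      (∀ x : 𝒰.H2 J, invC (pushH2 (𝒰 := 𝒰) π x) = ∑ w, invJ w x) := by
  have hC : 𝒰.IsSmooth C := hses.smooth_right 𝒰 hJ
  have hex := hses.exact_H2map_H2map 𝒰 hJ
  refine LimAlg14.exists_formation_inv p (pushH2 (𝒰 := 𝒰) i) (pushH2 (𝒰 := 𝒰) π) ?_ ?_
    (H2_torsion15 E) (H2_torsion15 J) (H2_torsion15 C) invJp hinjp hsurjp ?_
    (level_Bto_primary i π hses hJ p invJp invJU hinvJ hβto)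
    (level_Bfrom_primary i π hses hJ p invJp invJU hinvJ hβfrom)
  · intro e
    exact (hex _).2 ⟨e, rfl⟩
  · intro y hy
    exact (hex y).1 hy
  · intro c
    obtain ⟨y, hy, hyc⟩ := level_A π hJ hC p hα c.1 c.2
    exact ⟨⟨y, hy⟩, Subtype.ext hyc⟩

end Package

end Fermat.Agent.S55.LimDesc99
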