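/-
S55 / 35-LIM (L-d) (helper99): slot A3 of `s55_final`, LITERALLY: helper63's
`CDArith63.P1Chain.HasFormationDatum p S V hV` (the single `Prop` the limit step has to deliver for
(P1)) from
  * `p`-primary local invariants on level `H²(V, J_S)` (jointly injective / surjective: 52 + 22),
  * their sum computed on the finite layers, with (α), (β→), (β←) of 35-GEN on the layers of
    `E_S → J_S → C'_S` restricted to `V`,
  * the `p`-primary vanishing of level `H¹(V, C'_S)` (33 + capitulation, L-a) and `H³(V, J_S)[p] = 0`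
    (local Tate + Shapiro, 52).
-/
import Fermat.Agent.S55.LimDesc99.FormationDatum
import Fermat.Agent.S55.CDArith63.P1Chain
import Fermat.Agent.S55.CS79.Restrict

set_option autoImplicit false

open CategoryTheory groupCohomology ExtCitation
open Fermat.Agent.S55.Profin15 Fermat.Agent.S55.LevelColim49 Fermat.Agent.S55.CD3
open Fermat.Agent.S55.PrimaryExt14 Fermat.Agent.S55.CDArith63 Fermat.Agent.S55.CDArith63.P1Chain
open Fermat.Agent.S55.CDArith63.Adapter
open Fermat.Agent.S55.ESDiv20 Fermat.Agent.S55.ESRep20 Fermat.Agent.S55.GlobalMod94.JS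
open Fermat.Agent.S55.QZ33

noncomputable section

namespace Fermat.Agent.S55.LimDesc99

variable (p : ℕ) [hp : Fact p.Prime] (S : Finset Nat.Primes) (V : Subgroup GQ)
  (hV : IsOpenSub (globalLevels S) V)

/-- `E_S` restricted to `V` -/
abbrev ESv : Rep.{0, 0, 0} ℤ ↥V := Rep.res V.subtype (ESRep S)
/-- `J_S` restricted to `V` -/
abbrev JSv : Rep.{0, 0, 0} ℤ ↥V := Rep.res V.subtype (JSp S)
/-- `C'_S = J_S / E_S` restricted to `V` -/
abbrev CSv : Rep.{0, 0, 0} ℤ ↥V := Rep.res V.subtype (CSp S)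
/-- `E_S → J_S` restricted to `V` -/
abbrev ιv : ESv S V ⟶ JSv S V := (Rep.resFunctor V.subtype).map (ιES S)
/-- `J_S → C'_S` restricted to `V` -/
abbrev πv : JSv S V ⟶ CSv S V := (Rep.resFunctor V.subtype).map (πCS S)

theorem shortExact_v (hS : S.Nonempty) :
    LevelStr.ShortExact (A := ESv S V) (B := JSv S V) (C := CSv S V) (ιv S V).hom.toLinearMap
      (πv S V).hom.toLinearMap :=
  (shortExact_ES_JS_CS S hS).res V.subtype

theorem JSv_isSmooth : (restrictLevels (globalLevels S) V hV).IsSmooth (JSv S V) :=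
  Fermat.Agent.S55.CS79.Restrict.isSmooth_res (JSp_isSmooth S) hV

/-- **slot A3, literally, from the layers.** -/
theorem hasFormationDatum_of_layers (hS : S.Nonempty) {W : Type} [Fintype W] [Nonempty W]
    (invJp : W → (primary p ((restrictLevels (globalLevels S) V hV).H2 (JSv S V)) →+ QZ))
    (hinjp : ∀ x : primary p ((restrictLevels (globalLevels S) V hV).H2 (JSv S V)),
      (∀ w, invJp w x = 0) → x = 0)
    (hsurjp : ∀ (t : W → QZ) (n : ℕ), (∀ w, (p ^ n) • t w = 0) →
      ∃ x : primary p ((restrictLevels (globalLevels S) V hV).H2 (JSv S V)),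
        (p ^ n) • x = 0 ∧ ∀ w, invJp w x = t w)
    (invJU : ∀ U : Lev (restrictLevels (globalLevels S) V hV), H2 (layer (JSv S V) U.1) →+ QZ)
    (hinvJ : ∀ (U : Lev (restrictLevels (globalLevels S) V hV)) (x : H2 (layer (JSv S V) U.1))
      (hx : ∃ n : ℕ, (p ^ n) • x = 0),
      ∑ w, invJp w ⟨infl₂ (JSv S V) (restrictLevels (globalLevels S) V hV) U.2 x,
        infl₂_mem_primary p (JSv S V) U.2 hx⟩ = invJU U x)
    (hα : ∀ (U : Lev (restrictLevels (globalLevels S) V hV)) (x : H2 (layer (CSv S V) U.1))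
      (n : ℕ), (p ^ n) • x = 0 →
      ∃ (V' : Lev (restrictLevels (globalLevels S) V hV)) (h : V' ≤ U)
        (y : H2 (layer (JSv S V) V'.1)) (m : ℕ), (p ^ m) • y = 0 ∧
        (pushLayer (πv S V) V'.1 2).hom y = trans₂ (CSv S V) (show V'.1 ≤ U.1 from h) x)
    (hβto : ∀ (U : Lev (restrictLevels (globalLevels S) V hV)) (e : H2 (layer (ESv S V) U.1))
      (n : ℕ), (p ^ n) • e = 0 →
      ∃ (V' : Lev (restrictLevels (globalLevels S) V hV)) (h : V' ≤ U),
        invJU V' ((pushLayer (ιv S V) V'.1 2).hom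
          (trans₂ (ESv S V) (show V'.1 ≤ U.1 from h) e)) = 0)
    (hβfrom : ∀ (U : Lev (restrictLevels (globalLevels S) V hV)) (x : H2 (layer (JSv S V) U.1))
      (n : ℕ), (p ^ n) • x = 0 → invJU U x = 0 →
      ∃ (V' : Lev (restrictLevels (globalLevels S) V hV)) (h : V' ≤ U)
        (e : H2 (layer (ESv S V) V'.1)),
        (pushLayer (ιv S V) V'.1 2).hom e = trans₂ (JSv S V) (show V'.1 ≤ U.1 from h) x)
    (hH1C : ∀ (y : (restrictLevels (globalLevels S) V hV).H1 (CSv S V)) (n : ℕ),
      (p ^ n) • y = 0 → y = 0)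
    (hH3J : H3TorsVan (restrictLevels (globalLevels S) V hV) p (resSub (canρ (JSp S)) V)) :
    HasFormationDatum p S V hV := by
  obtain ⟨invJ, invC, -, h1, h2, h3, h4⟩ :=
    exists_formation_inv_of_layers (𝒰 := restrictLevels (globalLevels S) V hV) (ιv S V) (πv S V)
      (shortExact_v S V hS) (JSv_isSmooth S V hV) p invJp hinjp hsurjp invJU hinvJ hα hβto hβfrom
  exact ⟨W, inferInstance, inferInstance, invJ, invC, h1, h2, h3, h4, hH1C, hH3J⟩

end Fermat.Agent.S55.LimDesc99
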