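/-
S55 / 35-LIM (L-d) (helper99): slot A3 (`CDArith63.P1Chain.HasFormationDatum p S V hV`) from
(α), (β→), (β←) on an ARBITRARY cofinal family of finite-level descent data of
`E_S → J_S → C'_S` restricted to `V` (family form of `hasFormationDatum_of_layers`).
-/
import Fermat.Agent.S55.LimDesc99.FormationFamily
import Fermat.Agent.S55.LimDesc99.FormationDatumQ

set_option autoImplicit false

open CategoryTheory groupCohomology ExtCitation
open Fermat.Agent.S55.Profin15 Fermat.Agent.S55.CD3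
open Fermat.Agent.S55.PrimaryExt14 Fermat.Agent.S55.CDArith63 Fermat.Agent.S55.CDArith63.P1Chain
open Fermat.Agent.S55.CDArith63.Adapter
open Fermat.Agent.S55.ESDiv20 Fermat.Agent.S55.ESRep20 Fermat.Agent.S55.GlobalMod94.JS
open Fermat.Agent.S55.QZ33

noncomputable section

namespace Fermat.Agent.S55.LimDesc99

variable (p : ℕ) [hp : Fact p.Prime] (S : Finset Nat.Primes) (V : Subgroup GQ)
  (hV : IsOpenSub (globalLevels S) V)

/-- **slot A3, literally, from a cofinal family of descent data.** -/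
theorem hasFormationDatum_of_family (hS : S.Nonempty) {W : Type} [Fintype W] [Nonempty W]
    {ι : Type*} [Preorder ι]
    (FE : Family (restrictLevels (globalLevels S) V hV) (ESv S V) ι)
    (FJ : Family (restrictLevels (globalLevels S) V hV) (JSv S V) ι)
    (FC : Family (restrictLevels (globalLevels S) V hV) (CSv S V) ι)
    (a : ∀ j : ι, H2 (FE.d j).B →+ H2 (FJ.d j).B) (b : ∀ j : ι, H2 (FJ.d j).B →+ H2 (FC.d j).B)
    (ha : ∀ (j : ι) (x : H2 (FE.d j).B),
      pushH2 (𝒰 := restrictLevels (globalLevels S) V hV) (ιv S V) ((FE.d j).infl₂ x) =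
        (FJ.d j).infl₂ (a j x))
    (hb : ∀ (j : ι) (x : H2 (FJ.d j).B),
      pushH2 (𝒰 := restrictLevels (globalLevels S) V hV) (πv S V) ((FJ.d j).infl₂ x) =
        (FC.d j).infl₂ (b j x))
    (invJp : W → (primary p ((restrictLevels (globalLevels S) V hV).H2 (JSv S V)) →+ QZ))
    (hinjp : ∀ x : primary p ((restrictLevels (globalLevels S) V hV).H2 (JSv S V)),
      (∀ w, invJp w x = 0) → x = 0)
    (hsurjp : ∀ (t : W → QZ) (n : ℕ), (∀ w, (p ^ n) • t w = 0) →
      ∃ x : primary p ((restrictLevels (globalLevels S) V hV).H2 (JSv S V)),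
        (p ^ n) • x = 0 ∧ ∀ w, invJp w x = t w)
    (invJU : ∀ j : ι, H2 (FJ.d j).B →+ QZ)
    (hinvJ : ∀ (j : ι) (x : H2 (FJ.d j).B) (hx : ∃ n : ℕ, (p ^ n) • x = 0),
      ∑ w, invJp w ⟨(FJ.d j).infl₂ x, (FJ.d j).infl₂_mem_primary p hx⟩ = invJU j x)
    (hα : ∀ (j : ι) (x : H2 (FC.d j).B) (n : ℕ), (p ^ n) • x = 0 →
      ∃ (l : ι) (h : l ≤ j) (y : H2 (FJ.d l).B) (m : ℕ), (p ^ m) • y = 0 ∧
        b l y = Datum.trans₂ (FC.mono h) x)
    (hβto : ∀ (j : ι) (e : H2 (FE.d j).B) (n : ℕ), (p ^ n) • e = 0 →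
      ∃ (l : ι) (h : l ≤ j), invJU l (a l (Datum.trans₂ (FE.mono h) e)) = 0)
    (hβfrom : ∀ (j : ι) (x : H2 (FJ.d j).B) (n : ℕ), (p ^ n) • x = 0 → invJU j x = 0 →
      ∃ (l : ι) (h : l ≤ j) (e : H2 (FE.d l).B), a l e = Datum.trans₂ (FJ.mono h) x)
    (hH1C : ∀ (y : (restrictLevels (globalLevels S) V hV).H1 (CSv S V)) (n : ℕ),
      (p ^ n) • y = 0 → y = 0)
    (hH3J : H3TorsVan (restrictLevels (globalLevels S) V hV) p (resSub (canρ (JSp S)) V)) :
    HasFormationDatum p S V hV := by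
  obtain ⟨invJ, invC, -, h1, h2, h3, h4⟩ :=
    Family.exists_formation_inv (𝒰 := restrictLevels (globalLevels S) V hV) (ιv S V) (πv S V)
      (shortExact_v S V hS) (JSv_isSmooth S V hV) p FE FJ FC a b ha hb invJp hinjp hsurjp
      invJU hinvJ hα hβto hβfrom
  exact ⟨W, inferInstance, inferInstance, invJ, invC, h1, h2, h3, h4, hH1C, hH3J⟩

end Fermat.Agent.S55.LimDesc99
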