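/-
S55 / 35-LIM (L-d) (helper99): **`A3.HSplit` UNCONDITIONALLY** (insurance twin of helper91's D2Wire):
the binder `hsplit` of `GlobalInv91.SCFamily.exists_invCp` at `D2.scFamV S V hV hS` for the total
systems `invJUU`, from

* helper22 `DegSum22.D2.exists_level_res₂_tr₂_towerCharK` (the `res₂ ∘ tr₂ = 0` conjunct: J-split by
  a deep tower layer, `M₀` depending on the class only),
* helper87 `CycloGlobal87.D2Level.{towerLevV, exists_finLayerHyp_D2_data}` (the level `Ω_i·ℚ_M` and
  the tower data on `Gal(Ω_j/K)`),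
* helper77 `Adapt77.FinLayerV.finLayerHyp_D2_V` (`FinLayerHyp` with all fields: helper37 `recT`,
  helper54 `fullDeg`, the two inequalities),
* helper93 `UnrExt93.locSysE_inj` (the local systems detect coboundaries).
-/
import Fermat.Agent.S55.LimDesc99.AllCoreFinal
import Fermat.Agent.S55.DegSum22.D2Hsplit
import Fermat.Agent.S55.CycloGlobal87.D2Level3
import Fermat.Agent.S55.Adapt77.FinLayerV
import Fermat.Agent.S55.UnrExt93.InflInj

set_option autoImplicit false
set_option linter.unusedSectionVars false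
set_option linter.unusedVariables false

open CategoryTheory groupCohomology ExtCitation

namespace Fermat.Agent.S55.LimDesc99.A3

open Fermat.Agent.S55.Profin15 Fermat.Agent.S55.Profin15.LevelStr Fermat.Agent.S55.CD3
open Fermat.Agent.S55.Idele73.Basic Fermat.Agent.S55.QZ33
open Fermat.Agent.S55.CS79.FamilyCS Fermat.Agent.S55.CS79.LevelClass
open Fermat.Agent.S55.GlobalInv91
open Fermat.Agent.S55.LimDesc99 Fermat.Agent.S55.LimDesc99.D2
open Fermat.Agent.S55.CycloRecip37 Fermat.Agent.S55.CycloRecip37.Uncond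
open Fermat.Agent.S55.CycloGlobal87 Fermat.Agent.S55.CycloGlobal87.D2Level

variable {p : ℕ} [hp : Fact p.Prime] (hp2 : p ≠ 2) {S : Finset Nat.Primes} {V : Subgroup GQ}
  (hV : IsOpenSub (globalLevels S) V)

/-- **(HSplit), unconditional.** -/
theorem hSplit (hpS : pPrime p ∈ S) (hmu : ∀ σ ∈ V, cycloChar p σ = 1) :
    HSplit hp2 S V hV ⟨_, hpS⟩ := by
  intro i x n hx
  obtain ⟨M₀, hM₀⟩ := DegSum22.D2.exists_level_res₂_tr₂_towerCharK (T := QZ) S V hV ⟨_, hpS⟩
    p hp2 i x n hx
  obtain ⟨s, M₁, hM₁⟩ := exists_finLayerHyp_D2_data p hp2 S V (max 1 M₀) (le_max_left _ _)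
  obtain ⟨j₀, hje, hj, hex, hs⟩ := hM₁ M₁ le_rfl (towerLevV p S hpS V i M₁)
    (towerField_le_towerLevV p S hpS V i M₁)
  refine ⟨towerLevV p S hpS V i M₁, towerLevV_le p S hpS V i M₁, max 1 M₀, _,
    Adapt77.FinLayerV.finLayerHyp_D2_V hV hpS hp2 hmu (towerLevV p S hpS V i M₁) j₀ (max 1 M₀) s
      ((towerField_mono p hje).trans (towerField_le_towerLevV p S hpS V i M₁)) hj
      (le_max_left _ _) hex hs, ?_⟩
  exact hM₀ j₀ (max 1 M₀) ((le_max_right 1 M₀).trans (Nat.le_add_left _ _))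
    (towerLevV p S hpS V i M₁) (towerLevV_le p S hpS V i M₁) _ hj
    (fun q => locSysU q.1 (towerLevV p S hpS V i M₁).1.1)
    (fun q D f hf h0 => Fermat.Agent.S55.UnrExt93.locSysE_inj _ hf h0)

end Fermat.Agent.S55.LimDesc99.A3
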